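/-
MLT / stream [P] = AtP, Hecke side (helper4): **CONTRACT v2** (file renamed from `Contracts/AtP.lean`;
helper5's group-scheme side is `Contracts/AtPG.lean`).

v2 (blueprint v1, lead m49/D2): the base problem is FLAT whenever `W[p]` is finite at `p`
(`p ∣ v_p(Δ)`, including good reduction), so the Hecke side owes LEVEL LOWERING AT `p` for general
`W`: `MltpLowerAtPContract` (= the frozen S39/S40 shape, restricted to semistable `W` and
`p ∈ {3, 5}`).  The v1 statements (`MltpLowerContract`, `MltpOrdContract`) stay: the first is the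
supersingular part of `MltpLowerAtPContract` in Galois-theoretic dress, the second serves case (C)
(`W[p]` not finite at `p`) and the FLAT → ORD step.

Everything "at `p`" is phrased through ONE abstract notion, `mltpResOrdinary W p`: for every place
of `ℚ̄` over `p` the Galois module `W[p]` has a non-zero quotient on which the inertia group acts
trivially.  (With `det = χ` ramified at `p` (`p` odd) the kernel `Σ_σ (σ - 1) W[p]` of the largest
such quotient is then a line stable under the decomposition group, i.e. the residual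
representation is ordinary in the Prelude's sense `IsOrdinaryAt`.)  The dichotomy
`mltpResOrdinary W p ∨ ¬ mltpResOrdinary W p` is tautological and replaces the trichotomy
multiplicative / good ordinary / supersingular:

* `MltpLowerContract` (= (PN) + the old/new dichotomy): if `W[p]` is NOT ordinary at `p`, then `p`
  can be removed from the level (`p ∥ M`).  [Then `W` has good reduction at `p` (stream W:
  multiplicative ⇒ ordinary) and the FLAT problem applies.]
* `MltpOrdContract` (= (F) + `a_p² = 1` for `p`-new forms + `p`-stabilisation): if `W[p]` IS ordinary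
  at `p`, then `W` is residually modular of level `M` resp. `M p` by an eigenform `f` (eigen for all
  Hecke operators, in particular `U_p`) whose `p`-th coefficient is a unit at `𝔪`.  [Then `e·H ≠ 0`
  for Hida's idempotent and the ORD problem applies; stream W: ordinary residual ⇒ `ρ_W` ordinary.]
-/
import Mathlib
import Fermat.Prelude.Def_FLTPrelim_ModularRep
import Fermat.Prelude.Def_FLTPrelim_Ramification

set_option autoImplicit false

namespace Fermat.Agent.MLT

open WeierstrassCurve CuspForm

/-- the Galois module `W[p]` over `ℚ̄` (the module of `WeierstrassCurve.ModRepIsIrreducible`) -/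
abbrev mltpTors (W : WeierstrassCurve ℤ) (p : ℕ) : Type :=
  ↥(Submodule.torsionBy ℤ
    ((W.map (Int.castRingHom ℚ)).toAffine.baseChange (AlgebraicClosure ℚ)).Point p)

/-- **`W[p]` is ordinary at `p`**: for every place over `p`, a proper subgroup modulo which the
inertia group acts trivially -/
def mltpResOrdinary (W : WeierstrassCurve ℤ) (p : ℕ) : Prop :=
  ∀ P : ValuationSubring (AlgebraicClosure ℚ), P.LiesOverPrime p →
    ∃ L : AddSubgroup (mltpTors W p), L ≠ ⊤ ∧
      ∀ σ ∈ P.inertiaSubgroupIn ℚ, ∀ x : mltpTors W p, σ • x - x ∈ L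

/-- `W` is residually modular of level `M` by an eigenform whose `p`-th coefficient is a unit at
the maximal ideal (`M` will be divisible by `p`: the eigenform is `U_p`-ordinary) -/
def mltpIsOrdResiduallyModularOfLevel (W : WeierstrassCurve ℤ) (p M : ℕ) : Prop :=
  ∃ (f : CuspForm (CongruenceSubgroup.Gamma0 M) 2) (𝔪 : Ideal (integralClosure ℤ ℂ)),
    f.IsNormalizedEigenform ∧ 𝔪.IsMaximal ∧ (p : integralClosure ℤ ℂ) ∈ 𝔪 ∧
    (∀ ℓ : ℕ, ℓ.Prime → W.IsGoodPrimeFor ℓ → ¬ ℓ ∣ M → ℓ ≠ p →
      ∃ a : integralClosure ℤ ℂ, (a : ℂ) = ModularFormClass.qCoeff f ℓ ∧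
        a - ((W.apOfModel ℓ : ℤ) : integralClosure ℤ ℂ) ∈ 𝔪) ∧
    ∃ u : integralClosure ℤ ℂ, (u : ℂ) = ModularFormClass.qCoeff f p ∧ u ∉ 𝔪

/-- **CONTRACT (AtP-1)**: not ordinary at `p` ⇒ `p` leaves the level -/
def MltpLowerContract : Prop :=
  ∀ (p : ℕ), p.Prime → p ≠ 2 → ∀ W : WeierstrassCurve ℤ, W.Δ ≠ 0 → W.IsSemistableModel →
    W.ModRepIsIrreducible p → ¬ mltpResOrdinary W p →
    ∀ M : ℕ, 0 < M → p ∣ M → ¬ p ^ 2 ∣ M →
      W.IsResiduallyModularOfLevel p M → W.IsResiduallyModularOfLevel p (M / p)

/-- **CONTRACT (AtP-2)**: ordinary at `p` ⇒ a `U_p`-ordinary eigenform of level `M` resp. `M p` -/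
def MltpOrdContract : Prop :=
  ∀ (p : ℕ), p.Prime → p ≠ 2 → ∀ W : WeierstrassCurve ℤ, W.Δ ≠ 0 → W.IsSemistableModel →
    W.ModRepIsIrreducible p → mltpResOrdinary W p →
    ∀ M : ℕ, 0 < M → ¬ p ^ 2 ∣ M → W.IsResiduallyModularOfLevel p M →
      mltpIsOrdResiduallyModularOfLevel W p (if p ∣ M then M else M * p)

/-- **CONTRACT (AtP-0), v2**: level lowering at `p` for general semistable `W` with `W[p]` finite at
`p` (`p ∣ v_p(Δ)`; for good reduction the hypothesis holds with `v_p(Δ) = 0`) -/
def MltpLowerAtPContract : Prop :=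
  ∀ (p : ℕ), p = 3 ∨ p = 5 → ∀ W : WeierstrassCurve ℤ, W.Δ ≠ 0 → W.IsSemistableModel →
    W.ModRepIsIrreducible p → (p : ℤ) ∣ padicValRat p (W.map (Int.castRingHom ℚ)).Δ →
    ∀ M : ℕ, 0 < M → p ∣ M → ¬ p ^ 2 ∣ M →
      W.IsResiduallyModularOfLevel p M → W.IsResiduallyModularOfLevel p (M / p)

end Fermat.Agent.MLT
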