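/-
Project MLT, stream TWO (helper7): CONTRACTS (statements only, `def … : Prop`).

1. `MltTWOOrdContract` : the Taylor–Wiles-primes statement (shape of frozen S56) for the NON-strict
   `GaloisRep.ordinaryCondition`, under the extra local hypothesis `MltTWOOrdFirstOrderStrict`
   ("every first-order ordinary lift of `ρbar` with cyclotomic determinant is strictly ordinary",
   i.e. `ρbar|_{D_p}` is "très ramifié with `χ₂² = 1`": case C of message m174).  WITHOUT such a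
   hypothesis the statement is FALSE (cases D/E of m174: `χ₂² = 1` and peu ramifié).
2. `MltTWOGrowthContractOrd`, `MltTWOGrowthContractFlat` : the ring-theoretic growth bound (a) of
   the numerical criterion: for `Σ' = Σ ∪ {q}`, `q ∉ Smin ∪ Σ`, `q ≠ p`, a base point
   `x : R_Σ → 𝒪` and the canonical map `π : R_Σ' → R_Σ`,
   `length Φ_{R_Σ'} ≤ length Φ_{R_Σ} + length 𝒪/((q-1)((q+1)² - a_q²))`,
   `Φ_R = ker(x)/ker(x)²`, `a_q = x(tr ρ_Σ(Frob_q))`.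
-/
import Mathlib
import Fermat.Prelude.Def_GaloisRep_DeformationRingData
import Fermat.Prelude.Def_GaloisRep_LocalConditions
import Fermat.Prelude.Def_GaloisRep_StrictOrdinary
import Fermat.Prelude.Def_GaloisRep_Flat
import Fermat.Prelude.Def_GaloisRep_Residual

set_option autoImplicit false

open Polynomial IsLocalRing

namespace Fermat.Agent.MLT

/-- the canonical ring homomorphism `k → k[ε] → residue field of k[ε]` -/
noncomputable def mltoDualResidueHom (k : Type) [Field k] : k →+* ResidueField (DualNumber k) :=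
  (IsLocalRing.residue (DualNumber k)).comp (algebraMap k (DualNumber k))

/-- **Case C hypothesis.**  Every lift `ρ'` of `ρbar` to the dual numbers `k[ε]` which has cyclotomic
determinant and is ordinary at `p` is strictly ordinary at `p`. -/
def MltTWOOrdFirstOrderStrict {k : Type} [Field k] (p : ℕ) (ρbar : ResidualGaloisRep k) : Prop :=
  ∀ ρ' : GaloisRepAdic (DualNumber k),
    ρ'.residual.IsEquiv (ρbar.baseChangeAlong (mltoDualResidueHom k)) →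
    ρ'.DetIsCyclotomic p → ρ'.IsOrdinaryAt p → ρ'.IsStrictOrdinaryAt p

/-- **Contract TWO-1: Taylor–Wiles primes for the non-strict ordinary condition.** -/
def MltTWOOrdContract : Prop :=
  ∀ {𝒪 : Type} [CommRing 𝒪] [IsDomain 𝒪] [IsDiscreteValuationRing 𝒪]
    [IsAdicComplete (maximalIdeal 𝒪) 𝒪] [Finite (ResidueField 𝒪)]
    (p : ℕ) [Fact p.Prime] (_hp2 : p ≠ 2) (_hp𝒪 : (p : 𝒪) ∈ maximalIdeal 𝒪)
    (ρbar : ResidualGaloisRep (ResidueField 𝒪))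
    (_habs : ρbar.IsAbsolutelyIrreducible)
    (_hdet : (GaloisRepAdic.ofResidualGaloisRep ρbar).DetIsCyclotomic p)
    (_hsplit : ∀ σ : AlgebraicClosure ℚ ≃ₐ[ℚ] AlgebraicClosure ℚ,
      ∃ α β : ResidueField 𝒪, LinearMap.charpoly (ρbar.ρ σ) = (X - C α) * (X - C β))
    (_hTW : ∀ (K : Type) [Field K] [Algebra (ResidueField 𝒪) K]
      (G : Subgroup (AlgebraicClosure ℚ ≃ₐ[ℚ] AlgebraicClosure ℚ)), G.index = 2 →
      ∀ V : Submodule K (ρbar.baseChange K).V,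
        (∀ σ ∈ G, ∀ x ∈ V, (ρbar.baseChange K).ρ σ x ∈ V) → V = ⊥ ∨ V = ⊤)
    (S Smin : Finset ℕ) (_hpSmin : p ∈ Smin) (_hSmin : Smin ⊆ S) (_hS : ∀ q ∈ S, q.Prime)
    (_hmin : ∀ q : ℕ, q.Prime → q ≠ p → (q ∈ Smin ↔ ¬ ρbar.IsUnramifiedAt q))
    (_hC : MltTWOOrdFirstOrderStrict p ρbar),
    ∃ r : ℕ, ∀ n : ℕ, ∃ qv : Fin r → ℕ, Function.Injective qv ∧
      (∀ i, (qv i).Prime ∧ qv i ∉ S ∧ p ^ (n + 1) ∣ qv i - 1) ∧
      (∀ i, ∀ P : ValuationSubring (AlgebraicClosure ℚ), P.LiesOverPrime (qv i) →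
        ∀ φ : AlgebraicClosure ℚ ≃ₐ[ℚ] AlgebraicClosure ℚ, P.IsFrobeniusAt φ (qv i) →
          ∃ α β : ResidueField 𝒪, α ≠ β ∧ LinearMap.charpoly (ρbar.ρ φ) = (X - C α) * (X - C β)) ∧
      ∀ DQ : GaloisRep.DeformationRingData 𝒪 ρbar (fun _A _ _ _ ρ =>
          GaloisRep.ordinaryCondition 𝒪 p (Smin ∪ Finset.univ.image qv) ρ ∧
            ∀ q ∈ Smin, q.Prime → q ≠ p → ρ.IsUnipotentOnInertiaAt q),
        ∃ γ : MvPowerSeries (Fin r) 𝒪 →ₐ[𝒪] DQ.R, Function.Surjective γ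

/-- The growth bound (a) for a family `X T` of conditions ("`X` at `p`, unramified outside
`Smin ∪ T`"), `T = Σ` and `T = insert q Σ`. -/
def MltTWOGrowthStatement
    (X : ∀ (𝒪 : Type) [CommRing 𝒪] (_p : ℕ) (_S : Finset ℕ)
      ⦃A : Type⦄ [CommRing A] [IsLocalRing A] [Algebra 𝒪 A], GaloisRepAdic A → Prop) : Prop :=
  ∀ {𝒪 : Type} [CommRing 𝒪] [IsDomain 𝒪] [IsDiscreteValuationRing 𝒪]
    [IsAdicComplete (maximalIdeal 𝒪) 𝒪] [Finite (ResidueField 𝒪)]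
    (p : ℕ) [Fact p.Prime] (_hp2 : p ≠ 2) (_hp𝒪 : (p : 𝒪) ∈ maximalIdeal 𝒪)
    (ρbar : ResidualGaloisRep (ResidueField 𝒪))
    (Smin Sg : Finset ℕ) (q : ℕ) (_hq : q.Prime) (_hqp : q ≠ p) (_hqS : q ∉ Smin ∪ Sg)
    (_hqur : ρbar.IsUnramifiedAt q)
    (D : GaloisRep.DeformationRingData 𝒪 ρbar (fun _A _ _ _ ρ =>
      X 𝒪 p (Smin ∪ Sg) ρ ∧ ∀ ℓ ∈ Smin, ℓ.Prime → ℓ ≠ p → ρ.IsUnipotentOnInertiaAt ℓ))
    (D' : GaloisRep.DeformationRingData 𝒪 ρbar (fun _A _ _ _ ρ =>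
      X 𝒪 p (Smin ∪ insert q Sg) ρ ∧ ∀ ℓ ∈ Smin, ℓ.Prime → ℓ ≠ p → ρ.IsUnipotentOnInertiaAt ℓ))
    (π : D'.R →ₐ[𝒪] D.R) (hπ : IsLocalHom (π : D'.R →+* D.R))
    (_hπρ : (D'.ρ.baseChangeAlong (π : D'.R →+* D.R) hπ).IsEquiv D.ρ)
    (x : D.R →ₐ[𝒪] 𝒪)
    (P : ValuationSubring (AlgebraicClosure ℚ)) (_hP : P.LiesOverPrime q)
    (φ : AlgebraicClosure ℚ ≃ₐ[ℚ] AlgebraicClosure ℚ) (_hφ : P.IsFrobeniusAt φ q),
    Function.Surjective π ∧
    Module.length 𝒪 (RingHom.ker ((x.comp π : D'.R →ₐ[𝒪] 𝒪) : D'.R →+* 𝒪)).Cotangent ≤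
      Module.length 𝒪 (RingHom.ker (x : D.R →+* 𝒪)).Cotangent +
        Module.length 𝒪 (𝒪 ⧸ Ideal.span
          {((q : 𝒪) - 1) * (((q : 𝒪) + 1) ^ 2 - (x (D.ρ.trace φ)) ^ 2)})

/-- **Contract TWO-2 (ord).** -/
def MltTWOGrowthContractOrd : Prop :=
  MltTWOGrowthStatement (fun 𝒪 _ p S => GaloisRep.ordinaryCondition 𝒪 p S)

/-- **Contract TWO-2 (flat).** -/
def MltTWOGrowthContractFlat : Prop :=
  MltTWOGrowthStatement (fun 𝒪 _ p S => GaloisRep.flatCondition 𝒪 p S)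

end Fermat.Agent.MLT
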