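/-
MLT stream Crit (helper6): CONTRACT of the numerical criterion (Diamond's module version of the
Wiles--Lenstra criterion) and of its base case (Tate's formula for complete intersections).
Pure commutative algebra: imports Mathlib only.
-/
import Mathlib

set_option autoImplicit false

namespace Fermat.Agent.MLT

universe u v w x

section Defs

variable {O : Type u} [CommRing O]

/-- The congruence ideal `η = π (Ann_T (ker π))` of an augmented `O`-algebra `π : T → O`. -/
def mltc_eta {T : Type w} [CommRing T] [Algebra O T] (π : T →ₐ[O] O) : Ideal O :=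
  Ideal.map π (Submodule.annihilator (RingHom.ker π))

/-- `length_O (p / p ^ 2)` for `p = ker π`: the length of the cotangent space `Φ` at `π`. -/
noncomputable def mltc_phiLen {R : Type v} [CommRing R] [Algebra O R] (π : R →ₐ[O] O) : ℕ∞ :=
  Module.length O (RingHom.ker π).Cotangent

/-- `H[p]`, the `p`-torsion of `H` for `p = ker π`, as an `O`-submodule. -/
def mltc_torsP {T : Type w} [CommRing T] [Algebra O T] (π : T →ₐ[O] O)
    (H : Type x) [AddCommGroup H] [Module O H] [Module T H] [IsScalarTower O T H] :
    Submodule O H :=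
  (Submodule.torsionBySet T H (RingHom.ker π : Set T)).restrictScalars O

/-- `H[I]`, the `I`-torsion of `H` for `I = Ann_T (ker π)`, as an `O`-submodule. -/
def mltc_torsI {T : Type w} [CommRing T] [Algebra O T] (π : T →ₐ[O] O)
    (H : Type x) [AddCommGroup H] [Module O H] [Module T H] [IsScalarTower O T H] :
    Submodule O H :=
  (Submodule.torsionBySet T H
    (Submodule.annihilator (RingHom.ker π) : Set T)).restrictScalars O

/-- `length_O Ω`, `Ω = H / (H[p] + H[I])` (Diamond's congruence module). -/
noncomputable def mltc_omegaLen {T : Type w} [CommRing T] [Algebra O T] (π : T →ₐ[O] O)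
    (H : Type x) [AddCommGroup H] [Module O H] [Module T H] [IsScalarTower O T H] : ℕ∞ :=
  Module.length O (H ⧸ (mltc_torsP π H ⊔ mltc_torsI π H))

end Defs

/-- **Numerical criterion** (Diamond, Thm 2.4; Wiles, Lenstra).  `φ : R ↠ T` local `O`-algebras,
`R` noetherian, `T` finite free over `O`, `π : T → O`, `H` a `T`-module finite free over `O`
with `rank_O H[p] = d ≥ 1`.  If `d · length Φ_R ≤ length Ω_H` (and one of the two is finite) then
`φ` is an isomorphism, `length Φ_R = length (O/η_T)` and `length Ω_H = d · length (O/η_T)`. -/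
def MltCritContract : Prop :=
  ∀ (O : Type u) [CommRing O] [IsDomain O] [IsDiscreteValuationRing O]
    [IsAdicComplete (IsLocalRing.maximalIdeal O) O]
    (R : Type v) [CommRing R] [IsLocalRing R] [IsNoetherianRing R] [Algebra O R]
    (T : Type w) [CommRing T] [Algebra O T] [Module.Finite O T] [Module.Free O T]
    (H : Type x) [AddCommGroup H] [Module O H] [Module T H] [IsScalarTower O T H]
    [Module.Finite O H] [Module.Free O H]
    (φ : R →ₐ[O] T) (π : T →ₐ[O] O) (d : ℕ),
    Function.Surjective φ →
    0 < d →
    Module.finrank O (mltc_torsP π H) = d →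
    (mltc_phiLen (π.comp φ) ≠ ⊤ ∨ mltc_omegaLen π H ≠ ⊤) →
    (d : ℕ∞) * mltc_phiLen (π.comp φ) ≤ mltc_omegaLen π H →
    Function.Injective φ ∧
      mltc_phiLen (π.comp φ) = Module.length O (O ⧸ mltc_eta π) ∧
      mltc_omegaLen π H = (d : ℕ∞) * Module.length O (O ⧸ mltc_eta π)

/-- Optional complement of the criterion (not needed for the induction on `Σ`): if moreover
`rank_O H ≤ d · rank_O T`, then `H` is free of rank `d` over `T`. -/
def MltCritFreeContract : Prop :=
  ∀ (O : Type u) [CommRing O] [IsDomain O] [IsDiscreteValuationRing O]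
    [IsAdicComplete (IsLocalRing.maximalIdeal O) O]
    (R : Type v) [CommRing R] [IsLocalRing R] [IsNoetherianRing R] [Algebra O R]
    (T : Type w) [CommRing T] [Algebra O T] [Module.Finite O T] [Module.Free O T]
    (H : Type x) [AddCommGroup H] [Module O H] [Module T H] [IsScalarTower O T H]
    [Module.Finite O H] [Module.Free O H]
    (φ : R →ₐ[O] T) (π : T →ₐ[O] O) (d : ℕ),
    Function.Surjective φ →
    0 < d →
    Module.finrank O (mltc_torsP π H) = d →
    Module.finrank O H ≤ d * Module.finrank O T →
    (mltc_phiLen (π.comp φ) ≠ ⊤ ∨ mltc_omegaLen π H ≠ ⊤) →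
    (d : ℕ∞) * mltc_phiLen (π.comp φ) ≤ mltc_omegaLen π H →
    Nonempty (Module.Basis (Fin d) T H)

/-- **Base case** (Tate's formula).  `T = O[[x_1..x_r]]/(g_1..g_r)` finite free over `O`
(the shape delivered by `S57`), `π : T → O`.  Then `length Φ_T = length (O/η_T)`, and for every
`T`-module `H` free of rank `d`: `length Ω_H = d · length (O/η_T)` (equalities in `ℕ∞`). -/
def MltCritBaseContract : Prop :=
  ∀ (O : Type u) [CommRing O] [IsDomain O] [IsDiscreteValuationRing O]
    [IsAdicComplete (IsLocalRing.maximalIdeal O) O]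
    (r : ℕ) (T : Type w) [CommRing T] [Algebra O T] [Module.Finite O T] [Module.Free O T]
    (ψ : MvPowerSeries (Fin r) O →ₐ[O] T) (g : Fin r → MvPowerSeries (Fin r) O),
    Function.Surjective ψ →
    RingHom.ker ψ = Ideal.span (Set.range g) →
    ∀ (π : T →ₐ[O] O),
      mltc_phiLen π = Module.length O (O ⧸ mltc_eta π) ∧
      ∀ (H : Type x) [AddCommGroup H] [Module O H] [Module T H] [IsScalarTower O T H] (d : ℕ),
        Nonempty (Module.Basis (Fin d) T H) →
        mltc_omegaLen π H = (d : ℕ∞) * Module.length O (O ⧸ mltc_eta π)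

end Fermat.Agent.MLT
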