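/-
MLT / stream Eta (helper1): CONTRACT v2 (v2: `mlteXiV N q h x = ξ(q x, -T_q x, x)` — the kernel
vector of `U_q` in the Hom-normalisation — and `MltEtaGrowthAbs` in its proven form).

Lattice level (objects of Lib/LR only: `tdmL`, `lrhRes`, `lraDeg`, `lrhT`, `lrhU`, `lrdBN`), `q ∤ N`:

* `MltEtaIharaSq`  (E1) Ihara's lemma for level `N → N q²`: if `ξ(x,y,z) ∈ p · L_{N q²}` then
  `E_ℓ² x, E_ℓ² y, E_ℓ² z ∈ p · L_N` for every prime `ℓ ∤ N q` (`E_ℓ = T_ℓ - ℓ - 1`), `p` odd, `p ≠ q`.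
* `MltEtaGram`     (E2) the Gram matrix of `ξ` for the Poincaré pairings `lrdBN`.
* `MltEtaUq`       (E3) `U_q ξ_v = 0`, and `ξ` commutes with `T_ℓ` (`ℓ ∤ N q`).
* `MltEtaGrowthAbs` (E4) the abstract DVR lemma: growth of the congruence module
  `Ω = M / (X + X^⊥)` under an isometric-up-to-`c` saturated embedding.

The module-level statement (E5) `length Ω_{Σ ∪ {q}} ≥ length Ω_Σ + d · v(c_q)` for the Hecke modules
`H_Σ` of `Lib/MLT/Min/Defs.lean` will be added as `MltEtaOmegaGrowth` once those definitions exist;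
it is (E1)–(E3) localised at the non-Eisenstein maximal ideal, fed into (E4).
-/
import Mathlib
import Fermat.Agent.Lib.MLT.Eta.Defs
import Fermat.Agent.Lib.LR.Dual.Main

set_option autoImplicit false
set_option linter.unusedSectionVars false
set_option linter.unusedVariables false

open Matrix MatrixGroups CongruenceSubgroup Fermat.Agent.T1 Fermat.Agent.T2 ModularCurve
  ModularCurve.Period Fermat.Agent.LR

namespace Fermat.Agent.MLT

noncomputable section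

/-- **(E1) Ihara's lemma for `N → N q²`.** -/
def MltEtaIharaSq : Prop :=
  ∀ (N q p : ℕ) [NeZero N] [Fact q.Prime] [Fact p.Prime], p ≠ 2 → p ≠ q → ¬ q ∣ N →
    ∀ (ℓ : ℕ) (hℓ : ℓ.Prime) (hℓN : ¬ ℓ ∣ N), ℓ ≠ q →
      ∀ x y z : ↥(tdmL N),
        (∃ w : ↥(tdmL (N * q * q)), mlteXi N q x y z = (p : ℤ) • w) →
        (∃ x' : ↥(tdmL N), mlteE N ℓ hℓ hℓN (mlteE N ℓ hℓ hℓN x) = (p : ℤ) • x') ∧
        (∃ y' : ↥(tdmL N), mlteE N ℓ hℓ hℓN (mlteE N ℓ hℓ hℓN y) = (p : ℤ) • y') ∧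
        (∃ z' : ↥(tdmL N), mlteE N ℓ hℓ hℓN (mlteE N ℓ hℓ hℓN z) = (p : ℤ) • z')

/-- the entries of the Gram matrix `ξ† ξ` (as polynomials in `T = T_q`):
`[[q(q+1), qT, T²-(q+1)], [qT, q(q+1), qT], [T²-(q+1), qT, q(q+1)]]` -/
def mlteGramEntry (N q : ℕ) [NeZero N] [hq : Fact q.Prime] (h : ¬ q ∣ N) (i j : Fin 3) :
    ↥(tdmL N) →ₗ[ℤ] ↥(tdmL N) :=
  let T := lrhT N q hq.out h
  if i = j then ((q : ℤ) * ((q : ℤ) + 1)) • LinearMap.id
  else if (i = 0 ∧ j = 2) ∨ (i = 2 ∧ j = 0) then T.comp T - ((q : ℤ) + 1) • LinearMap.id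
  else (q : ℤ) • T

/-- `ξ` on a triple indexed by `Fin 3` -/
def mlteXi3 (N q : ℕ) [NeZero N] [Fact q.Prime] (a : Fin 3 → ↥(tdmL N)) : ↥(tdmL (N * q * q)) :=
  mlteXi N q (a 0) (a 1) (a 2)

/-- **(E2) the Gram matrix of `ξ`.** -/
def MltEtaGram : Prop :=
  ∀ (N q : ℕ) [NeZero N] [Fact q.Prime] (h : ¬ q ∣ N) (a b : Fin 3 → ↥(tdmL N)),
    lrdBN (N * q * q) (mlteXi3 N q a) (mlteXi3 N q b)
      = ∑ i : Fin 3, ∑ j : Fin 3, lrdBN N (a i) (mlteGramEntry N q h i j (b j))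

/-- **(E3) `U_q ξ_v = 0` and Hecke equivariance of `ξ`.** -/
def MltEtaUq : Prop :=
  ∀ (N q : ℕ) [NeZero N] [hq : Fact q.Prime] (h : ¬ q ∣ N),
    (∀ x : ↥(tdmL N),
      lrhU (N * q * q) q (Dvd.intro_left (N * q) rfl) hq.out.ne_zero (mlteXiV N q h x) = 0) ∧
    (∀ (ℓ : ℕ) (hℓ : ℓ.Prime) (hℓN : ¬ ℓ ∣ N) (hℓNqq : ¬ ℓ ∣ N * q * q) (x y z : ↥(tdmL N)),
      lrhT (N * q * q) ℓ hℓ hℓNqq (mlteXi N q x y z)
        = mlteXi N q (lrhT N ℓ hℓ hℓN x) (lrhT N ℓ hℓ hℓN y) (lrhT N ℓ hℓ hℓN z))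

/-- **(E4) abstract growth of the congruence module** (v2 = the form proven in `Eta/GrowthAbs.lean`).
`O` a PID (e.g. a DVR), `M, M'` finite free with right-unimodular pairings (`m ↦ B(·, m)` onto the
dual), `X ⊆ M`, `X' ⊆ M'` saturated with `rank X' ≤ rank X`, `B|_X` non-degenerate,
`j : X → X'` "injective modulo every non-unit" and multiplying the pairing by `c ≠ 0`. Then
`length (M'/(X' + X'^⊥)) = length (M/(X + X^⊥)) + rank X · length (O/c)`. -/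
def MltEtaGrowthAbs : Prop :=
  ∀ (O : Type) [CommRing O] [IsDomain O] [IsPrincipalIdealRing O]
    (M M' : Type) [AddCommGroup M] [Module O M] [Module.Free O M] [Module.Finite O M]
    [AddCommGroup M'] [Module O M'] [Module.Free O M'] [Module.Finite O M']
    (B : LinearMap.BilinForm O M) (B' : LinearMap.BilinForm O M')
    (hB : ∀ f : M →ₗ[O] O, ∃ m, ∀ y, B y m = f y)
    (hB' : ∀ f : M' →ₗ[O] O, ∃ m, ∀ y, B' y m = f y)
    (X : Submodule O M) (X' : Submodule O M')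
    (hX : ∀ (a : O) (m : M), a ≠ 0 → a • m ∈ X → m ∈ X)
    (hX' : ∀ (a : O) (m : M'), a ≠ 0 → a • m ∈ X' → m ∈ X')
    (hXnd : ∀ x ∈ X, (∀ y ∈ X, B y x = 0) → x = 0)
    (j : M →ₗ[O] M') (hj : ∀ x ∈ X, j x ∈ X')
    (hjsat : ∀ x ∈ X, ∀ (a : O) (m : M'), ¬ IsUnit a → j x = a • m → ∃ x₁ ∈ X, x = a • x₁)
    (hrank : Module.finrank O X' ≤ Module.finrank O X)
    (c : O) (hc : c ≠ 0) (hBj : ∀ x ∈ X, ∀ y ∈ X, B' (j x) (j y) = c * B x y),
    Module.length O (M' ⧸ (X' ⊔ B'.orthogonal X'))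
      = Module.length O (M ⧸ (X ⊔ B.orthogonal X))
        + (Module.finrank O X : ℕ∞) * Module.length O (O ⧸ Ideal.span {c})

/-- the contract of stream Eta, lattice level -/
def MltEtaContract : Prop :=
  MltEtaIharaSq ∧ MltEtaGram ∧ MltEtaUq ∧ MltEtaGrowthAbs

end

end Fermat.Agent.MLT
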