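/-
MLT (project S59) / Step (helper6): **the inputs of the induction on `Σ`** (`Top/Step.lean`,
proof of `R_Σ ≅ T_Σ` for every admissible `Σ` by the numerical criterion).

Everything is stated for ONE base datum `B : MltBase 𝒪` (`Lib/MLT/Min/Defs.lean`) and ONE eigensystem
`a : ℕ → 𝒪` (the Hecke eigenvalues `a ℓ`, `ℓ ∉ S0`, of an eigenclass of the minimal level).

* `mltcEig B Σ a`      : the `a`-eigenspace `X_Σ(a) ⊆ H_Σ` of the `T_ℓ`, `ℓ ∉ S_Σ` (ring-free);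
* `MltcCompat B Σ θ`   : a `T_Σ`-module structure on `H_Σ` through which `T_ℓ` acts as `ih4Op ℓ`;
* `MltcPoint B Σ θ a π`: the point `π : T_Σ → 𝒪` has `π T_ℓ = a ℓ` (`ℓ ∉ S_Σ`);
* `mltcCq q a`         : `c_q(a) = (q - 1) ((q + 1)² - a²)`;
* `MltcActAt B`        : **(HA)** existence of the Hecke action of `T_Σ` on `H_Σ`, every `Σ` (helper2);
* `MltcEigUpAt B`      : **(E5a)** `rank X_Σ(a) ≤ rank X_{Σ ∪ q}(a)` (level raising, helper1);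
* `MltcMultOneAt B`    : **(8)** `rank X_{Σ ∪ q}(a) ≤ rank X_Σ(a)` if `X_Σ(a) ≠ 0` (helper3);
* `MltcOmegaUpAt B`    : **(E5b)** `length Ω_Σ + rank X_Σ(a) · length 𝒪/c_q(a_q) ≤ length Ω_{Σ ∪ q}`
  (helper1), in the shape of `Contracts/Crit.lean`;
* `MltcEigenAt B`      : an eigensystem `a` occurs in `H_∅` (lead, base contract);
* `MltcThetaAt B`      : the residual eigencharacter exists at every level (lead, base contract).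
-/
import Mathlib
import Fermat.Agent.Lib.MLT.Min.RT
import Fermat.Agent.Lib.MLT.Contracts.Crit

set_option autoImplicit false
set_option linter.unusedSectionVars false
set_option linter.unusedVariables false

open IsLocalRing Fermat.Agent.TW Fermat.Agent.Ihara

namespace Fermat.Agent.MLT

variable {𝒪 : Type} [CommRing 𝒪] [IsDomain 𝒪] [IsDiscreteValuationRing 𝒪] [CharZero 𝒪]
  [IsAdicComplete (maximalIdeal 𝒪) 𝒪] [Finite (ResidueField 𝒪)]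

/-- **the `a`-eigenspace `X_Σ(a)` of `H_Σ`**: the classes `x ∈ H_Σ` with `T_ℓ x = a ℓ • x` for every
prime `ℓ ∉ S_Σ` -/
def mltcEig (B : MltBase 𝒪) (Sig : Finset ℕ) [NeZero (B.level Sig)] (a : ℕ → 𝒪) :
    Submodule 𝒪 ↥(B.H Sig) where
  carrier := {x | ∀ ℓ : ℕ, ℓ.Prime → ℓ ∉ B.bad Sig →
    ih4Op 𝒪 (B.level Sig) ℓ (x : Ih4H 𝒪 𝒪 (B.level Sig)) = a ℓ • (x : Ih4H 𝒪 𝒪 (B.level Sig))}
  add_mem' := by
    intro x y hx hy ℓ hℓ hℓS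
    rw [Submodule.coe_add, map_add, hx ℓ hℓ hℓS, hy ℓ hℓ hℓS, smul_add]
  zero_mem' := by
    intro ℓ hℓ hℓS
    rw [Submodule.coe_zero, map_zero, smul_zero]
  smul_mem' := by
    intro c x hx ℓ hℓ hℓS
    rw [Submodule.coe_smul, map_smul, hx ℓ hℓ hℓS, smul_comm]

theorem mem_mltcEig {B : MltBase 𝒪} {Sig : Finset ℕ} [NeZero (B.level Sig)] {a : ℕ → 𝒪}
    {x : ↥(B.H Sig)} : x ∈ mltcEig B Sig a ↔ ∀ ℓ : ℕ, ℓ.Prime → ℓ ∉ B.bad Sig →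
      ih4Op 𝒪 (B.level Sig) ℓ (x : Ih4H 𝒪 𝒪 (B.level Sig)) = a ℓ • (x : Ih4H 𝒪 𝒪 (B.level Sig)) :=
  Iff.rfl

/-- a `T_Σ`-module structure on `H_Σ` is **compatible** if `T_ℓ` acts as `ih4Op ℓ` (`ℓ ∉ S_Σ`) -/
def MltcCompat (B : MltBase 𝒪) (Sig : Finset ℕ) [NeZero (B.level Sig)]
    (θ : CuspForm.heckeAlgebra (B.level Sig) 2 (↑(B.bad Sig) : Set ℕ) →+* ResidueField 𝒪)
    [Module (IhdT 𝒪 θ) ↥(B.H Sig)] : Prop :=
  ∀ (ℓ : ℕ) (hℓ : ℓ.Prime) (hℓN : ¬ ℓ ∣ B.level Sig) (hℓS : ℓ ∉ (↑(B.bad Sig) : Set ℕ))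
    (x : ↥(B.H Sig)),
    ((ihdPi 𝒪 θ (CuspForm.heckeAlgebra.T hℓ hℓN hℓS) • x : ↥(B.H Sig)) : Ih4H 𝒪 𝒪 (B.level Sig))
      = ih4Op 𝒪 (B.level Sig) ℓ (x : Ih4H 𝒪 𝒪 (B.level Sig))

/-- the point `π : T_Σ → 𝒪` has Hecke eigenvalues `a ℓ` (`ℓ ∉ S_Σ`) -/
def MltcPoint (B : MltBase 𝒪) (Sig : Finset ℕ) [NeZero (B.level Sig)]
    (θ : CuspForm.heckeAlgebra (B.level Sig) 2 (↑(B.bad Sig) : Set ℕ) →+* ResidueField 𝒪)
    (a : ℕ → 𝒪) (π : IhdT 𝒪 θ →ₐ[𝒪] 𝒪) : Prop :=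
  ∀ (ℓ : ℕ) (hℓ : ℓ.Prime) (hℓN : ¬ ℓ ∣ B.level Sig) (hℓS : ℓ ∉ (↑(B.bad Sig) : Set ℕ)),
    π (ihdPi 𝒪 θ (CuspForm.heckeAlgebra.T hℓ hℓN hℓS)) = a ℓ

/-- `c_q(a) = (q - 1) ((q + 1)² - a²)` -/
def mltcCq (q : ℕ) (a : 𝒪) : 𝒪 := ((q : 𝒪) - 1) * (((q : 𝒪) + 1) ^ 2 - a ^ 2)

section Contracts

variable (𝒪)

/-- **(HA)** the Hecke action of `T_Σ` on `H_Σ`, for every admissible `Σ` (helper2) -/
def MltcActAt (B : MltBase 𝒪) : Prop :=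
  B.Valid → B.S0 = B.Smin ∪ B.cut → ∀ Sig : Finset ℕ, B.IsAux Sig → ∀ [NeZero (B.level Sig)]
    (θ : CuspForm.heckeAlgebra (B.level Sig) 2 (↑(B.bad Sig) : Set ℕ) →+* ResidueField 𝒪),
    B.IsTheta Sig θ →
    ∃ act : IhdT 𝒪 θ →ₐ[𝒪] Module.End 𝒪 ↥(B.H Sig),
      ∀ (ℓ : ℕ) (hℓ : ℓ.Prime) (hℓN : ¬ ℓ ∣ B.level Sig) (hℓS : ℓ ∉ (↑(B.bad Sig) : Set ℕ))
        (x : ↥(B.H Sig)),
        ((act (ihdPi 𝒪 θ (CuspForm.heckeAlgebra.T hℓ hℓN hℓS)) x : ↥(B.H Sig)) :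
            Ih4H 𝒪 𝒪 (B.level Sig))
          = ih4Op 𝒪 (B.level Sig) ℓ (x : Ih4H 𝒪 𝒪 (B.level Sig))

/-- **(E5a)** level raising on the eigenspaces: `rank X_Σ(a) ≤ rank X_{Σ ∪ q}(a)` (helper1) -/
def MltcEigUpAt (B : MltBase 𝒪) : Prop :=
  B.Valid → (B.p = 3 ∨ B.p = 5) → B.S0 = B.Smin ∪ B.cut →
  ∀ (Sig : Finset ℕ) (q : ℕ), B.IsAux Sig → q.Prime → q ∉ B.S0 → q ∉ Sig →
    ∀ [NeZero (B.level Sig)] [NeZero (B.level (insert q Sig))] (a : ℕ → 𝒪),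
      Module.finrank 𝒪 (mltcEig B Sig a) ≤ Module.finrank 𝒪 (mltcEig B (insert q Sig) a)

/-- **(8) relative multiplicity one**: `rank X_{Σ ∪ q}(a) ≤ rank X_Σ(a)` when `X_Σ(a) ≠ 0`
(helper3) -/
def MltcMultOneAt (B : MltBase 𝒪) : Prop :=
  B.Valid → (B.p = 3 ∨ B.p = 5) → B.S0 = B.Smin ∪ B.cut →
  ∀ (Sig : Finset ℕ) (q : ℕ), B.IsAux Sig → q.Prime → q ∉ B.S0 → q ∉ Sig →
    ∀ [NeZero (B.level Sig)] [NeZero (B.level (insert q Sig))] (a : ℕ → 𝒪),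
      mltcEig B Sig a ≠ ⊥ →
      Module.finrank 𝒪 (mltcEig B (insert q Sig) a) ≤ Module.finrank 𝒪 (mltcEig B Sig a)

/-- **(E5b)** growth of the congruence module: `length Ω_Σ + rank X_Σ(a) · length 𝒪/(c_q(a_q)) ≤
length Ω_{Σ ∪ q}` for points `π`, `π'` with the eigenvalues `a` and compatible module structures
(helper1); `(8)` and `c_q(a_q) ≠ 0` are hypotheses -/
def MltcOmegaUpAt (B : MltBase 𝒪) : Prop :=
  B.Valid → (B.p = 3 ∨ B.p = 5) → B.S0 = B.Smin ∪ B.cut →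
  ∀ (Sig : Finset ℕ) (q : ℕ), B.IsAux Sig → q.Prime → q ∉ B.S0 → q ∉ Sig →
    ∀ [NeZero (B.level Sig)] [NeZero (B.level (insert q Sig))] (a : ℕ → 𝒪)
      (θ : CuspForm.heckeAlgebra (B.level Sig) 2 (↑(B.bad Sig) : Set ℕ) →+* ResidueField 𝒪)
      (θ' : CuspForm.heckeAlgebra (B.level (insert q Sig)) 2 (↑(B.bad (insert q Sig)) : Set ℕ) →+*
        ResidueField 𝒪),
      B.IsTheta Sig θ → B.IsTheta (insert q Sig) θ' →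
    ∀ (π : IhdT 𝒪 θ →ₐ[𝒪] 𝒪) (π' : IhdT 𝒪 θ' →ₐ[𝒪] 𝒪),
      MltcPoint B Sig θ a π → MltcPoint B (insert q Sig) θ' a π' →
    ∀ [Module (IhdT 𝒪 θ) ↥(B.H Sig)] [IsScalarTower 𝒪 (IhdT 𝒪 θ) ↥(B.H Sig)]
      [Module (IhdT 𝒪 θ') ↥(B.H (insert q Sig))]
      [IsScalarTower 𝒪 (IhdT 𝒪 θ') ↥(B.H (insert q Sig))],
      MltcCompat B Sig θ → MltcCompat B (insert q Sig) θ' →
      mltcEig B Sig a ≠ ⊥ → mltcCq q (a q) ≠ 0 →
      Module.finrank 𝒪 (mltcEig B (insert q Sig) a) ≤ Module.finrank 𝒪 (mltcEig B Sig a) →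
      mltc_omegaLen π ↥(B.H Sig) +
          (Module.finrank 𝒪 (mltcEig B Sig a) : ℕ∞) *
            Module.length 𝒪 (𝒪 ⧸ Ideal.span {mltcCq q (a q)})
        ≤ mltc_omegaLen π' ↥(B.H (insert q Sig))

/-- an eigensystem `a` occurs in `H_∅` (lead: part of the base contract, after enlarging `𝒪`) -/
def MltcEigenAt (B : MltBase 𝒪) : Prop :=
  ∀ [NeZero (B.level ∅)], ∃ a : ℕ → 𝒪, mltcEig B ∅ a ≠ ⊥

/-- the residual eigencharacter exists at every admissible level (lead: base contract) -/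
def MltcThetaAt (B : MltBase 𝒪) : Prop :=
  ∀ (Sig : Finset ℕ), B.IsAux Sig → ∀ [NeZero (B.level Sig)],
    ∃ θ : CuspForm.heckeAlgebra (B.level Sig) 2 (↑(B.bad Sig) : Set ℕ) →+* ResidueField 𝒪,
      B.IsTheta Sig θ

end Contracts

/-- **(E5a)** for every base datum (helper1) -/
def MltcEigUpContract : Prop :=
  ∀ (𝒪 : Type) [CommRing 𝒪] [IsDomain 𝒪] [IsDiscreteValuationRing 𝒪] [CharZero 𝒪]
    [IsAdicComplete (maximalIdeal 𝒪) 𝒪] [Finite (ResidueField 𝒪)] (B : MltBase 𝒪), MltcEigUpAt 𝒪 B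

/-- **(8)** for every base datum (helper3) -/
def MltcMultOneContract : Prop :=
  ∀ (𝒪 : Type) [CommRing 𝒪] [IsDomain 𝒪] [IsDiscreteValuationRing 𝒪] [CharZero 𝒪]
    [IsAdicComplete (maximalIdeal 𝒪) 𝒪] [Finite (ResidueField 𝒪)] (B : MltBase 𝒪),
    MltcMultOneAt 𝒪 B

/-- **(E5b)** for every base datum (helper1) -/
def MltcOmegaUpContract : Prop :=
  ∀ (𝒪 : Type) [CommRing 𝒪] [IsDomain 𝒪] [IsDiscreteValuationRing 𝒪] [CharZero 𝒪]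
    [IsAdicComplete (maximalIdeal 𝒪) 𝒪] [Finite (ResidueField 𝒪)] (B : MltBase 𝒪),
    MltcOmegaUpAt 𝒪 B

end Fermat.Agent.MLT
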