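/-
MLT (project S59) / StepP (helper6): **the inputs of the step at `p`** (case (C'): `W` multiplicative
at `p` with `W[p]` finite at `p`): from the FLAT problem at the level `M` prime to `p` to the ORDINARY
problem at the level `M p`, both at `Σ = ∅` (`Top/StepP.lean`, `Crit/StepP.lean`).

`B : MltBase 𝒪` is a FLAT base datum (level `N0` prime to `p`), `B.toOrd lamp` the ORDINARY base
datum with the same `ρbar`, `Smin`, `S0`, `t`, level `N0 p`, cut `insert p cut`, `lam p = lamp`.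

* `MltBase.toOrd`        : the ordinary base datum;
* `MltcOrdLine ρ P L`    : `L` is an ordinary line of `ρ` at the place `P` (the data of `IsOrdinaryAt`);
* `MltcFrobOn ρ L φ z`   : `φ` acts on `V / L` through the scalar `z`;
* `MltcFrobFlContract`   : **(D-fl)** Eichler–Shimura at `p`, level prime to `p`:
  `T_p = z + p / z` on the `a`-eigenclasses (`z` = Frobenius on the unramified quotient);
* `MltcFrobNewContract`  : **(D-new)** a `p`-new `a`-eigenclass of level `N' p` forces `z² = 1`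
  (the analogue at `q = p` of `ihe_trace_frob_class`);
* `MltcFlatOrdAt B`      : **(G1a)** the universal flat deformation is ordinary (helper8);
* `MltcPhiPAt B lamp`    : **(pΦ)** `length Φ(R^ord) ≤ length Φ(R^fl) + length 𝒪/(z² - 1)` (helper7);
* `MltcEigPAt B lamp`    : **(pE)** `rank X^ord(a) = rank X^fl(a)` and `U_p = z` on `X^ord(a)` if there is
  no `p`-new `a`-eigenclass (Hecke side, ring-free);
* `MltcOmegaPAt B lamp`  : **(pΩ)** `length Ω^fl + rank X^fl(a) · length 𝒪/(z² - 1) ≤ length Ω^ord`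
  (helper1).
-/
import Mathlib
import Fermat.Agent.Lib.MLT.Contracts.Step

set_option autoImplicit false
set_option linter.unusedSectionVars false
set_option linter.unusedVariables false

open IsLocalRing Polynomial Fermat.Agent.TW Fermat.Agent.Ihara

namespace Fermat.Agent.MLT

local notation "Qbar" => AlgebraicClosure ℚ
local notation "GQ" => (AlgebraicClosure ℚ ≃ₐ[ℚ] AlgebraicClosure ℚ)

/-! ### The ordinary base datum -/

section ToOrd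

variable {𝒪 : Type} [CommRing 𝒪] [IsLocalRing 𝒪]

/-- **the ordinary base datum attached to a flat one**: `p` enters the level and the cut, with the
eigenvalue `lamp` of `U_p`; everything else is unchanged -/
def MltBase.toOrd (B : MltBase 𝒪) (lamp : 𝒪) : MltBase 𝒪 where
  p := B.p
  ρbar := B.ρbar
  flat := false
  Smin := B.Smin
  N0 := B.N0 * B.p
  S0 := B.S0
  t := B.t
  cut := insert B.p B.cut
  lam := Function.update B.lam B.p lamp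

variable (B : MltBase 𝒪) (lamp : 𝒪)

@[simp] theorem MltBase.toOrd_p : (B.toOrd lamp).p = B.p := rfl
@[simp] theorem MltBase.toOrd_ρbar : (B.toOrd lamp).ρbar = B.ρbar := rfl
@[simp] theorem MltBase.toOrd_flat : (B.toOrd lamp).flat = false := rfl
@[simp] theorem MltBase.toOrd_Smin : (B.toOrd lamp).Smin = B.Smin := rfl
@[simp] theorem MltBase.toOrd_N0 : (B.toOrd lamp).N0 = B.N0 * B.p := rfl
@[simp] theorem MltBase.toOrd_S0 : (B.toOrd lamp).S0 = B.S0 := rfl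
@[simp] theorem MltBase.toOrd_t : (B.toOrd lamp).t = B.t := rfl
@[simp] theorem MltBase.toOrd_cut : (B.toOrd lamp).cut = insert B.p B.cut := rfl
@[simp] theorem MltBase.toOrd_lam : (B.toOrd lamp).lam = Function.update B.lam B.p lamp := rfl

theorem MltBase.toOrd_bad (Sig : Finset ℕ) : (B.toOrd lamp).bad Sig = B.bad Sig := rfl

theorem MltBase.toOrd_level (Sig : Finset ℕ) :
    (B.toOrd lamp).level Sig = B.level Sig * B.p := by
  unfold MltBase.level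
  rw [MltBase.toOrd_N0]
  ring

theorem MltBase.toOrd_level_empty : (B.toOrd lamp).level ∅ = B.N0 * B.p := by
  rw [MltBase.level_empty, MltBase.toOrd_N0]

end ToOrd

theorem MltBase.toOrd_isAux {𝒪 : Type} [CommRing 𝒪] [IsDomain 𝒪] [IsDiscreteValuationRing 𝒪]
    [CharZero 𝒪] [IsAdicComplete (maximalIdeal 𝒪) 𝒪] [Finite (ResidueField 𝒪)] (B : MltBase 𝒪)
    (lamp : 𝒪) (Sig : Finset ℕ) : (B.toOrd lamp).IsAux Sig ↔ B.IsAux Sig := Iff.rfl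

/-! ### Ordinary lines and the Frobenius eigenvalue on the unramified quotient -/

section Lines

variable {A : Type} [CommRing A] [IsLocalRing A]

/-- `L` is an **ordinary line** of `ρ` at the place `P`: a direct summand of rank one, stable under
the decomposition group, modulo which the inertia group acts trivially (the data of
`GaloisRepAdic.IsOrdinaryAt`) -/
def MltcOrdLine (ρ : GaloisRepAdic A) (P : ValuationSubring Qbar) (L : Submodule A ρ.V) : Prop :=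
  (∃ b : Module.Basis (Fin 2) A ρ.V, L = A ∙ b 0) ∧
  (∀ σ ∈ P.decompositionSubgroup ℚ, ∀ v ∈ L, ρ.ρ σ v ∈ L) ∧
  (∀ σ ∈ P.inertiaSubgroupIn ℚ, ∀ v : ρ.V, ρ.ρ σ v - v ∈ L)

/-- `φ` acts on the quotient `V / L` through the scalar `z` -/
def MltcFrobOn (ρ : GaloisRepAdic A) (L : Submodule A ρ.V) (φ : GQ) (z : A) : Prop :=
  ∀ v : ρ.V, ρ.ρ φ v - z • v ∈ L

theorem GaloisRepAdic.isOrdinaryAt_iff_ordLine (ρ : GaloisRepAdic A) (p : ℕ) :
    ρ.IsOrdinaryAt p ↔ ∀ P : ValuationSubring Qbar, P.LiesOverPrime p →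
      ∃ L : Submodule A ρ.V, MltcOrdLine ρ P L := Iff.rfl

end Lines

/-! ### (D): the Frobenius eigenvalue on the unramified quotient and the Hecke operator at `p` -/

/-- **(D-fl) Eichler–Shimura at `p`, level prime to `p`** (ring-free, `B`-free).  `ρ` over `𝒪`, a deformation of the absolutely irreducible `ρbar` with
cyclotomic determinant, has the
Frobenius polynomials `X² - a_ℓ X + ℓ` (`ℓ ∉ S`), `L` is an ordinary line at `P ∣ p`, `φ` a Frobenius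
element at `P` acting on `V / L` through `z`.  Then `z · T_p x = (z² + p) x` for every class `x` of
level `N` (`p ∤ N`) with `T_ℓ x = a_ℓ x` (`ℓ ∉ S`). -/
def MltcFrobFlContract : Prop :=
  ∀ (𝒪 : Type) [CommRing 𝒪] [IsDomain 𝒪] [IsDiscreteValuationRing 𝒪] [CharZero 𝒪]
    [IsAdicComplete (maximalIdeal 𝒪) 𝒪] [Finite (ResidueField 𝒪)]
    (p : ℕ), p.Prime → p ≠ 2 → (p : 𝒪) ∈ maximalIdeal 𝒪 →
  ∀ (N : ℕ) [NeZero N], ¬ p ∣ N →
  ∀ (S : Finset ℕ), p ∈ S → (∀ r : ℕ, r.Prime → r ∣ N → r ∈ S) →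
  ∀ (ρbar : ResidualGaloisRep (ResidueField 𝒪)), ρbar.IsAbsolutelyIrreducible →
  ∀ (a : ℕ → 𝒪) (ρ : GaloisRepAdic 𝒪),
    ρ.residual.IsEquiv (ρbar.baseChangeAlong (ResidueField.map (algebraMap 𝒪 𝒪))) →
    ρ.DetIsCyclotomic p →
    (∀ ℓ : ℕ, ℓ.Prime → ℓ ∉ S → ∀ P : ValuationSubring Qbar, P.LiesOverPrime ℓ →
      ∀ σ : GQ, P.IsFrobeniusAt σ ℓ →
        LinearMap.charpoly (ρ.ρ σ) = X ^ 2 - C (a ℓ) * X + C ((ℓ : 𝒪))) →
  ∀ (P : ValuationSubring Qbar), P.LiesOverPrime p →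
  ∀ (L : Submodule 𝒪 ρ.V), MltcOrdLine ρ P L →
  ∀ (φ : GQ), P.IsFrobeniusAt φ p → ∀ z : 𝒪, MltcFrobOn ρ L φ z →
  ∀ x : Ih4H 𝒪 𝒪 N, (∀ ℓ : ℕ, ℓ.Prime → ℓ ∉ S → ih4Op 𝒪 N ℓ x = a ℓ • x) →
    z • ih4Op 𝒪 N p x = (z ^ 2 + (p : 𝒪)) • x

/-- **(D-new) the Frobenius eigenvalue of a `p`-new eigenclass** (the analogue at `q = p` of
`ihe_trace_frob_class`).  Same data at the level `N' p` (`p ∤ N'`); if there is a non-zero class `c`
with `T_ℓ c = a_ℓ c` (`ℓ ∉ S`) killed by both traces to the level `N'`, then `z² = 1`. -/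
def MltcFrobNewContract : Prop :=
  ∀ (𝒪 : Type) [CommRing 𝒪] [IsDomain 𝒪] [IsDiscreteValuationRing 𝒪] [CharZero 𝒪]
    [IsAdicComplete (maximalIdeal 𝒪) 𝒪] [Finite (ResidueField 𝒪)]
    (p : ℕ) [Fact p.Prime], p ≠ 2 → (p : 𝒪) ∈ maximalIdeal 𝒪 →
  ∀ (N' : ℕ) [NeZero N'] (h : ¬ p ∣ N'),
  ∀ (S : Finset ℕ), p ∈ S → (∀ r : ℕ, r.Prime → r ∣ N' → r ∈ S) →
  ∀ (ρbar : ResidualGaloisRep (ResidueField 𝒪)), ρbar.IsAbsolutelyIrreducible →
  ∀ (a : ℕ → 𝒪) (ρ : GaloisRepAdic 𝒪),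
    ρ.residual.IsEquiv (ρbar.baseChangeAlong (ResidueField.map (algebraMap 𝒪 𝒪))) →
    ρ.DetIsCyclotomic p →
    (∀ ℓ : ℕ, ℓ.Prime → ℓ ∉ S → ∀ P : ValuationSubring Qbar, P.LiesOverPrime ℓ →
      ∀ σ : GQ, P.IsFrobeniusAt σ ℓ →
        LinearMap.charpoly (ρ.ρ σ) = X ^ 2 - C (a ℓ) * X + C ((ℓ : 𝒪))) →
  ∀ (P : ValuationSubring Qbar), P.LiesOverPrime p →
  ∀ (L : Submodule 𝒪 ρ.V), MltcOrdLine ρ P L →
  ∀ (φ : GQ), P.IsFrobeniusAt φ p → ∀ z : 𝒪, MltcFrobOn ρ L φ z →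
  ∀ c : Ih4H 𝒪 𝒪 (N' * p), c ≠ 0 →
    (∀ ℓ : ℕ, ℓ.Prime → ℓ ∉ S → ih4Op 𝒪 (N' * p) ℓ c = a ℓ • c) →
    c ∈ ih4K (ih4Cor N' p h 𝒪 𝒪) (ih4W N' p h 𝒪 𝒪) →
    z ^ 2 = 1

/-! ### The inputs of the step at `p` for one flat base datum -/

section Contracts

variable (𝒪 : Type) [CommRing 𝒪] [IsDomain 𝒪] [IsDiscreteValuationRing 𝒪] [CharZero 𝒪]
  [IsAdicComplete (maximalIdeal 𝒪) 𝒪] [Finite (ResidueField 𝒪)]

/-- **(G1a)** the universal FLAT deformation of `ρbar` (ordinary at `p`) is of ORDINARY type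
(helper8: flat ⇒ ordinary over the finite quotients, then the limit) -/
def MltcFlatOrdAt (B : MltBase 𝒪) : Prop :=
  B.Valid → B.flat = true → ∀ lamp : 𝒪,
    (B.toOrd lamp).cond ∅ (GaloisRepAdic.ofResidualGaloisRep B.ρbar) →
    ∀ D : GaloisRep.DeformationRingData 𝒪 B.ρbar (B.cond ∅), (B.toOrd lamp).cond ∅ D.ρ

/-- **(pΦ)** the growth of the cotangent space from the flat to the ordinary problem: for a point
`x` of `R^fl`, the canonical map `πR : R^ord → R^fl` is surjective and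
`length Φ(x ∘ πR) ≤ length Φ(x) + length 𝒪/(z² - 1)`, `z` the eigenvalue of a Frobenius element at `p`
on the unramified quotient of the specialisation of the universal ordinary deformation at `x ∘ πR`
(helper7 + helper8) -/
def MltcPhiPAt (B : MltBase 𝒪) (lamp : 𝒪) : Prop :=
  B.Valid → (B.toOrd lamp).Valid → B.flat = true →
  ∀ (D : GaloisRep.DeformationRingData 𝒪 B.ρbar (B.cond ∅))
    (D' : GaloisRep.DeformationRingData 𝒪 B.ρbar ((B.toOrd lamp).cond ∅))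
    (πR : D'.R →ₐ[𝒪] D.R) (hπR : IsLocalHom (πR : D'.R →+* D.R)),
    (D'.ρ.baseChangeAlong (πR : D'.R →+* D.R) hπR).IsEquiv D.ρ →
  ∀ (x : D.R →ₐ[𝒪] 𝒪) (hx' : IsLocalHom ((x.comp πR : D'.R →ₐ[𝒪] 𝒪) : D'.R →+* 𝒪))
    (P : ValuationSubring Qbar), P.LiesOverPrime B.p →
  ∀ (L : Submodule 𝒪 (D'.ρ.baseChangeAlong ((x.comp πR : D'.R →ₐ[𝒪] 𝒪) : D'.R →+* 𝒪) hx').V),
    MltcOrdLine (D'.ρ.baseChangeAlong ((x.comp πR : D'.R →ₐ[𝒪] 𝒪) : D'.R →+* 𝒪) hx') P L →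
  ∀ (φ : GQ), P.IsFrobeniusAt φ B.p → ∀ z : 𝒪,
    MltcFrobOn (D'.ρ.baseChangeAlong ((x.comp πR : D'.R →ₐ[𝒪] 𝒪) : D'.R →+* 𝒪) hx') L φ z →
    z ^ 2 - 1 ≠ 0 →
    Function.Surjective πR ∧
    mltc_phiLen (x.comp πR) ≤
      mltc_phiLen x + Module.length 𝒪 (𝒪 ⧸ Ideal.span {z ^ 2 - 1})

/-- **(pE)** the eigenspaces at `p` (Hecke side, ring-free): if `T_p` acts on `X^fl(a) ≠ 0` through
`z + p / z` (`z` a unit, `z² ≠ 1`, `z ≡ lamp`) and there is no non-zero `p`-new `a`-eigenclass of level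
`N0 p`, then `U_p = z` on `X^ord(a)` and `rank X^ord(a) = rank X^fl(a)`.  (The validity of the ordinary
datum is NOT a hypothesis: `H^ord_∅ ≠ 0` is a consequence.) -/
def MltcEigPAt (B : MltBase 𝒪) (lamp : 𝒪) : Prop :=
  B.Valid → IsUnit lamp → B.flat = true →
  ∀ [NeZero (B.level ∅)] [NeZero ((B.toOrd lamp).level ∅)] [NeZero B.N0] [Fact B.p.Prime]
    (h : ¬ B.p ∣ B.N0) (a : ℕ → 𝒪) (z : 𝒪), IsUnit z → z - lamp ∈ maximalIdeal 𝒪 → z ^ 2 - 1 ≠ 0 →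
    mltcEig B ∅ a ≠ ⊥ →
    (∀ x ∈ mltcEig B ∅ a, z • ih4Op 𝒪 (B.level ∅) B.p (x : Ih4H 𝒪 𝒪 (B.level ∅))
      = (z ^ 2 + (B.p : 𝒪)) • (x : Ih4H 𝒪 𝒪 (B.level ∅))) →
    (∀ c : Ih4H 𝒪 𝒪 (B.N0 * B.p),
      (∀ ℓ : ℕ, ℓ.Prime → ℓ ∉ B.S0 → ih4Op 𝒪 (B.N0 * B.p) ℓ c = a ℓ • c) →
      c ∈ ih4K (ih4Cor B.N0 B.p h 𝒪 𝒪) (ih4W B.N0 B.p h 𝒪 𝒪) → c = 0) →
    (∀ x ∈ mltcEig (B.toOrd lamp) ∅ a,
      ih4Op 𝒪 ((B.toOrd lamp).level ∅) B.p (x : Ih4H 𝒪 𝒪 ((B.toOrd lamp).level ∅))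
        = z • (x : Ih4H 𝒪 𝒪 ((B.toOrd lamp).level ∅))) ∧
    Module.finrank 𝒪 (mltcEig (B.toOrd lamp) ∅ a) = Module.finrank 𝒪 (mltcEig B ∅ a)

/-- **(pΩ)** the growth of the congruence module from the flat level `N0` to the ordinary level
`N0 p`: `length Ω^fl + rank X^fl(a) · length 𝒪/(z² - 1) ≤ length Ω^ord` for points `π`, `π'` with the
eigenvalues `a` and compatible module structures, when `T_p = z + p / z` on `X^fl(a)`
(`z` a unit, `z ≡ lamp`, `z² ≠ 1`) and `rank X^ord(a) ≤ rank X^fl(a)` (helper1) -/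
def MltcOmegaPAt (B : MltBase 𝒪) (lamp : 𝒪) : Prop :=
  B.Valid → (B.toOrd lamp).Valid → B.flat = true →
  ∀ [NeZero (B.level ∅)] [NeZero ((B.toOrd lamp).level ∅)] (a : ℕ → 𝒪)
    (θ : CuspForm.heckeAlgebra (B.level ∅) 2 (↑(B.bad ∅) : Set ℕ) →+* ResidueField 𝒪)
    (θ' : CuspForm.heckeAlgebra ((B.toOrd lamp).level ∅) 2 (↑((B.toOrd lamp).bad ∅) : Set ℕ) →+*
      ResidueField 𝒪),
    B.IsTheta ∅ θ → (B.toOrd lamp).IsTheta ∅ θ' →
  ∀ (π : IhdT 𝒪 θ →ₐ[𝒪] 𝒪) (π' : IhdT 𝒪 θ' →ₐ[𝒪] 𝒪),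
    MltcPoint B ∅ θ a π → MltcPoint (B.toOrd lamp) ∅ θ' a π' →
  ∀ [Module (IhdT 𝒪 θ) ↥(B.H ∅)] [IsScalarTower 𝒪 (IhdT 𝒪 θ) ↥(B.H ∅)]
    [Module (IhdT 𝒪 θ') ↥((B.toOrd lamp).H ∅)]
    [IsScalarTower 𝒪 (IhdT 𝒪 θ') ↥((B.toOrd lamp).H ∅)],
    MltcCompat B ∅ θ → MltcCompat (B.toOrd lamp) ∅ θ' →
  ∀ (z : 𝒪), IsUnit z → z - lamp ∈ maximalIdeal 𝒪 → z ^ 2 - 1 ≠ 0 →
    mltcEig B ∅ a ≠ ⊥ →
    (∀ x ∈ mltcEig B ∅ a, z • ih4Op 𝒪 (B.level ∅) B.p (x : Ih4H 𝒪 𝒪 (B.level ∅))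
      = (z ^ 2 + (B.p : 𝒪)) • (x : Ih4H 𝒪 𝒪 (B.level ∅))) →
    Module.finrank 𝒪 (mltcEig (B.toOrd lamp) ∅ a) ≤ Module.finrank 𝒪 (mltcEig B ∅ a) →
    mltc_omegaLen π ↥(B.H ∅) +
        (Module.finrank 𝒪 (mltcEig B ∅ a) : ℕ∞) *
          Module.length 𝒪 (𝒪 ⧸ Ideal.span {z ^ 2 - 1})
      ≤ mltc_omegaLen π' ↥((B.toOrd lamp).H ∅)

end Contracts

/-! ### Contract level -/

/-- **(G1a)** for every base datum (helper8) -/
def MltcFlatOrdContract : Prop :=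
  ∀ (𝒪 : Type) [CommRing 𝒪] [IsDomain 𝒪] [IsDiscreteValuationRing 𝒪] [CharZero 𝒪]
    [IsAdicComplete (maximalIdeal 𝒪) 𝒪] [Finite (ResidueField 𝒪)] (B : MltBase 𝒪),
    MltcFlatOrdAt 𝒪 B

/-- **(pΦ)** for every base datum (helper7 + helper8) -/
def MltcPhiPContract : Prop :=
  ∀ (𝒪 : Type) [CommRing 𝒪] [IsDomain 𝒪] [IsDiscreteValuationRing 𝒪] [CharZero 𝒪]
    [IsAdicComplete (maximalIdeal 𝒪) 𝒪] [Finite (ResidueField 𝒪)] (B : MltBase 𝒪) (lamp : 𝒪),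
    MltcPhiPAt 𝒪 B lamp

/-- **(pE)** for every base datum -/
def MltcEigPContract : Prop :=
  ∀ (𝒪 : Type) [CommRing 𝒪] [IsDomain 𝒪] [IsDiscreteValuationRing 𝒪] [CharZero 𝒪]
    [IsAdicComplete (maximalIdeal 𝒪) 𝒪] [Finite (ResidueField 𝒪)] (B : MltBase 𝒪) (lamp : 𝒪),
    MltcEigPAt 𝒪 B lamp

/-- **(pΩ)** for every base datum (helper1) -/
def MltcOmegaPContract : Prop :=
  ∀ (𝒪 : Type) [CommRing 𝒪] [IsDomain 𝒪] [IsDiscreteValuationRing 𝒪] [CharZero 𝒪]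
    [IsAdicComplete (maximalIdeal 𝒪) 𝒪] [Finite (ResidueField 𝒪)] (B : MltBase 𝒪) (lamp : 𝒪),
    MltcOmegaPAt 𝒪 B lamp

end Fermat.Agent.MLT
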