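/-
MLT / Contracts (helper8): **(G1a) `MltcFlatOrdContract` PROVEN** — the universal FLAT deformation of a
residual representation of ordinary type is of ORDINARY type (helper6's literal of
`Contracts/StepP.lean`).
-/
import Mathlib
import Fermat.Agent.Lib.MLT.Contracts.StepP
import Fermat.Agent.Lib.MLT.FlatOrd.FlatOrdRep

set_option autoImplicit false
set_option linter.unusedSectionVars false
set_option linter.unusedVariables false
set_option linter.style.haveILetI false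

open IsLocalRing Fermat.Agent.TW

namespace Fermat.Agent.MLT

/-- **(G1a)**: `MltcFlatOrdAt` for every base datum -/
theorem mltfo_flatOrdAt (𝒪 : Type) [CommRing 𝒪] [IsDomain 𝒪] [IsDiscreteValuationRing 𝒪]
    [CharZero 𝒪] [IsAdicComplete (maximalIdeal 𝒪) 𝒪] [Finite (ResidueField 𝒪)] (B : MltBase 𝒪) :
    MltcFlatOrdAt 𝒪 B := by
  intro hB hflat lamp hbar D
  haveI : Fact B.p.Prime := ⟨hB.prime⟩
  have h3 : 3 ≤ B.p := by
    have h2 := hB.prime.two_le
    have hne := hB.odd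
    omega
  have hres : Finite (ResidueField D.R) := mltfo_finite_residueField D.residue_surjective
  have hD := D.isOfType
  -- unfold the two deformation problems
  have hD' : (D.ρ.DetIsCyclotomic B.p ∧ mltX B.p B.flat D.ρ ∧
      ∀ q : ℕ, q.Prime → q ∉ B.Smin ∪ ∅ → D.ρ.IsUnramifiedAt q) ∧
      ∀ q ∈ B.Smin, q.Prime → q ≠ B.p → D.ρ.IsUnipotentOnInertiaAt q := hD
  obtain ⟨⟨hdet, hX, hunr⟩, hunip⟩ := hD'
  have hfl : D.ρ.IsFlatAt B.p := by
    rw [hflat] at hX
    exact hX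
  have hbar' : ((GaloisRepAdic.ofResidualGaloisRep B.ρbar).DetIsCyclotomic B.p ∧
      (GaloisRepAdic.ofResidualGaloisRep B.ρbar).IsOrdinaryAt B.p ∧
      ∀ q : ℕ, q.Prime → q ∉ B.Smin ∪ ∅ →
        (GaloisRepAdic.ofResidualGaloisRep B.ρbar).IsUnramifiedAt q) ∧
      ∀ q ∈ B.Smin, q.Prime → q ≠ B.p →
        (GaloisRepAdic.ofResidualGaloisRep B.ρbar).IsUnipotentOnInertiaAt q := hbar
  have hord : D.ρ.IsOrdinaryAt B.p :=
    mltfo_isOrdinaryAt_of_residual B.p h3 hres B.ρbar hbar'.1.2.1 D.ρ D.residual_isEquiv hdet hfl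
  exact ⟨⟨hdet, hord, hunr⟩, hunip⟩

/-- **(G1a) `MltcFlatOrdContract`** -/
theorem mltfo_flatOrdContract : MltcFlatOrdContract :=
  fun 𝒪 _ _ _ _ _ _ B => mltfo_flatOrdAt 𝒪 B

end Fermat.Agent.MLT
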