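/-
MLT (project S59) / (D) (helper6): **the two geometric inputs of (D-fl) and (D-new)** as contracts.

`𝔓` a place of `ℚ̄` over `p = 𝔓.p`; `s33gC 𝔓 N' h ≤ J₀(N' p)` (`p ∤ N'`) the formal part (Kummer classes
of the functions `≡ (1, 1)` at the two Gauss valuations).

* `MltcKeyTTContract` : **(KEY)** level `N' p`: an element `x` of the Tate module with `x ∈ Tinf` and
  `w_p x ∈ Tinf` has all its Kummer classes in the formal part `s33gC 𝔓 N' h`
  (`t2fg_absorb` + `t2fs_exists_level` + `t2fg_gauss_descend` + `t2fg_rho_descend` + `t2ft_normalise`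
  as in `t2f_P4KGood_of_export`/`t2ft_main`, valid for every exponent, then `s33g_cong_of_gauss`);
* `MltcEsTTContract`  : **(ES at `p`)** level `N` prime to `p`, `N ∣ N'`: for a Frobenius element `φ`
  at `𝔓` the Kummer classes of `(φ² - T_p φ + p) x` pulled back to the level `N' p` lie in `s33gC 𝔓 N' h`
  (helper4's `mltph_ES_class` + `mltph_cong_of_inf`).
-/
import Mathlib
import Fermat.Agent.Lib.S33.Wire.Point
import Fermat.Agent.Lib.S33.F12.Sub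
import Fermat.Agent.Lib.T2.F.TinfOps
import Fermat.Agent.Lib.Delta.Wire.PullDvd

set_option autoImplicit false
set_option linter.unusedSectionVars false
set_option linter.unusedVariables false

open Fermat.Agent.T1 Fermat.Agent.T2 Fermat.Agent.TW Fermat.Agent.S33 Fermat.Agent.S33W
  Fermat.Agent.Alpha Fermat.Agent.Delta ModularCurve ModularCurve.Period Fermat.Agent.S24Lib
  CongruenceSubgroup

namespace Fermat.Agent.MLT

local notation "Qbar" => AlgebraicClosure ℚ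
local notation "GQ" => (AlgebraicClosure ℚ ≃ₐ[ℚ] AlgebraicClosure ℚ)

attribute [local instance] t2gp_fact
attribute [local instance] s33g_neZero

/-- **(KEY)**: `Tinf ∩ w_p⁻¹ Tinf` lies in the formal part (level `N' p`, `p ∤ N'`) -/
def MltcKeyTTContract : Prop :=
  ∀ (𝔓 : FFPlace) (N' : ℕ) [NeZero N'] (h : ¬ 𝔓.p ∣ N')
    (x : ↥(parabolicHoms ℤ_[𝔓.p] (Gamma0 (N' * 𝔓.p)) ℤ_[𝔓.p])),
    x ∈ t2fTinf (tddDict Qbar (N' * 𝔓.p)) 𝔓.P 𝔓.p →
    t2fW 𝔓.p N' 𝔓.p h x ∈ t2fTinf (tddDict Qbar (N' * 𝔓.p)) 𝔓.P 𝔓.p →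
    ∀ k : ℕ, s33wKappa 𝔓.p (N' * 𝔓.p) k x ∈ s33gC 𝔓 N' h

/-- **(ES at `p`)**: the Eichler–Shimura relation at `p` modulo the formal part (level `N` prime to
`p`, pulled back to the level `N' p`, `N ∣ N'`) -/
def MltcEsTTContract : Prop :=
  ∀ (𝔓 : FFPlace) (N : ℕ) [NeZero N] (hN : ¬ 𝔓.p ∣ N) (N' : ℕ) [NeZero N'] (h : ¬ 𝔓.p ∣ N')
    (hNN' : N ∣ N') (φ : GQ), 𝔓.P.IsFrobeniusAt φ 𝔓.p →
    ∀ (x : ↥(parabolicHoms ℤ_[𝔓.p] (Gamma0 N) ℤ_[𝔓.p])) (k : ℕ),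
      dlwPullDvd (Dvd.dvd.mul_right hNN' 𝔓.p : N ∣ N' * 𝔓.p)
        (s33wKappa 𝔓.p N k
          (alptGal 𝔓.p N φ (alptGal 𝔓.p N φ x)
            - tdmHeckeP 𝔓.p N (CuspForm.heckeAlgebra.T 𝔓.hp hN (Set.notMem_empty 𝔓.p))
                (alptGal 𝔓.p N φ x)
            + (𝔓.p : ℤ_[𝔓.p]) • x)) ∈ s33gC 𝔓 N' h

end Fermat.Agent.MLT
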