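/-
MLT / Contracts / L1 (helper3): **level lowering at a prime `q ∥ M` at which `W[p]` is unramified**
(= the literal statement of the frozen S38, restricted to `p ∈ {3, 5}`).

`MltL1Contract` is what the stream [L1] delivers; `MltL1ContractAll` is the same statement for all
odd `p` (= S38 verbatim); `mltl1_contract_of_all` is the trivial implication.

Sub-contracts of the stream (see `Lib/MLT/L1/*`):
* `MltL1Mazur` : (A)+(B), the `q`-old case and Mazur's principle (`q ≢ 1 mod p`, or `Frob_q` not a
  scalar on `W[p]`), for a general semistable `W`, any squarefree `M` (odd or even, `p ∣ M` allowed),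
  any prime `q ≠ p` (`q = 2` allowed);
* `MltL1Ihara` : (C), a level `M₀` which is minimal among the divisors of `M` at which `W[p]` is
  residually modular has no prime `q ≠ p` at which `W[p]` is unramified, if all such primes are of type (C)
  (`q ≡ 1 mod p`, scalar Frobenius).
-/
import Mathlib
import Fermat.Prelude.Def_GaloisRep_Residual
import Fermat.Prelude.Def_FLTPrelim_ModularRep

set_option autoImplicit false

open WeierstrassCurve WeierstrassCurve.Affine WeierstrassCurve.Affine.Point

namespace Fermat.Agent.MLT

local notation "Qb" => AlgebraicClosure ℚ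
local notation "GQ" => (AlgebraicClosure ℚ ≃ₐ[ℚ] AlgebraicClosure ℚ)

/-- the statement of S38 for one prime `p` -/
def MltL1At (p : ℕ) [Fact p.Prime] : Prop :=
  ∀ (W : WeierstrassCurve ℤ), W.Δ ≠ 0 → W.IsSemistableModel →
    ∀ (hcard₁ : Nat.card (Submodule.torsionBy ℤ
        ((W.map (Int.castRingHom ℚ))⁄(AlgebraicClosure ℚ)).Point p) = p ^ 2)
      (hker : GaloisFactorsThroughFiniteLevel
        (WeierstrassCurve.Affine.Point.galoisRepModuleEnd (K := AlgebraicClosure ℚ) ℚ
          (W.map (Int.castRingHom ℚ)) p)),
      W.ModRepIsIrreducible p →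
      ∀ (M q : ℕ), q.Prime → q ≠ p → q ∣ M → ¬ q ^ 2 ∣ M → Squarefree M →
        ((W.map (Int.castRingHom ℚ)).residualGaloisRepOf p hcard₁ hker).IsUnramifiedAt q →
        W.IsResiduallyModularOfLevel p M → W.IsResiduallyModularOfLevel p (M / q)

/-- **the contract of the stream [L1]**: S38 for `p = 3` and `p = 5` -/
def MltL1Contract : Prop :=
  ∀ (p : ℕ) [Fact p.Prime], p = 3 ∨ p = 5 → MltL1At p

/-- S38 verbatim (all odd `p`) -/
def MltL1ContractAll : Prop :=
  ∀ (p : ℕ) [Fact p.Prime], p ≠ 2 → MltL1At p

theorem mltl1_contract_of_all (h : MltL1ContractAll) : MltL1Contract := by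
  intro p _ hp
  refine h p ?_
  rcases hp with rfl | rfl <;> norm_num

end Fermat.Agent.MLT
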