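/-
MLT (project S59) / [L1], `p = 3` (lead): **the contract (N) "no new form at the auxiliary prime"**.

`MltL1NoNewThree` : `W` semistable with `W[3]` irreducible, residually modular of the squarefree level `M c`,
`c ≡ 2 mod 3` a good prime of `W` with `3 ∤ a_c(W)`.  Then `W` is residually modular of the level `M`.
(The newform `g` of the eigensystem has a level `M_g ∣ M c`; if `c ∣ M_g`, then `c ∥ M_g` and every Frobenius
element at `c` has trace `± (c + 1) ≡ 0 mod 3` on `ρ_g`, but the trace on `W[3]` is `a_c(W) ≢ 0`.)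
Used by helper4 (`Lib/MLT/L1/Three/*`) to remove the auxiliary prime `r0 ≡ 2 mod 3` of Mazur's
principle at `q = 2`, `p = 3`; proved in `Lib/MLT/L1/Three/NoNew.lean` (lead).
-/
import Mathlib
import Fermat.Prelude.Def_FLTPrelim_ModularRep

set_option autoImplicit false

open WeierstrassCurve

namespace Fermat.Agent.MLT

/-- **(N)**: the auxiliary prime `c ≡ 2 mod 3`, `3 ∤ a_c(W)`, can be removed from the level -/
def MltL1NoNewThree : Prop :=
  ∀ (W : WeierstrassCurve ℤ), W.Δ ≠ 0 → W.IsSemistableModel → W.ModRepIsIrreducible 3 →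
    ∀ (M c : ℕ), 0 < M → Squarefree (M * c) → c.Prime → c % 3 = 2 → ¬ c ∣ M → ¬ (c : ℤ) ∣ W.Δ →
      ¬ (3 : ℤ) ∣ W.apOfModel c →
      W.IsResiduallyModularOfLevel 3 (M * c) → W.IsResiduallyModularOfLevel 3 M

end Fermat.Agent.MLT
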