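/-
MLT (project S59) / [L1], `p = 3` (lead, after helper4's h4-m13): **the contract "Mazur's principle at `q = 2`
for `p = 3` with an auxiliary prime in the level"**.

`MltL1MazurTwoAux` : `W` semistable with `W[3]` irreducible and unramified at `2`, `M` odd and squarefree with a
prime divisor `r0 ≡ 2 mod 3`; then residual modularity of the level `2 M` implies that of the level `M`.
(Without the auxiliary prime `X₀(M)` may have elliptic points of order `3`, where the rigid covers are
ramified and Mazur's argument breaks down; helper4 proves this contract in `Lib/MLT/L1/Three/*`.)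
`Lib/MLT/Top/L1Three.lean` (lead) derives `MltL1MazurTwo 3` from it and from (N) (`mltl1_noNewThree`).
-/
import Mathlib
import Fermat.Agent.Lib.MLT.L1.Defs

set_option autoImplicit false

open WeierstrassCurve

namespace Fermat.Agent.MLT

/-- **Mazur's principle at `q = 2`, `p = 3`, with an auxiliary prime `r0 ≡ 2 mod 3` in the level** -/
def MltL1MazurTwoAux : Prop :=
  ∀ (W : WeierstrassCurve ℤ), W.Δ ≠ 0 → W.IsSemistableModel → W.ModRepIsIrreducible 3 →
    ∀ (M r0 : ℕ), 0 < M → ¬ 2 ∣ M → Squarefree M → r0.Prime → r0 % 3 = 2 → r0 ∣ M →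
      MltL1Unram W 3 2 → W.IsResiduallyModularOfLevel 3 (M * 2) →
      W.IsResiduallyModularOfLevel 3 M

end Fermat.Agent.MLT
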