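/-
MLT / [L2] (architect helper9): **the contract of the stream CAR-MOD**.

`MltL2Contract`: removal of one factor `q` from a level `M` with `q² ∥ M`, `q ≠ p`, for the residual
representation of a semistable integral Weierstrass model `W` (so that the inertia group at `q` has a
non-zero fixed vector on `W[p]`).  `p` is an arbitrary odd prime (in particular `p = 3` is covered) and
`q` an arbitrary prime `≠ p` (in particular `q = 2` is covered); `p` may divide `M`.

The shape mirrors the frozen S38 statement (which removes `q ∥ M` when `W[p]` is unramified at `q`).
-/
import Mathlib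
import Fermat.Prelude.Def_FLTPrelim_ModularRep

set_option autoImplicit false

open WeierstrassCurve

namespace Fermat.Agent.MLT

/-- **the contract of [L2] (CAR-MOD)**: for a semistable integral model `W` with `W[p]` irreducible,
`p` odd, residual modularity of a level `M` with `q² ∥ M`, `q ≠ p`, implies residual modularity of the
level `M / q` -/
def MltL2Contract : Prop :=
  ∀ (p : ℕ), p.Prime → p ≠ 2 →
    ∀ (W : WeierstrassCurve ℤ), W.Δ ≠ 0 → W.IsSemistableModel → W.ModRepIsIrreducible p →
      ∀ (M q : ℕ), 0 < M → q.Prime → q ≠ p → q ^ 2 ∣ M → ¬ q ^ 3 ∣ M →
        W.IsResiduallyModularOfLevel p M → W.IsResiduallyModularOfLevel p (M / q)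

end Fermat.Agent.MLT
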