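/-
MLT / [L2] (architect helper9): **the two sub-contracts of the stream CAR-MOD**.

Level `M = K q²` written literally as `K * q * q` (`= (K * q) * q`, so that the two degeneracy push-forwards
`dlwPushA (K * q) q`, `dlwPushB (K * q) q : J₀(K q²) → J₀(K q)` of DELTA/WIRE apply), `q ∤ K`, `q ≠ p`.

The reduction `MltL2Geom → MltL2JL → MltL2Contract` (file `Lib/MLT/L2/Split.lean`) runs as follows.  Let
`x ≠ 0` be a class of the `W`-eigenspace of `J₀(K q²)[p]` which is fixed by an inertia group at `q` (it exists
by `s58l_fixed`, `W` being semistable).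
* If `α_* x ≠ 0` or `β_* x ≠ 0`, this push-forward is a non-zero class of `J₀(K q)[p]` on which the `T_ℓ` act
  through `a_ℓ(W)` (Eichler–Shimura on both sides, `dlw_eigen_of_equivariant`), hence level `K q` by `dlw_D0`.
  (PROVED: `mltl2_push`.)
* If `α_* x = β_* x = 0` and `p ∤ q² - 1`: `MltL2Geom` gives `(q² - 1)² x = 0`, so `x = 0`: contradiction.
* If `α_* x = β_* x = 0` and `p ∣ q² - 1`: this is `MltL2JL`.

`MltL2Geom` is the statement **(NEW)** of T4 (`T4New t4gWU`, PROVED: `t4nsc_new`), transported from Kummer
classes of the function field to `J₀`: a Kummer class `y` with `[div(y)/p] = x`; `σ x = x` means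
`σ y = y t^p`; `β_* x = 0` means that `N_β y` is a `p`-th power, hence so is `U_q y = α^* N_β y`;
`α_* x = 0` means that `N_α y` is a `p`-th power, hence so is `U_q (w y) = α^* w_q^* N_α y`
(`α ∘ w_{q²} = w_q ∘ β`).  What is missing is this dictionary only (norms along `α`, `β` versus `U_q`, `w`).

`MltL2JL` is the genuinely new input (ON ICE, see lead's m51): `q ≡ ± 1 mod p`, the class `x` is `q`-new and
fixed by inertia.  Mod-`p` analysis of the model of T4: the vertical part is Eisenstein; the abelian part
lives on three copies of `X₀(K)` over `𝔽̄_q` and gives level `K` by (B3); the toric part has gluing data at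
the supersingular points `S` in `(μ_p^S/μ_p)²`, on which `(α_*, β_*)` acts by `[[1, q-1], [q, 1-q]]`
(determinant `1 - q²`), so that for `p ∣ q² - 1` one full copy of the Brandt module `Hom(Div⁰ S, μ_p)` of
`(K, q)` survives in the kernel.  To conclude one needs "every non-Eisenstein eigensystem mod `p` of the
Brandt module of `(K, q)` is the reduction of a weight-2 eigenform of level `K q`" (mod-`p` Jacquet–Langlands =
the character group of the torus of `J₀(K q)` at `q`), or, in the language of `k[SL₂(𝔽_q)]`-modules, the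
exactness of `X ↦ H¹(Γ₀(K), X)_𝔪` + `k[G/B] = 1|V|1` + exclusion of the non-principal blocks.
-/
import Mathlib
import Fermat.Prelude.Def_FLTPrelim_ModularRep
import Fermat.Agent.Lib.Delta.Wire.Push
import Fermat.Agent.Lib.Delta.Wire.EigenSpace

set_option autoImplicit false
set_option linter.unusedSectionVars false
set_option linter.unusedVariables false

open WeierstrassCurve

namespace Fermat.Agent.MLT

open ModularCurve Fermat.Agent.Delta Fermat.Agent.T3 Fermat.Agent.Alpha

local notation "Qb" => AlgebraicClosure ℚ
local notation "GQ" => (AlgebraicClosure ℚ ≃ₐ[ℚ] AlgebraicClosure ℚ)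

/-- **[L2-Geom]** (the statement (NEW) of T4 on `J₀(K q²)`): a `p`-torsion class of level `K q²`, `q ∤ K`,
`q ≠ p`, which is fixed by an inertia group at `q` and killed by the two push-forwards to the level `K q`,
is killed by `(q² - 1)²` -/
def MltL2Geom : Prop :=
  ∀ (p : ℕ), p.Prime →
    ∀ (K q : ℕ) [NeZero (K * q)] [NeZero q], q.Prime → q ≠ p → ¬ q ∣ K →
      ∀ (A : ValuationSubring Qb), A.LiesOverPrime q →
        ∀ x : JZero (K * q * q), p • x = 0 →
          (∀ σ ∈ A.inertiaSubgroupIn ℚ, σ • x = x) →
          dlwPushA (K * q) q x = 0 → dlwPushB (K * q) q x = 0 →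
          ((q ^ 2 - 1) ^ 2) • x = 0

/-- **[L2-JL]** (mod-`p` Jacquet–Langlands at `q ≡ ± 1 mod p`): for `W` semistable with `W[p]` irreducible,
`p` odd, a non-zero class of the `W`-eigenspace of `J₀(K q²)[p]`, `q ∤ K`, `q ≠ p`, `p ∣ q² - 1`, which is
fixed by an inertia group at `q` and killed by the two push-forwards to the level `K q`, forces residual
modularity of the level `K q` -/
def MltL2JL : Prop :=
  ∀ (p : ℕ), p.Prime → p ≠ 2 →
    ∀ (W : WeierstrassCurve ℤ), W.Δ ≠ 0 → W.IsSemistableModel → W.ModRepIsIrreducible p →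
      ∀ (K q : ℕ) [NeZero (K * q)] [NeZero q], q.Prime → q ≠ p → ¬ q ∣ K → p ∣ q ^ 2 - 1 →
        ∀ (A : ValuationSubring Qb), A.LiesOverPrime q →
          ∀ x : JZero (K * q * q), x ≠ 0 → x ∈ dlwEig (K * q * q) p W →
            (∀ σ ∈ A.inertiaSubgroupIn ℚ, σ • x = x) →
            dlwPushA (K * q) q x = 0 → dlwPushB (K * q) q x = 0 →
            W.IsResiduallyModularOfLevel p (K * q)

end Fermat.Agent.MLT
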