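/-
MLT / [L2-JL] (architect helper9), package P0: **the literal contracts of the stream L2-JL**
(plan of record: `notes/helper9/L2-JL-decomposition.md`).

Setting: `𝔓 | q` an `FFPlace` (`q = 𝔓.p`), `K` a RIGID level (`4 ∣ K` or `9 ∣ K`) with `q ∤ K`,
`𝕜 = 𝔽̄_q` the residue field of `𝔓.P`, `E = tbBarF 𝔓 K` the function field of `Z = X₀(K)_𝕜`.

* `mltjSS 𝔓 K hK h49`        : `Σ`, the supersingular places of `E` = the first projections of the nodes of the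
                                special fibre of `X₀(K q)` (gluing datum `dlgDataH` of Σ-GLUE at the level `⊤`);
* `mltjBrT 𝔓 K ℓ …`           : the divisor-level correspondence `β̄_* ᾱ^*` of `Z` (the TRANSPOSE of
                                `T̃_ℓ = ᾱ_* β̄^*` = `mltjBr`): values of functions and (unnormalised) positions both
                                transform through it, so the whole stream lives on this side (v2, after
                                helper2's h2-L2-m2 and helper8's h8-m18: the thickness of the nodes is NOT known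
                                to be uniform, so nothing may depend on `e_ᾱ = e_β̄ = 1`);
* `mltjFunT`, `mltjFunRho`    : the action on FUNCTIONS `v : Place → ℤ`, `(T v)(P) = Σ_Q (β̄_* ᾱ^* P)(Q) · v(Q)`, and
                                the non-commutative polynomials in these operators;
* `MltjBrSSAt`  (BR-SS)       : `Σ` is stable under `β̄_* ᾱ^*`;
* `MltjJLKAt`   (JL-K)        : a polynomial `h` killing the torsion of `J₀(K q)(ℚ̄)` maps every function to a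
                                function which is constant on `Σ`;
* `MltjGeomOutAt` (G-out)     : the output of the geometric part at the level `K q²`: a non-zero inertia-fixed
                                `q`-new eigenclass either forces level `K q` (abelian part, (B3)) or has
                                non-constant jump data `ξ : Σ → 𝕜ˣ` with `ξ^p` constant, which is an eigenvector
                                (modulo constants) of the correspondences `β̄_* ᾱ^*` with the eigenvalues of `W`.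

* `MltjSlope` (S2)-(S5)       : the slope map `sl : Div X₀(K q)_{ℚ̄} → ℚ^Σ` (UNNORMALISED positions
                                `v(t_P(y)) ∈ (0, w_P)`, `v(q) = 1`, `w_P` the thickness at the level `⊤`);
                                `Lib/MLT/L2/Kill/*.lean` proves `MltjSlopeEx → MltjBrSS → MltjJLK`.

`Lib/MLT/L2/Assembly.lean` proves `MltjBrSS → MltjJLK → MltjGeomOut → MltL2JLRigid`.
-/
import Mathlib
import Fermat.Prelude.Def_FLTPrelim_ModularRep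
import Fermat.Agent.Lib.MLT.Contracts.L2Split
import Fermat.Agent.Lib.Ihara.B.Cmp.Main
import Fermat.Agent.Lib.Delta.Glue.InstH

set_option autoImplicit false
set_option linter.unusedSectionVars false
set_option linter.unusedVariables false
set_option linter.style.haveILetI false
set_option synthInstance.maxHeartbeats 400000

open WeierstrassCurve

namespace Fermat.Agent.MLT

open ModularCurve HahnSeries Fermat.Agent.T1 Fermat.Agent.T2 Fermat.Agent.TW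
  Fermat.Agent.Delta Fermat.Agent.T3 Fermat.Agent.Alpha AlgebraicCurve Fermat.Agent.Curve
  Fermat.Agent.Ihara Fermat.Agent.Mazur Fermat.Agent.S33 Fermat.Agent.S33Q

local notation "Qb" => AlgebraicClosure ℚ
local notation "GQ" => (AlgebraicClosure ℚ ≃ₐ[ℚ] AlgebraicClosure ℚ)

noncomputable section

attribute [local instance] t2i_dvr t2i_isAlgClosed t2i_charP t2i_fact
attribute [local instance 5000] dlhAlgK

section Defs

variable (𝔓 : FFPlace) (K : ℕ) [NeZero K] (hK : ¬ 𝔓.p ∣ K) (h49 : 4 ∣ K ∨ 9 ∣ K)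

/-- **`Σ`**: the supersingular places of `X₀(K)_{𝔽̄_q}`, as the first projections of the nodes of the
special fibre of `X₀(K q)` (the set of nodes does not depend on the setup) -/
def mltjSS : Set (Place (IsLocalRing.ResidueField ↥𝔓.P) ↥(tbBarF 𝔓 K)) :=
  {P | ∃ (n : ℕ) (su : T2Setup (t2iBase2Fix 𝔓 ⊤ K hK) (Fin n))
      (hx : su.x = t2gaX 𝔓 ⊤ K hK (𝔓.p ^ 2)) (hxb : su.xb = (s33qXi 𝔓 K, s33qXi 𝔓 K)),
      ∃ Q, (P, Q) ∈ (dlgDataH 𝔓 ⊤ K hK h49 su hx hxb).nodes}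

variable (ℓ : ℕ) [NeZero ℓ] (hℓ : ℓ.Prime) (hℓp : ℓ ≠ 𝔓.p)

/-- **the Hecke correspondence `T̃_ℓ = ᾱ_* β̄^*`** on the divisors of `X₀(K)_{𝔽̄_q}` -/
def mltjBr : Divisor (IsLocalRing.ResidueField ↥𝔓.P) ↥(tbBarF 𝔓 K) →+
    Divisor (IsLocalRing.ResidueField ↥𝔓.P) ↥(tbBarF 𝔓 K) :=
  haveI := ihbc_hasPrincipalDivisors 𝔓 (K * ℓ) (dlh_not_dvd_mul 𝔓 hK hℓ hℓp)
  Divisor.correspondence (dlhBetaC (IsLocalRing.ResidueField ↥𝔓.P) K ℓ)
    (dlhAlphaC (IsLocalRing.ResidueField ↥𝔓.P) K ℓ)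
    (mzr5p_integral_beta (IsLocalRing.ResidueField ↥𝔓.P) K ℓ) (mzr5i_alphaC_integral 𝔓 K ℓ)

/-- **the transposed correspondence `β̄_* ᾱ^*`** -/
def mltjBrT : Divisor (IsLocalRing.ResidueField ↥𝔓.P) ↥(tbBarF 𝔓 K) →+
    Divisor (IsLocalRing.ResidueField ↥𝔓.P) ↥(tbBarF 𝔓 K) :=
  haveI := ihbc_hasPrincipalDivisors 𝔓 (K * ℓ) (dlh_not_dvd_mul 𝔓 hK hℓ hℓp)
  Divisor.correspondence (dlhAlphaC (IsLocalRing.ResidueField ↥𝔓.P) K ℓ)
    (dlhBetaC (IsLocalRing.ResidueField ↥𝔓.P) K ℓ)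
    (mzr5i_alphaC_integral 𝔓 K ℓ) (mzr5p_integral_beta (IsLocalRing.ResidueField ↥𝔓.P) K ℓ)

end Defs

section Rho

variable (𝔓 : FFPlace) (K : ℕ) [NeZero K] (hK : ¬ 𝔓.p ∣ K)
  (S : Set Nat.Primes) (hS : ∀ ℓ ∈ S, ¬ ((ℓ : Nat.Primes) : ℕ) ∣ K * 𝔓.p)

include hS in
theorem mltj_ne_p (ℓ : ↥S) : ((ℓ : Nat.Primes) : ℕ) ≠ 𝔓.p := fun h =>
  hS ℓ.1 ℓ.2 (h ▸ Dvd.intro_left K rfl)

/-- **the action of `β̄_* ᾱ^*` on functions**: `(T v)(P) = Σ_Q (β̄_* ᾱ^* P)(Q) · v(Q)` -/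
def mltjFunT (ℓ : ℕ) [NeZero ℓ] (hℓ : ℓ.Prime) (hℓp : ℓ ≠ 𝔓.p) :
    Module.End ℤ (Place (IsLocalRing.ResidueField ↥𝔓.P) ↥(tbBarF 𝔓 K) → ℤ) where
  toFun v := fun P => (mltjBrT 𝔓 K hK ℓ hℓ hℓp (Finsupp.single P 1)).sum (fun Q n => n * v Q)
  map_add' v w := by
    funext P
    simp only [Pi.add_apply, mul_add]
    exact Finsupp.sum_add
  map_smul' c v := by
    funext P
    simp only [Pi.smul_apply, smul_eq_mul, RingHom.id_apply, Finsupp.mul_sum]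
    exact Finsupp.sum_congr fun Q _ => by ring

theorem mltjFunT_apply (ℓ : ℕ) [NeZero ℓ] (hℓ : ℓ.Prime) (hℓp : ℓ ≠ 𝔓.p)
    (v : Place (IsLocalRing.ResidueField ↥𝔓.P) ↥(tbBarF 𝔓 K) → ℤ)
    (P : Place (IsLocalRing.ResidueField ↥𝔓.P) ↥(tbBarF 𝔓 K)) :
    mltjFunT 𝔓 K hK ℓ hℓ hℓp v P
      = (mltjBrT 𝔓 K hK ℓ hℓ hℓp (Finsupp.single P 1)).sum (fun Q n => n * v Q) := rfl

/-- the action on functions for `ℓ ∈ S` -/
def mltjFunS (ℓ : ↥S) :
    Module.End ℤ (Place (IsLocalRing.ResidueField ↥𝔓.P) ↥(tbBarF 𝔓 K) → ℤ) :=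
  haveI : NeZero ((ℓ : Nat.Primes) : ℕ) := ⟨ℓ.1.2.ne_zero⟩
  mltjFunT 𝔓 K hK ((ℓ : Nat.Primes) : ℕ) ℓ.1.2 (mltj_ne_p 𝔓 K S hS ℓ)

/-- **non-commutative polynomials in the `β̄_* ᾱ^*`, `ℓ ∈ S`, acting on functions** -/
def mltjFunRho : FreeAlgebra ℤ ↥S →ₐ[ℤ]
    Module.End ℤ (Place (IsLocalRing.ResidueField ↥𝔓.P) ↥(tbBarF 𝔓 K) → ℤ) :=
  FreeAlgebra.lift ℤ (mltjFunS 𝔓 K hK S hS)

theorem mltjFunRho_ι (ℓ : ↥S) :
    mltjFunRho 𝔓 K hK S hS (FreeAlgebra.ι ℤ ℓ) = mltjFunS 𝔓 K hK S hS ℓ :=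
  FreeAlgebra.lift_ι_apply _ _

end Rho

section Contracts

variable (𝔓 : FFPlace) (K : ℕ) [NeZero K] (hK : ¬ 𝔓.p ∣ K) (h49 : 4 ∣ K ∨ 9 ∣ K)

/-- **(BR-SS)**: `Σ` is stable under `β̄_* ᾱ^*` (the points of `X₀(K ℓ)` over a supersingular point are
supersingular, and so are their images) -/
def MltjBrSSAt : Prop :=
  ∀ (ℓ : ℕ) [NeZero ℓ] (hℓ : ℓ.Prime) (hℓp : ℓ ≠ 𝔓.p), ¬ ℓ ∣ K →
    ∀ P ∈ mltjSS 𝔓 K hK h49, ∀ Q, mltjBrT 𝔓 K hK ℓ hℓ hℓp (Finsupp.single P 1) Q ≠ 0 →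
      Q ∈ mltjSS 𝔓 K hK h49

/-- **(JL-K)** (the component killer): a non-commutative polynomial `h` in the `T_ℓ`, `ℓ ∈ S`, which kills
the torsion of `J₀(K q)(ℚ̄)` maps (through the operators `β̄_* ᾱ^*` on functions) every function to a function
which is constant on `Σ` -/
def MltjJLKAt : Prop :=
  ∀ (S : Set Nat.Primes) (hS : ∀ ℓ ∈ S, ¬ ((ℓ : Nat.Primes) : ℕ) ∣ K * 𝔓.p) (h : FreeAlgebra ℤ ↥S),
    (∀ n : ℕ, n ≠ 0 → ∀ y : JZero (K * 𝔓.p), n • y = 0 → ihbcRhoJ (K * 𝔓.p) S h y = 0) →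
    ∀ (v : Place (IsLocalRing.ResidueField ↥𝔓.P) ↥(tbBarF 𝔓 K) → ℤ),
      ∀ P ∈ mltjSS 𝔓 K hK h49, ∀ P' ∈ mltjSS 𝔓 K hK h49,
        mltjFunRho 𝔓 K hK S hS h v P = mltjFunRho 𝔓 K hK S hS h v P'

/-- **(G-out)** (the output of the geometric part at the level `K q²`): for an odd prime `p ≠ q` with
`p ∣ q² - 1`, a non-zero class of the `W`-eigenspace of `J₀(K q²)[p]` which is fixed by the inertia group
and killed by the two push-forwards to the level `K q` either forces residual modularity of the level `K q`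
or has non-constant jump data `ξ : Σ → 𝕜ˣ`, with `ξ ^ p` constant, which are an eigenvector modulo constants
of the transposed correspondences, with the eigenvalues of `W` -/
def MltjGeomOutAt (p : ℕ) (W : WeierstrassCurve ℤ) : Prop :=
  ∀ x : JZero (K * 𝔓.p * 𝔓.p), x ≠ 0 → x ∈ dlwEig (K * 𝔓.p * 𝔓.p) p W →
    (∀ σ ∈ 𝔓.P.inertiaSubgroupIn ℚ, σ • x = x) →
    dlwPushA (K * 𝔓.p) 𝔓.p x = 0 → dlwPushB (K * 𝔓.p) 𝔓.p x = 0 →
    W.IsResiduallyModularOfLevel p (K * 𝔓.p) ∨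
    ∃ ξ : Place (IsLocalRing.ResidueField ↥𝔓.P) ↥(tbBarF 𝔓 K) → (IsLocalRing.ResidueField ↥𝔓.P)ˣ,
      (∀ P ∈ mltjSS 𝔓 K hK h49, ∀ P' ∈ mltjSS 𝔓 K hK h49, ξ P ^ p = ξ P' ^ p) ∧
      (∃ P ∈ mltjSS 𝔓 K hK h49, ∃ P' ∈ mltjSS 𝔓 K hK h49, ξ P ≠ ξ P') ∧
      ∀ (ℓ : ℕ) [NeZero ℓ] (hℓ : ℓ.Prime) (hℓp : ℓ ≠ 𝔓.p), ¬ ℓ ∣ K → W.IsGoodPrimeFor ℓ → ℓ ≠ p →
        ∃ c : (IsLocalRing.ResidueField ↥𝔓.P)ˣ, ∀ P ∈ mltjSS 𝔓 K hK h49,
          (mltjBrT 𝔓 K hK ℓ hℓ hℓp (Finsupp.single P 1)).prod (fun Q n => ξ Q ^ n)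
            = c * ξ P ^ (W.apOfModel ℓ)

end Contracts

/-! ### The slope map (packages P6, P7, P8) -/

section Slope

variable (𝔓 : FFPlace) (K : ℕ) [NeZero K] (hK : ¬ 𝔓.p ∣ K) (h49 : 4 ∣ K ∨ 9 ∣ K)

/-- **the slope map** of the semistable model of `X₀(K q)` at `𝔓`: to a divisor `D` of `X₀(K q)_{ℚ̄}` the
vector of the total UNNORMALISED positions `v(t_P(y)) ∈ (0, w_P)` (`v(q) = 1`; `w_P` = the thickness of the
node `P` at the level `⊤`, `= 12 / slope_P(Δ(q)/Δ(q^p))`, not known to be `1`) of the points of `D` in the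
annuli at the nodes `P ∈ Σ`.
* `princ` (S2, the exact conservation law): `sl (div f)_P = w_P · slope_P(f) - c(f)`, `c(f)` = the difference of
  the vertical orders of `f` (normalised), the same at all nodes;
* `hecke` (S3): `sl (T_ℓ D)_P = Σ_Q (β̄_* ᾱ^* P)(Q) · sl(D)_Q` (true for any thickness: `w_P = e_ᾱ(R|P) w_R`,
  `w_Q = e_β̄(R|Q) w_R`, and `e_β̄(R|Q)` points of `β^* y` lie in the annulus at `R`);
* `fixed` (S4): a class fixed by an open subgroup of the inertia group contains a divisor defined over the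
  fixed field (cusp `∞` + Hilbert 90), whose positions have bounded denominators;
* `surj`  (S5): for every `Q ∈ Σ` there are divisors of degree `0` whose slope vector is `a/m · e_Q` EXACTLY,
  `gcd(a, m) = 1`, `m` arbitrarily large (`y - ∞`, `y` the zero of `t_Q - ϖ_H` in the annulus at `Q`:
  position `w_Q - 1/e_H`; the cusp `∞` is in no annulus). -/
structure MltjSlope where
  /-- the slope vector (only the values at `P ∈ Σ` matter) -/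
  sl : Divisor Qb ↥(modularFunctionFieldBar (K * 𝔓.p)) →+
    (Place (IsLocalRing.ResidueField ↥𝔓.P) ↥(tbBarF 𝔓 K) → ℚ)
  /-- the thickness of the nodes at the level `⊤` -/
  w : Place (IsLocalRing.ResidueField ↥𝔓.P) ↥(tbBarF 𝔓 K) → ℕ
  w_pos : ∀ P ∈ mltjSS 𝔓 K hK h49, 0 < w P
  princ : ∀ D : Divisor Qb ↥(modularFunctionFieldBar (K * 𝔓.p)),
    D ∈ Divisor.principal (K := Qb) (F := ↥(modularFunctionFieldBar (K * 𝔓.p))) →
    ∃ c : ℚ, ∀ P ∈ mltjSS 𝔓 K hK h49, ∃ n : ℤ, sl D P = c + w P * n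
  hecke : ∀ (ℓ : ℕ) [NeZero ℓ] (hℓ : ℓ.Prime) (hℓp : ℓ ≠ 𝔓.p), ¬ ℓ ∣ K →
    ∀ (D : Divisor Qb ↥(modularFunctionFieldBar (K * 𝔓.p))), ∀ P ∈ mltjSS 𝔓 K hK h49,
      sl (heckeDivBar (t3h_alphaIntegral (K * 𝔓.p) ℓ) (t3h_betaIntegral (K * 𝔓.p) ℓ) D) P
        = (mltjBrT 𝔓 K hK ℓ hℓ hℓp (Finsupp.single P 1)).sum (fun Q n => (n : ℚ) * sl D Q)
  fixed : ∀ U : Subgroup GQ, U.FiniteIndex → ∃ e : ℕ, e ≠ 0 ∧
    ∀ x : JZero (K * 𝔓.p), (∀ σ ∈ U, σ ∈ 𝔓.P.inertiaSubgroupIn ℚ → σ • x = x) →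
      ∃ D : Divisor.degZero (K := Qb) (F := ↥(modularFunctionFieldBar (K * 𝔓.p))),
        Pic0.mk D = x ∧
        ∀ P ∈ mltjSS 𝔓 K hK h49, ∃ n : ℤ, (e : ℚ) * sl (D : Divisor Qb _) P = n
  surj : ∀ Q ∈ mltjSS 𝔓 K hK h49, ∀ N : ℕ, ∃ (m : ℕ) (a : ℤ), N < m ∧ IsCoprime a (m : ℤ) ∧
    ∃ D : Divisor.degZero (K := Qb) (F := ↥(modularFunctionFieldBar (K * 𝔓.p))),
      sl (D : Divisor Qb _) Q = (a : ℚ) / m ∧
        ∀ P ∈ mltjSS 𝔓 K hK h49, P ≠ Q → sl (D : Divisor Qb _) P = 0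

end Slope

/-! ### The global forms -/

/-- (BR-SS) at all rigid levels -/
def MltjBrSS : Prop :=
  ∀ (𝔓 : FFPlace) (K : ℕ) [NeZero K] (hK : ¬ 𝔓.p ∣ K) (h49 : 4 ∣ K ∨ 9 ∣ K), MltjBrSSAt 𝔓 K hK h49

/-- (JL-K) at all rigid levels -/
def MltjJLK : Prop :=
  ∀ (𝔓 : FFPlace) (K : ℕ) [NeZero K] (hK : ¬ 𝔓.p ∣ K) (h49 : 4 ∣ K ∨ 9 ∣ K), MltjJLKAt 𝔓 K hK h49

/-- the slope map exists at all rigid levels -/
def MltjSlopeEx : Prop :=
  ∀ (𝔓 : FFPlace) (K : ℕ) [NeZero K] (hK : ¬ 𝔓.p ∣ K) (h49 : 4 ∣ K ∨ 9 ∣ K),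
    Nonempty (MltjSlope 𝔓 K hK h49)

/-- (G-out) for all `p`, `W`, `𝔓`, rigid `K` -/
def MltjGeomOut : Prop :=
  ∀ (p : ℕ), p.Prime → p ≠ 2 →
    ∀ (W : WeierstrassCurve ℤ), W.Δ ≠ 0 → W.IsSemistableModel → W.ModRepIsIrreducible p →
      ∀ (𝔓 : FFPlace) (K : ℕ) [NeZero K] (hK : ¬ 𝔓.p ∣ K) (h49 : 4 ∣ K ∨ 9 ∣ K),
        𝔓.p ≠ p → p ∣ 𝔓.p ^ 2 - 1 → MltjGeomOutAt 𝔓 K hK h49 p W

/-- **[L2-JL] at rigid levels** -/
def MltL2JLRigid : Prop :=
  ∀ (p : ℕ), p.Prime → p ≠ 2 →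
    ∀ (W : WeierstrassCurve ℤ), W.Δ ≠ 0 → W.IsSemistableModel → W.ModRepIsIrreducible p →
      ∀ (K q : ℕ) [NeZero (K * q)] [NeZero q], q.Prime → q ≠ p → ¬ q ∣ K → (4 ∣ K ∨ 9 ∣ K) →
        p ∣ q ^ 2 - 1 →
        ∀ (A : ValuationSubring Qb), A.LiesOverPrime q →
          ∀ x : JZero (K * q * q), x ≠ 0 → x ∈ dlwEig (K * q * q) p W →
            (∀ σ ∈ A.inertiaSubgroupIn ℚ, σ • x = x) →
            dlwPushA (K * q) q x = 0 → dlwPushB (K * q) q x = 0 →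
            W.IsResiduallyModularOfLevel p (K * q)

end

end Fermat.Agent.MLT
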