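/-
MLT / [L2-JL] (architect helper9): **the literal contracts of the assembly of (G-out)** at a rigid level `K`
(`q = 𝔓.p ∤ K`, `4 ∣ K ∨ 9 ∣ K`), chart 1 = `t4vyPFix 𝔓 K hK hζ` of the T4 model of `X₀(K q²)` over the inertia
field `L = tbFix 𝔓 ⊤`, `D = t4niAFix 𝔓 K hK hζ p` the three vertical valuations.

* `MltjUnitAtTriple y`   : `y` is a unit at ALL valuation rings through ALL triple points of chart 1
                            (i.e. a unit of the local rings of the model at the supersingular points);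
* `MltjStripAt`  (STRIP) : a Kummer unit `y ∈ D.U` becomes a unit at the triple points after multiplication by a
                            `p`-th power `s ^ p`, `s ∈ D.U` (owner: helper5; `mltj4_strip` + regularity of chart 1 at
                            the triple points + the local Kummer roots);
* `MltjTripleHeckeAt` (d): `T_ℓ^fun` preserves the units at the triple points (owner: helper7): `y' = N_{A_ℓ}(B_ℓ y)`,
                            the points of the level `K ℓ q²` over/under triple points are triple points, the norm of a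
                            unit of the semi-local ring above a triple point is a unit.
-/
import Fermat.Agent.Lib.MLT.Contracts.L2JL
import Fermat.Agent.Lib.MLT.L2.AbDefs
import Fermat.Agent.Lib.MLT.L2.P4.Roots

set_option autoImplicit false
set_option linter.unusedSectionVars false
set_option linter.unusedVariables false
set_option linter.style.haveILetI false
set_option synthInstance.maxHeartbeats 400000

open WeierstrassCurve

namespace Fermat.Agent.MLT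

open ModularCurve HahnSeries Fermat.Agent.T1 Fermat.Agent.T2 Fermat.Agent.T4 Fermat.Agent.TW
  Fermat.Agent.Delta Fermat.Agent.T3 Fermat.Agent.Alpha AlgebraicCurve Fermat.Agent.Curve

local notation "Qb" => AlgebraicClosure ℚ

noncomputable section

section Defs

variable (𝔓 : FFPlace) (K : ℕ) [NeZero K] (hK : ¬ 𝔓.p ∣ K) {ζ : Qb}
  (hζ : IsPrimitiveRoot ζ 𝔓.p)

/-- **`y` is a unit at the triple points of chart 1**: at all valuation rings through all triple points -/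
def MltjUnitAtTriple (y : ↥(tbLevF 𝔓 (K * 𝔓.p * 𝔓.p) ⊤)) : Prop :=
  ∀ 𝔫 : Ideal ↥(t4vyPFix 𝔓 K hK hζ).B, MltJ4TriplePt 𝔓 K hK hζ 𝔫 →
    ∀ V ∈ (t4vyPFix 𝔓 K hK hζ).through 𝔫, V.valuation y = 1

/-- **(STRIP)** (owner: helper5): a unit `y ∈ D.U` at the three vertical valuations which satisfies the Kummer
condition over `L` becomes a unit at the triple points after multiplication by `s ^ p`, `s ∈ D.U` -/
def MltjStripAt (p : ℕ) : Prop :=
  ∀ y : ↥(t4niAFix 𝔓 K hK hζ p).U,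
    (y : (↥(tbLevF 𝔓 (K * 𝔓.p * 𝔓.p) ⊤))ˣ) ∈ tWsub ↥(tbFix 𝔓 (⊤ : Subgroup 𝔓.I)) (K * 𝔓.p * 𝔓.p) p →
    ∃ s : ↥(t4niAFix 𝔓 K hK hζ p).U,
      MltjUnitAtTriple 𝔓 K hK hζ
        ((((y * s ^ p : ↥(t4niAFix 𝔓 K hK hζ p).U) : (↥(tbLevF 𝔓 (K * 𝔓.p * 𝔓.p) ⊤))ˣ)) :
          ↥(tbLevF 𝔓 (K * 𝔓.p * 𝔓.p) ⊤))

/-- **(d) `T_ℓ^fun` preserves the units at the triple points** (owner: helper7) -/
def MltjTripleHeckeAt (p : ℕ) : Prop :=
  ∀ (ℓ : ℕ) [NeZero ℓ], ℓ.Prime → ¬ ℓ ∣ K * 𝔓.p * 𝔓.p →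
    ∀ y y' : ↥(t4niAFix 𝔓 K hK hζ p).U,
      mltl2PhiU 𝔓 (K * 𝔓.p * 𝔓.p) (y' : (↥(tbLevF 𝔓 (K * 𝔓.p * 𝔓.p) ⊤))ˣ) =
        tkrHeckeUnits (K * 𝔓.p * 𝔓.p) ℓ
          (mltl2PhiU 𝔓 (K * 𝔓.p * 𝔓.p) (y : (↥(tbLevF 𝔓 (K * 𝔓.p * 𝔓.p) ⊤))ˣ)) →
      MltjUnitAtTriple 𝔓 K hK hζ
        (((y : (↥(tbLevF 𝔓 (K * 𝔓.p * 𝔓.p) ⊤))ˣ)) : ↥(tbLevF 𝔓 (K * 𝔓.p * 𝔓.p) ⊤)) →
      MltjUnitAtTriple 𝔓 K hK hζ
        (((y' : (↥(tbLevF 𝔓 (K * 𝔓.p * 𝔓.p) ⊤))ˣ)) : ↥(tbLevF 𝔓 (K * 𝔓.p * 𝔓.p) ⊤))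

end Defs

/-! ### (PI) pull-back injectivity of Kummer classes over `ℚ̄` (two-level case) -/

/-- **(PI)** (owner: helper8): `N₀ ∣ N = N₀ e`; a function `t` of the level `N₀ e` over `ℚ̄` whose cube is a
function `y₀` of the level `N₀` satisfying the Kummer condition (`3 ∣ ord_P y₀` at all places of the level `N₀`)
is itself of the level `N₀`.  (Used for `(e = 9, 3 ∤ N₀)` and `(e = 3, 3 ∣ N₀, 9 ∤ N₀)`; proof: `ι := coe ∘ w₉`
maps the functions of the level `N₀` into `ℚ̄((q^e))`, `ι(t)^3 = q^{e n} u(q^e)` with `3 ∣ n`, so `ι(t) ∈ ℚ̄((q^e))`;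
`1, j, …, j^{e-1}` are linearly independent over `ℚ̄((q^e))`, so `[F_N : F_{N₀}(t)] ≥ e > [F_N : F_{N₀}] / 3`.) -/
def MltjPullInjQb (N₀ e : ℕ) [NeZero N₀] [NeZero e] : Prop :=
  ∀ (t : ↥(modularFunctionFieldBar (N₀ * e))) (y₀ : ↥(modularFunctionFieldBar N₀)), y₀ ≠ 0 →
    (∀ P : Place Qb ↥(modularFunctionFieldBar N₀), (3 : ℤ) ∣ P.ord y₀) →
    (t : LaurentSeries Qb) ^ 3 = (y₀ : LaurentSeries Qb) →
    ∃ s : ↥(modularFunctionFieldBar N₀), (s : LaurentSeries Qb) = (t : LaurentSeries Qb)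

end

end Fermat.Agent.MLT
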