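/-
MLT / [L2-JL] (architect helper9): **the only non-rigid case of [L2-JL] which the level normalisation needs, and
its TWO-LEVEL contracts**.

`MltL2JLTwo` = `MltL2JL` for `p = 3`, `q = 2`, `K₀` odd and squarefree (case (γ) of h9-m1633): after the level has
been raised so that `4 ∣ M`, every odd `q` with `q² ∥ M` is removed by the RIGID statement `MltL2JLRigid`
(`4 ∣ M / q²`); the prime `q = 2` is removed by `MltL2Geom` alone when `p ≠ 3` (`p ∤ 2² - 1`), and by this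
statement when `p = 3` (`Lib/MLT/L2/Level.lean`: `mltl2_level_sqfree`).

TWO LEVELS: `K₀` (not rigid) and `K = K₀ e` (rigid; `e = 9`).  All the geometry lives at the level `K` (packages
P1-P8 with `K := K₀ e`); the class `x` and the killer `h` live at the level `K₀`.
* `mltjSame 𝔓 K₀ e hK h49 P P'` : the functions of `F̄_{K₀}` which are units at all supersingular places of `F̄_K`
                               have the same value at `P` and at `P'` ("same restriction to `ᾱ F̄_{K₀}`");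
* `MltjGeomOutTwoAt`         : (G-out) for a class of the level `K₀ q²`: the jump data of its pull-back to the
                               level `K q²` are constant on the classes of `mltjSame` (steps A + B run at the level
                               `K₀`, where they need no rigidity, and give global roots `g_* ∈ F̄_{K₀}`; the residue
                               maps commute with the inclusion of the levels: helper7's `mltl2h_*_A_res`; the
                               jump data are the values of `g_∞/g_mid`, `g_mid/g_0` at the triple points: helper5's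
                               `mltj4_inj_roots`);
* `MltjJLKTwoAt`             : (JL-K) for a killer of the torsion of `J₀(K₀ q)`: the functions which are constant
                               on the classes of `mltjSame` are mapped to functions which are constant on `Σ_K`;
* `MltjSlopeTwo`             : the slope map of the level `K q` together with the two-level surjectivity
                               `surjTwo`: for arbitrarily large `m` there is a partition `c` of `Σ_K`, finer than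
                               `mltjSame`, such that every class `C` carries a divisor `D` of degree `0` OF THE
                               LEVEL `K₀ q` with `sl (π^* D) = a/m · 𝟙_C` (`D` = the points of `X₀(K₀ q)` with
                               `h = θ`, `h` the vertical function of the level `q`, lying under the annuli of `C`,
                               minus cusps; `π^* D` = ALL points with `h = θ` in these annuli, 12 in each);
* `Lib/MLT/L2/Kill/JLKTwo.lean` : `MltjSlopeTwoEx → MltjBrSS → MltjJLKTwo`;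
* `Lib/MLT/L2/AssemblyTwo.lean` : `MltjBrSS → MltjJLKTwo → MltjGeomOutTwo → MltL2JLTwo`.
-/
import Mathlib
import Fermat.Agent.Lib.MLT.Contracts.L2JL

set_option autoImplicit false
set_option linter.unusedSectionVars false
set_option linter.unusedVariables false
set_option linter.style.haveILetI false
set_option synthInstance.maxHeartbeats 400000

open WeierstrassCurve

namespace Fermat.Agent.MLT

open ModularCurve HahnSeries Fermat.Agent.T1 Fermat.Agent.T2 Fermat.Agent.TW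
  Fermat.Agent.Delta Fermat.Agent.T3 Fermat.Agent.Alpha AlgebraicCurve Fermat.Agent.Curve
  Fermat.Agent.Ihara Fermat.Agent.Mazur Fermat.Agent.S33 Fermat.Agent.S33Q

local notation "Qb" => AlgebraicClosure ℚ
local notation "GQ" => (AlgebraicClosure ℚ ≃ₐ[ℚ] AlgebraicClosure ℚ)

noncomputable section

attribute [local instance 5000] dlhAlgK

/-- **[L2-JL] at `p = 3`, `q = 2`, `K` odd squarefree** (the non-rigid case (γ)) -/
def MltL2JLTwo : Prop :=
  ∀ (W : WeierstrassCurve ℤ), W.Δ ≠ 0 → W.IsSemistableModel → W.ModRepIsIrreducible 3 →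
    ∀ (K : ℕ) [NeZero (K * 2)], ¬ 2 ∣ K → Squarefree K →
      ∀ (A : ValuationSubring Qb), A.LiesOverPrime 2 →
        ∀ x : JZero (K * 2 * 2), x ≠ 0 → x ∈ dlwEig (K * 2 * 2) 3 W →
          (∀ σ ∈ A.inertiaSubgroupIn ℚ, σ • x = x) →
          dlwPushA (K * 2) 2 x = 0 → dlwPushB (K * 2) 2 x = 0 →
          W.IsResiduallyModularOfLevel 3 (K * 2)

/-! ### The two-level contracts -/

section Two

variable (𝔓 : FFPlace) (K₀ e : ℕ) [NeZero K₀] [NeZero e]

variable (hK : ¬ 𝔓.p ∣ K₀ * e) (h49 : 4 ∣ K₀ * e ∨ 9 ∣ K₀ * e)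

/-- two places of `F̄_{K₀ e}` have "the same restriction to `ᾱ F̄_{K₀}`", in the only form which is used: every
function `f` of `F̄_{K₀}` which is a unit at ALL supersingular places of `F̄_{K₀ e}` has the same value at `P`
and at `P'` -/
def mltjSame (P P' : Place (IsLocalRing.ResidueField ↥𝔓.P) ↥(tbBarF 𝔓 (K₀ * e))) : Prop :=
  ∀ f : (↥(tbBarF 𝔓 K₀))ˣ,
    (∀ R ∈ mltjSS 𝔓 (K₀ * e) hK h49,
      R.ord (dlhAlphaC (IsLocalRing.ResidueField ↥𝔓.P) K₀ e (f : ↥(tbBarF 𝔓 K₀))) = 0) →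
    ∀ a b : IsLocalRing.ResidueField ↥𝔓.P,
      DlgVal P (dlhAlphaC (IsLocalRing.ResidueField ↥𝔓.P) K₀ e (f : ↥(tbBarF 𝔓 K₀))) a →
      DlgVal P' (dlhAlphaC (IsLocalRing.ResidueField ↥𝔓.P) K₀ e (f : ↥(tbBarF 𝔓 K₀))) b → a = b

/-- **(JL-K), two levels**: a polynomial `h` in the `T_ℓ`, `ℓ ∈ S`, which kills the torsion of `J₀(K₀ q)(ℚ̄)`
maps every function on the places of `F̄_{K₀ e}` which is constant on the classes of `mltjSame` (in `Σ`) to a
function which is constant on `Σ = mltjSS 𝔓 (K₀ e)` -/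
def MltjJLKTwoAt : Prop :=
  ∀ (S : Set Nat.Primes) (hS : ∀ ℓ ∈ S, ¬ ((ℓ : Nat.Primes) : ℕ) ∣ K₀ * e * 𝔓.p)
    (h : FreeAlgebra ℤ ↥S),
    (∀ n : ℕ, n ≠ 0 → ∀ y : JZero (K₀ * 𝔓.p), n • y = 0 → ihbcRhoJ (K₀ * 𝔓.p) S h y = 0) →
    ∀ (v : Place (IsLocalRing.ResidueField ↥𝔓.P) ↥(tbBarF 𝔓 (K₀ * e)) → ℤ),
      (∀ P ∈ mltjSS 𝔓 (K₀ * e) hK h49, ∀ P' ∈ mltjSS 𝔓 (K₀ * e) hK h49,
        mltjSame 𝔓 K₀ e hK h49 P P' → v P = v P') →
      ∀ P ∈ mltjSS 𝔓 (K₀ * e) hK h49, ∀ P' ∈ mltjSS 𝔓 (K₀ * e) hK h49,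
        mltjFunRho 𝔓 (K₀ * e) hK S hS h v P = mltjFunRho 𝔓 (K₀ * e) hK S hS h v P'

/-- **(G-out), two levels**: a non-zero inertia-fixed class of the `W`-eigenspace of `J₀(K₀ q²)[p]` which is
killed by the two push-forwards either forces residual modularity of the level `K₀ q`, or the pull-back of the
class to the level `K₀ e q²` has non-constant jump data `ξ : Σ → 𝕜ˣ`, `ξ ^ p` constant, which are CONSTANT ON
THE CLASSES OF `mltjSame` and an eigenvector modulo constants of the transposed correspondences of the level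
`K₀ e`, with the eigenvalues of `W` -/
def MltjGeomOutTwoAt (p : ℕ) (W : WeierstrassCurve ℤ) : Prop :=
  ∀ x : JZero (K₀ * 𝔓.p * 𝔓.p), x ≠ 0 → x ∈ dlwEig (K₀ * 𝔓.p * 𝔓.p) p W →
    (∀ σ ∈ 𝔓.P.inertiaSubgroupIn ℚ, σ • x = x) →
    dlwPushA (K₀ * 𝔓.p) 𝔓.p x = 0 → dlwPushB (K₀ * 𝔓.p) 𝔓.p x = 0 →
    W.IsResiduallyModularOfLevel p (K₀ * 𝔓.p) ∨
    ∃ ξ : Place (IsLocalRing.ResidueField ↥𝔓.P) ↥(tbBarF 𝔓 (K₀ * e)) →
        (IsLocalRing.ResidueField ↥𝔓.P)ˣ,
      (∀ P ∈ mltjSS 𝔓 (K₀ * e) hK h49, ∀ P' ∈ mltjSS 𝔓 (K₀ * e) hK h49, ξ P ^ p = ξ P' ^ p) ∧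
      (∃ P ∈ mltjSS 𝔓 (K₀ * e) hK h49, ∃ P' ∈ mltjSS 𝔓 (K₀ * e) hK h49, ξ P ≠ ξ P') ∧
      (∀ P ∈ mltjSS 𝔓 (K₀ * e) hK h49, ∀ P' ∈ mltjSS 𝔓 (K₀ * e) hK h49,
        mltjSame 𝔓 K₀ e hK h49 P P' → ξ P = ξ P') ∧
      ∀ (ℓ : ℕ) [NeZero ℓ] (hℓ : ℓ.Prime) (hℓp : ℓ ≠ 𝔓.p), ¬ ℓ ∣ K₀ * e → W.IsGoodPrimeFor ℓ → ℓ ≠ p →
        ∃ c : (IsLocalRing.ResidueField ↥𝔓.P)ˣ, ∀ P ∈ mltjSS 𝔓 (K₀ * e) hK h49,
          (mltjBrT 𝔓 (K₀ * e) hK ℓ hℓ hℓp (Finsupp.single P 1)).prod (fun Q n => ξ Q ^ n)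
            = c * ξ P ^ (W.apOfModel ℓ)

/-- **the slope map, two levels**: the slope map `s` of the rigid level `K₀ e`, and the two-level surjectivity:
for arbitrarily large `m` there are `a` prime to `m` and a map `c` on the places (its fibres = a partition of
`Σ`), finer than `mltjSame`, such that for every `Q ∈ Σ` there is a divisor `D` of degree `0` of the level
`K₀ q` whose pull-back to the level `K₀ e q` has the slope vector `a/m · 𝟙_{c = c Q}` EXACTLY -/
structure MltjSlopeTwo where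
  /-- the slope map of the rigid level -/
  s : MltjSlope 𝔓 (K₀ * e) hK h49
  surjTwo : ∀ N : ℕ, ∃ (m : ℕ) (a : ℤ), N < m ∧ IsCoprime a (m : ℤ) ∧
    ∃ c : Place (IsLocalRing.ResidueField ↥𝔓.P) ↥(tbBarF 𝔓 (K₀ * e)) →
        Place (IsLocalRing.ResidueField ↥𝔓.P) ↥(tbBarF 𝔓 (K₀ * e)),
      (∀ P ∈ mltjSS 𝔓 (K₀ * e) hK h49, ∀ P' ∈ mltjSS 𝔓 (K₀ * e) hK h49,
        c P = c P' → mltjSame 𝔓 K₀ e hK h49 P P') ∧
      ∀ Q ∈ mltjSS 𝔓 (K₀ * e) hK h49,
        ∃ D : Divisor.degZero (K := Qb) (F := ↥(modularFunctionFieldBar (K₀ * 𝔓.p))),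
          ∀ P ∈ mltjSS 𝔓 (K₀ * e) hK h49,
            (c P = c Q → s.sl (Divisor.pullbackAlong
                (dlwIncl (N := K₀ * 𝔓.p) (K := K₀ * e * 𝔓.p) ⟨e, by ring⟩)
                (dlwIncl_integral (N := K₀ * 𝔓.p) (K := K₀ * e * 𝔓.p) ⟨e, by ring⟩)
                (D : Divisor Qb _)) P = (a : ℚ) / m) ∧
            (c P ≠ c Q → s.sl (Divisor.pullbackAlong
                (dlwIncl (N := K₀ * 𝔓.p) (K := K₀ * e * 𝔓.p) ⟨e, by ring⟩)
                (dlwIncl_integral (N := K₀ * 𝔓.p) (K := K₀ * e * 𝔓.p) ⟨e, by ring⟩)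
                (D : Divisor Qb _)) P = 0)

end Two

/-! ### The global forms (`q = 2`, `e = 9`, `p = 3`) -/

/-- (JL-K), two levels, at `q = 2`, `e = 9` -/
def MltjJLKTwo : Prop :=
  ∀ (𝔓 : FFPlace) (K₀ : ℕ) [NeZero K₀], 𝔓.p = 2 → ∀ (hK : ¬ 𝔓.p ∣ K₀ * 9)
    (h49 : 4 ∣ K₀ * 9 ∨ 9 ∣ K₀ * 9), MltjJLKTwoAt 𝔓 K₀ 9 hK h49

/-- the two-level slope map exists at `q = 2`, `e = 9` -/
def MltjSlopeTwoEx : Prop :=
  ∀ (𝔓 : FFPlace) (K₀ : ℕ) [NeZero K₀], 𝔓.p = 2 → ∀ (hK : ¬ 𝔓.p ∣ K₀ * 9)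
    (h49 : 4 ∣ K₀ * 9 ∨ 9 ∣ K₀ * 9), Nonempty (MltjSlopeTwo 𝔓 K₀ 9 hK h49)

/-- (G-out), two levels, at `p = 3`, `q = 2`, `e = 9`, `K₀` odd and squarefree -/
def MltjGeomOutTwo : Prop :=
  ∀ (W : WeierstrassCurve ℤ), W.Δ ≠ 0 → W.IsSemistableModel → W.ModRepIsIrreducible 3 →
    ∀ (𝔓 : FFPlace) (K₀ : ℕ) [NeZero K₀], 𝔓.p = 2 → ¬ 2 ∣ K₀ → Squarefree K₀ →
      ∀ (hK : ¬ 𝔓.p ∣ K₀ * 9) (h49 : 4 ∣ K₀ * 9 ∨ 9 ∣ K₀ * 9), MltjGeomOutTwoAt 𝔓 K₀ 9 hK h49 3 W

end

end Fermat.Agent.MLT
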