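/-
MLT / [L2-JL] (architect helper9): **the literal of Theorem R** = the core of (G-out) at a rigid level `K`, in the
ROOTS form which serves both assemblies (rigid: helper4; two levels: helper1).

`y ∈ D.U` a Kummer unit over the inertia field, both of whose norms are `constant × p`-th powers, which is a unit at
the triple points, with roots `g₁ g₂ g₃` of its three residues, whose class over `ℚ̄` is a `W`-eigenclass (in the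
form of the eigen-relations `T_ℓ^fun (Φ y) = (Φ y)^{a_ℓ} · t^p`) and which is not a `constant × p`-th power.  Then
one of the two functions `f = g₁/g₂`, `f = g₂/g₃` of `E = tbBarF 𝔓 K` has a value in `𝕜ˣ` at every supersingular
place, and EVERY `ξ` with `ξ P = f(P)` on `Σ` satisfies the three clauses of `MltjGeomOutAt`.

(For the two-level case: `y = A y₁`, `g_* = ᾱ τ_*`, so `f = ᾱ (τ_i/τ_j)` and `ξ` is constant on the classes of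
`mltjSame` by definition.)
-/
import Fermat.Agent.Lib.MLT.Contracts.L2GOut

set_option autoImplicit false
set_option linter.unusedSectionVars false
set_option linter.unusedVariables false
set_option linter.style.haveILetI false
set_option synthInstance.maxHeartbeats 400000

open WeierstrassCurve

namespace Fermat.Agent.MLT

open ModularCurve HahnSeries Fermat.Agent.T1 Fermat.Agent.T2 Fermat.Agent.T4 Fermat.Agent.TW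
  Fermat.Agent.Delta Fermat.Agent.T3 Fermat.Agent.Alpha AlgebraicCurve Fermat.Agent.Curve

local notation "Qb" => AlgebraicClosure ℚ

noncomputable section

attribute [local instance 5000] dlhAlgK

variable (𝔓 : FFPlace) (K : ℕ) [NeZero K] (hK : ¬ 𝔓.p ∣ K) {ζ : Qb}
  (hζ : IsPrimitiveRoot ζ 𝔓.p) (h49 : 4 ∣ K ∨ 9 ∣ K)
  (p : ℕ) (hp0 : p ≠ 0) (hpq : Nat.Coprime p 𝔓.p)

/-- the three clauses of `MltjGeomOutAt` for a function `ξ : Σ → 𝕜ˣ` -/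
def MltjXiClauses (W : WeierstrassCurve ℤ)
    (ξ : Place (IsLocalRing.ResidueField ↥𝔓.P) ↥(tbBarF 𝔓 K) → (IsLocalRing.ResidueField ↥𝔓.P)ˣ) :
    Prop :=
  (∀ P ∈ mltjSS 𝔓 K hK h49, ∀ P' ∈ mltjSS 𝔓 K hK h49, ξ P ^ p = ξ P' ^ p) ∧
  (∃ P ∈ mltjSS 𝔓 K hK h49, ∃ P' ∈ mltjSS 𝔓 K hK h49, ξ P ≠ ξ P') ∧
  ∀ (ℓ : ℕ) [NeZero ℓ] (hℓ : ℓ.Prime) (hℓp : ℓ ≠ 𝔓.p), ¬ ℓ ∣ K → W.IsGoodPrimeFor ℓ → ℓ ≠ p →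
    ∃ c : (IsLocalRing.ResidueField ↥𝔓.P)ˣ, ∀ P ∈ mltjSS 𝔓 K hK h49,
      (mltjBrT 𝔓 K hK ℓ hℓ hℓp (Finsupp.single P 1)).prod (fun Q n => ξ Q ^ n)
        = c * ξ P ^ (W.apOfModel ℓ)

/-- **Theorem R** (the core of (G-out)), roots form -/
def MltjTheoremRAt (W : WeierstrassCurve ℤ) : Prop :=
  ∀ (y : ↥(t4niAFix 𝔓 K hK hζ p).U),
    (y : (↥(tbLevF 𝔓 (K * 𝔓.p * 𝔓.p) ⊤))ˣ) ∈
      tWsub ↥(tbFix 𝔓 (⊤ : Subgroup 𝔓.I)) (K * 𝔓.p * 𝔓.p) p →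
    (∀ P : Place Qb ↥(modularFunctionFieldBar (K * 𝔓.p * 𝔓.p)),
      (p : ℤ) ∣ P.ord ((mltl2PhiU 𝔓 (K * 𝔓.p * 𝔓.p) (y : (↥(tbLevF 𝔓 (K * 𝔓.p * 𝔓.p) ⊤))ˣ) :
        (↥(modularFunctionFieldBar (K * 𝔓.p * 𝔓.p)))ˣ) :
          ↥(modularFunctionFieldBar (K * 𝔓.p * 𝔓.p)))) →
    (∃ (c : (↥(tbFix 𝔓 (⊤ : Subgroup 𝔓.I)))ˣ) (g : (↥(tbLevF 𝔓 (K * 𝔓.p) ⊤))ˣ),
      (t4niAFix 𝔓 K hK hζ p).Nα y = (t4niAFix 𝔓 K hK hζ p).cF1 c * g ^ p) →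
    (∃ (c : (↥(tbFix 𝔓 (⊤ : Subgroup 𝔓.I)))ˣ) (g : (↥(tbLevF 𝔓 (K * 𝔓.p) ⊤))ˣ),
      (t4niAFix 𝔓 K hK hζ p).Nβ y = (t4niAFix 𝔓 K hK hζ p).cF1 c * g ^ p) →
    MltjUnitAtTriple 𝔓 K hK hζ
      (((y : (↥(tbLevF 𝔓 (K * 𝔓.p * 𝔓.p) ⊤))ˣ)) : ↥(tbLevF 𝔓 (K * 𝔓.p * 𝔓.p) ⊤)) →
    ∀ g₁ g₂ g₃ : (↥(tbBarF 𝔓 K))ˣ,
      (t4niBFix 𝔓 K hK hζ p hp0 hpq).rinf y = g₁ ^ p →
      (t4niBFix 𝔓 K hK hζ p hp0 hpq).rmid y = g₂ ^ p →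
      (t4niBFix 𝔓 K hK hζ p hp0 hpq).r0 y = g₃ ^ p →
      (∀ (ℓ : ℕ) [NeZero ℓ], ℓ.Prime → ℓ ≠ 𝔓.p → ¬ ℓ ∣ K → W.IsGoodPrimeFor ℓ → ℓ ≠ p →
        ∃ t : (↥(modularFunctionFieldBar (K * 𝔓.p * 𝔓.p)))ˣ,
          tkrHeckeUnits (K * 𝔓.p * 𝔓.p) ℓ
              (mltl2PhiU 𝔓 (K * 𝔓.p * 𝔓.p) (y : (↥(tbLevF 𝔓 (K * 𝔓.p * 𝔓.p) ⊤))ˣ)) =
            mltl2PhiU 𝔓 (K * 𝔓.p * 𝔓.p) (y : (↥(tbLevF 𝔓 (K * 𝔓.p * 𝔓.p) ⊤))ˣ) ^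
              (W.apOfModel ℓ) * t ^ p) →
      (¬ ∃ (c : (↥(tbFix 𝔓 (⊤ : Subgroup 𝔓.I)))ˣ) (t : (↥(tbLevF 𝔓 (K * 𝔓.p * 𝔓.p) ⊤))ˣ),
        (y : (↥(tbLevF 𝔓 (K * 𝔓.p * 𝔓.p) ⊤))ˣ) = (t4niAFix 𝔓 K hK hζ p).cF c * t ^ p) →
      ∃ f : (↥(tbBarF 𝔓 K))ˣ, (f = g₁ / g₂ ∨ f = g₂ / g₃) ∧
        (∀ P ∈ mltjSS 𝔓 K hK h49, ∃ c : (IsLocalRing.ResidueField ↥𝔓.P)ˣ,
          DlgVal P ((f : (↥(tbBarF 𝔓 K))ˣ) : ↥(tbBarF 𝔓 K))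
            ((c : (IsLocalRing.ResidueField ↥𝔓.P)ˣ) : IsLocalRing.ResidueField ↥𝔓.P)) ∧
        ∀ ξ : Place (IsLocalRing.ResidueField ↥𝔓.P) ↥(tbBarF 𝔓 K) →
            (IsLocalRing.ResidueField ↥𝔓.P)ˣ,
          (∀ P ∈ mltjSS 𝔓 K hK h49,
            DlgVal P ((f : (↥(tbBarF 𝔓 K))ˣ) : ↥(tbBarF 𝔓 K))
              ((ξ P : (IsLocalRing.ResidueField ↥𝔓.P)ˣ) : IsLocalRing.ResidueField ↥𝔓.P)) →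
          MltjXiClauses 𝔓 K hK h49 p W ξ

end

end Fermat.Agent.MLT
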