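/-
MLT / [L2-JL], case (γ) (architect helper9): **the literal contracts of (STRIP₀) = the two-level strip**, and of the
assembly of the two-level (G-out).

Levels `K₀` (not rigid) and `K = K₀ e` (rigid).  `L = tbFix 𝔓 ⊤`, `F₀ = tbLevF 𝔓 (K₀ q q) ⊤`, `F = tbLevF 𝔓 (K₀ e q q) ⊤`,
`A = mltl2hA L K₀ q e : F₀ → F`, `E₀ = tbBarF 𝔓 K₀`, `E = tbBarF 𝔓 (K₀ e)`, `ᾱ = dlhAlphaC 𝕜 K₀ e : E₀ → E`,
`D₀, B₀` = `t4niAFix, t4niBFix` at `K₀`, `D, B` at `K₀ e`.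

Characteristic polynomials, NORMAL FORM (helper6's `CharpolyFix.lean`):
`χ_A b  := letI := (mltl2hA L K₀ q e).toRingHom.toAlgebra; (LinearMap.mulLeft F₀ b).charpoly`,
`χ_ᾱ h  := letI := algebraAlong ᾱ; (LinearMap.mulLeft E₀ h).charpoly`
(the finiteness instances are propositions: the contracts quantify over them).

* `mltjAU`            : `A` on the units at the three vertical valuations, `D₀.U → D.U`;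
* `MltjStripTwoAt`    : **(S₀)** the two-level strip;
* `MltjCharRedAt`     : (S₀-γ) the coefficients of `χ_A b`, `b ∈ D.U`, reduce to the coefficients of `χ_ᾱ (r_* b)` (helper6);
* `MltjExtThroughAt`  : (d') the extensions of `V' ∩ F₀`, `V'` horizontal through a triple point, are through triple points
                        (helper7);
* `MltjCharValAt`     : (S₀-β) integrality of `A (coeff (χ_A b) ^ p * y₀ ^ k)` at the horizontal valuation rings through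
                        the triple points (helper8);
* `MltjUnitOfLocAt`   : (S₀-α) the unit criterion at the triple points (helper5);
* `MltjCrtAt`         : (CRT) units of the chart ring with prescribed values at the triple points (helper5).
-/
import Fermat.Agent.Lib.MLT.Contracts.L2GOut
import Fermat.Agent.Lib.MLT.Contracts.L2JLTwo
import Fermat.Agent.Lib.MLT.L2.HkCompat

set_option autoImplicit false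
set_option linter.unusedSectionVars false
set_option linter.unusedVariables false
set_option linter.style.haveILetI false
set_option synthInstance.maxHeartbeats 400000

open WeierstrassCurve

namespace Fermat.Agent.MLT

open ModularCurve HahnSeries Fermat.Agent.T1 Fermat.Agent.T2 Fermat.Agent.T4 Fermat.Agent.TW
  Fermat.Agent.Delta Fermat.Agent.T3 Fermat.Agent.Alpha AlgebraicCurve Fermat.Agent.Curve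

local notation "Qb" => AlgebraicClosure ℚ

noncomputable section

attribute [local instance 5000] dlhAlgK

section Two

variable (𝔓 : FFPlace) (K₀ e : ℕ) [NeZero K₀] [NeZero e] (hK₀ : ¬ 𝔓.p ∣ K₀) (hK : ¬ 𝔓.p ∣ K₀ * e)
  {ζ : Qb} (hζ : IsPrimitiveRoot ζ 𝔓.p) (h49 : 4 ∣ K₀ * e ∨ 9 ∣ K₀ * e)
  (p : ℕ) (hp0 : p ≠ 0) (hpq : Nat.Coprime p 𝔓.p)

/-- **the inclusion of the levels on the units at the three vertical valuations** -/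
def mltjAU : ↥(t4niAFix 𝔓 K₀ hK₀ hζ p).U →* ↥(t4niAFix 𝔓 (K₀ * e) hK hζ p).U :=
  ((Units.map (mltl2hA ↥(tbFix 𝔓 (⊤ : Subgroup 𝔓.I)) K₀ 𝔓.p e :
      ↥(tbLevF 𝔓 (K₀ * 𝔓.p * 𝔓.p) ⊤) →* ↥(tbLevF 𝔓 (K₀ * e * 𝔓.p * 𝔓.p) ⊤))).comp
    (t4niAFix 𝔓 K₀ hK₀ hζ p).U.subtype).codRestrict (t4niAFix 𝔓 (K₀ * e) hK hζ p).U
    (fun y => mltj5_A_mem_U 𝔓 K₀ e hK₀ hK hζ p y)

theorem coe_mltjAU (y : ↥(t4niAFix 𝔓 K₀ hK₀ hζ p).U) :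
    (((mltjAU 𝔓 K₀ e hK₀ hK hζ p y : ↥(t4niAFix 𝔓 (K₀ * e) hK hζ p).U) :
      (↥(tbLevF 𝔓 (K₀ * e * 𝔓.p * 𝔓.p) ⊤))ˣ) : ↥(tbLevF 𝔓 (K₀ * e * 𝔓.p * 𝔓.p) ⊤)) =
      mltl2hA ↥(tbFix 𝔓 (⊤ : Subgroup 𝔓.I)) K₀ 𝔓.p e
        (((y : (↥(tbLevF 𝔓 (K₀ * 𝔓.p * 𝔓.p) ⊤))ˣ)) : ↥(tbLevF 𝔓 (K₀ * 𝔓.p * 𝔓.p) ⊤)) := rfl

/-- **(S₀) the two-level strip**: a Kummer unit `y₀ ∈ D₀.U` of the level `K₀` whose three residues are `p`-th powers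
becomes, after raising to a power `k` prime to `p` and multiplication by a `p`-th power `ε ^ p`, `ε ∈ D₀.U`, a unit at
ALL triple points of the (rigid) level `K₀ e` -/
def MltjStripTwoAt : Prop :=
  ∀ y₀ : ↥(t4niAFix 𝔓 K₀ hK₀ hζ p).U,
    (y₀ : (↥(tbLevF 𝔓 (K₀ * 𝔓.p * 𝔓.p) ⊤))ˣ) ∈
      tWsub ↥(tbFix 𝔓 (⊤ : Subgroup 𝔓.I)) (K₀ * 𝔓.p * 𝔓.p) p →
    MltL2AbTriv 𝔓 K₀ hK₀ hζ p hp0 hpq y₀ →
    ∃ (k : ℕ) (ε : ↥(t4niAFix 𝔓 K₀ hK₀ hζ p).U), Nat.Coprime k p ∧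
      MltjUnitAtTriple 𝔓 (K₀ * e) hK hζ
        (((mltjAU 𝔓 K₀ e hK₀ hK hζ p (y₀ ^ k * ε ^ p) : ↥(t4niAFix 𝔓 (K₀ * e) hK hζ p).U) :
          (↥(tbLevF 𝔓 (K₀ * e * 𝔓.p * 𝔓.p) ⊤))ˣ) : ↥(tbLevF 𝔓 (K₀ * e * 𝔓.p * 𝔓.p) ⊤))

/-- **(S₀-γ)** (owner: helper6): for `b ∈ D.U` (level `K₀ e`) the coefficients of the characteristic polynomial of
`b` over `A F₀` lie in the three vertical valuation rings of the level `K₀` and reduce to the coefficients of the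
characteristic polynomials of the three residues of `b` over `ᾱ E₀`; if these are not zero, the coefficient is a
unit `ε ∈ D₀.U` -/
def MltjCharRedAt : Prop :=
  ∀ (hfinA : letI := (mltl2hA ↥(tbFix 𝔓 (⊤ : Subgroup 𝔓.I)) K₀ 𝔓.p e).toRingHom.toAlgebra;
      FiniteDimensional ↥(tbLevF 𝔓 (K₀ * 𝔓.p * 𝔓.p) ⊤) ↥(tbLevF 𝔓 (K₀ * e * 𝔓.p * 𝔓.p) ⊤))
    (hfinα : letI := algebraAlong (dlhAlphaC (IsLocalRing.ResidueField ↥𝔓.P) K₀ e);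
      FiniteDimensional ↥(tbBarF 𝔓 K₀) ↥(tbBarF 𝔓 (K₀ * e)))
    (b : ↥(t4niAFix 𝔓 (K₀ * e) hK hζ p).U) (n : ℕ),
    (letI := algebraAlong (dlhAlphaC (IsLocalRing.ResidueField ↥𝔓.P) K₀ e);
      (LinearMap.mulLeft ↥(tbBarF 𝔓 K₀)
        (((t4niBFix 𝔓 (K₀ * e) hK hζ p hp0 hpq).rinf b : (↥(tbBarF 𝔓 (K₀ * e)))ˣ) :
          ↥(tbBarF 𝔓 (K₀ * e)))).charpoly.coeff n ≠ 0) →
    (letI := algebraAlong (dlhAlphaC (IsLocalRing.ResidueField ↥𝔓.P) K₀ e);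
      (LinearMap.mulLeft ↥(tbBarF 𝔓 K₀)
        (((t4niBFix 𝔓 (K₀ * e) hK hζ p hp0 hpq).rmid b : (↥(tbBarF 𝔓 (K₀ * e)))ˣ) :
          ↥(tbBarF 𝔓 (K₀ * e)))).charpoly.coeff n ≠ 0) →
    (letI := algebraAlong (dlhAlphaC (IsLocalRing.ResidueField ↥𝔓.P) K₀ e);
      (LinearMap.mulLeft ↥(tbBarF 𝔓 K₀)
        (((t4niBFix 𝔓 (K₀ * e) hK hζ p hp0 hpq).r0 b : (↥(tbBarF 𝔓 (K₀ * e)))ˣ) :
          ↥(tbBarF 𝔓 (K₀ * e)))).charpoly.coeff n ≠ 0) →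
    ∃ ε : ↥(t4niAFix 𝔓 K₀ hK₀ hζ p).U,
      (((ε : (↥(tbLevF 𝔓 (K₀ * 𝔓.p * 𝔓.p) ⊤))ˣ)) : ↥(tbLevF 𝔓 (K₀ * 𝔓.p * 𝔓.p) ⊤)) =
        (letI := (mltl2hA ↥(tbFix 𝔓 (⊤ : Subgroup 𝔓.I)) K₀ 𝔓.p e).toRingHom.toAlgebra;
          (LinearMap.mulLeft ↥(tbLevF 𝔓 (K₀ * 𝔓.p * 𝔓.p) ⊤)
            (((b : (↥(tbLevF 𝔓 (K₀ * e * 𝔓.p * 𝔓.p) ⊤))ˣ)) :
              ↥(tbLevF 𝔓 (K₀ * e * 𝔓.p * 𝔓.p) ⊤))).charpoly.coeff n) ∧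
      (((t4niBFix 𝔓 K₀ hK₀ hζ p hp0 hpq).rinf ε : (↥(tbBarF 𝔓 K₀))ˣ) : ↥(tbBarF 𝔓 K₀)) =
        (letI := algebraAlong (dlhAlphaC (IsLocalRing.ResidueField ↥𝔓.P) K₀ e);
          (LinearMap.mulLeft ↥(tbBarF 𝔓 K₀)
            (((t4niBFix 𝔓 (K₀ * e) hK hζ p hp0 hpq).rinf b : (↥(tbBarF 𝔓 (K₀ * e)))ˣ) :
              ↥(tbBarF 𝔓 (K₀ * e)))).charpoly.coeff n) ∧
      (((t4niBFix 𝔓 K₀ hK₀ hζ p hp0 hpq).rmid ε : (↥(tbBarF 𝔓 K₀))ˣ) : ↥(tbBarF 𝔓 K₀)) =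
        (letI := algebraAlong (dlhAlphaC (IsLocalRing.ResidueField ↥𝔓.P) K₀ e);
          (LinearMap.mulLeft ↥(tbBarF 𝔓 K₀)
            (((t4niBFix 𝔓 (K₀ * e) hK hζ p hp0 hpq).rmid b : (↥(tbBarF 𝔓 (K₀ * e)))ˣ) :
              ↥(tbBarF 𝔓 (K₀ * e)))).charpoly.coeff n) ∧
      (((t4niBFix 𝔓 K₀ hK₀ hζ p hp0 hpq).r0 ε : (↥(tbBarF 𝔓 K₀))ˣ) : ↥(tbBarF 𝔓 K₀)) =
        (letI := algebraAlong (dlhAlphaC (IsLocalRing.ResidueField ↥𝔓.P) K₀ e);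
          (LinearMap.mulLeft ↥(tbBarF 𝔓 K₀)
            (((t4niBFix 𝔓 (K₀ * e) hK hζ p hp0 hpq).r0 b : (↥(tbBarF 𝔓 (K₀ * e)))ˣ) :
              ↥(tbBarF 𝔓 (K₀ * e)))).charpoly.coeff n)

/-- **(d')** (owner: helper7): every valuation ring of `F` with the same restriction to `A F₀` as a horizontal
valuation ring `V'` through a triple point of the level `K₀ e` is again through a triple point -/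
def MltjExtThroughAt : Prop :=
  ∀ 𝔫' : Ideal ↥(t4vyPFix 𝔓 (K₀ * e) hK hζ).B, MltJ4TriplePt 𝔓 (K₀ * e) hK hζ 𝔫' →
    ∀ V' ∈ (t4vyPFix 𝔓 (K₀ * e) hK hζ).through 𝔫',
      V' ≠ t4vOinfFix 𝔓 (K₀ * e) → V' ≠ t4vOmidFix 𝔓 (K₀ * e) hK hζ → V' ≠ t4vO0Fix 𝔓 (K₀ * e) hK →
      ∀ V'' : ValuationSubring ↥(tbLevF 𝔓 (K₀ * e * 𝔓.p * 𝔓.p) ⊤),
        V''.comap (mltl2hA ↥(tbFix 𝔓 (⊤ : Subgroup 𝔓.I)) K₀ 𝔓.p e).toRingHom =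
          V'.comap (mltl2hA ↥(tbFix 𝔓 (⊤ : Subgroup 𝔓.I)) K₀ 𝔓.p e).toRingHom →
        ∃ 𝔫'' : Ideal ↥(t4vyPFix 𝔓 (K₀ * e) hK hζ).B, MltJ4TriplePt 𝔓 (K₀ * e) hK hζ 𝔫'' ∧
          V'' ∈ (t4vyPFix 𝔓 (K₀ * e) hK hζ).through 𝔫''

/-- **(S₀-β)** (owner: helper8): if `A y₀ · b ^ p` is a unit at the triple points of the level `K₀ e`, then
`A (c ^ p · y₀ ^ k)`, `c` the coefficient of `X ^ (d - k)` of the characteristic polynomial of `b` over `A F₀`, lies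
in every horizontal valuation ring through a triple point -/
def MltjCharValAt : Prop :=
  ∀ (hfinA : letI := (mltl2hA ↥(tbFix 𝔓 (⊤ : Subgroup 𝔓.I)) K₀ 𝔓.p e).toRingHom.toAlgebra;
      FiniteDimensional ↥(tbLevF 𝔓 (K₀ * 𝔓.p * 𝔓.p) ⊤) ↥(tbLevF 𝔓 (K₀ * e * 𝔓.p * 𝔓.p) ⊤))
    (y₀ : ↥(t4niAFix 𝔓 K₀ hK₀ hζ p).U) (b : ↥(t4niAFix 𝔓 (K₀ * e) hK hζ p).U),
    MltjUnitAtTriple 𝔓 (K₀ * e) hK hζ
      (((mltjAU 𝔓 K₀ e hK₀ hK hζ p y₀ * b ^ p : ↥(t4niAFix 𝔓 (K₀ * e) hK hζ p).U) :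
        (↥(tbLevF 𝔓 (K₀ * e * 𝔓.p * 𝔓.p) ⊤))ˣ) : ↥(tbLevF 𝔓 (K₀ * e * 𝔓.p * 𝔓.p) ⊤)) →
    ∀ k : ℕ,
      (letI := (mltl2hA ↥(tbFix 𝔓 (⊤ : Subgroup 𝔓.I)) K₀ 𝔓.p e).toRingHom.toAlgebra;
        k ≤ Module.finrank ↥(tbLevF 𝔓 (K₀ * 𝔓.p * 𝔓.p) ⊤) ↥(tbLevF 𝔓 (K₀ * e * 𝔓.p * 𝔓.p) ⊤)) →
      ∀ 𝔫' : Ideal ↥(t4vyPFix 𝔓 (K₀ * e) hK hζ).B, MltJ4TriplePt 𝔓 (K₀ * e) hK hζ 𝔫' →
        ∀ V' ∈ (t4vyPFix 𝔓 (K₀ * e) hK hζ).through 𝔫',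
          V' ≠ t4vOinfFix 𝔓 (K₀ * e) → V' ≠ t4vOmidFix 𝔓 (K₀ * e) hK hζ →
          V' ≠ t4vO0Fix 𝔓 (K₀ * e) hK →
          mltl2hA ↥(tbFix 𝔓 (⊤ : Subgroup 𝔓.I)) K₀ 𝔓.p e
            ((letI := (mltl2hA ↥(tbFix 𝔓 (⊤ : Subgroup 𝔓.I)) K₀ 𝔓.p e).toRingHom.toAlgebra;
              (LinearMap.mulLeft ↥(tbLevF 𝔓 (K₀ * 𝔓.p * 𝔓.p) ⊤)
                (((b : (↥(tbLevF 𝔓 (K₀ * e * 𝔓.p * 𝔓.p) ⊤))ˣ)) :
                  ↥(tbLevF 𝔓 (K₀ * e * 𝔓.p * 𝔓.p) ⊤))).charpoly.coeff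
                (Module.finrank ↥(tbLevF 𝔓 (K₀ * 𝔓.p * 𝔓.p) ⊤)
                  ↥(tbLevF 𝔓 (K₀ * e * 𝔓.p * 𝔓.p) ⊤) - k)) ^ p *
              (((y₀ : (↥(tbLevF 𝔓 (K₀ * 𝔓.p * 𝔓.p) ⊤))ˣ)) : ↥(tbLevF 𝔓 (K₀ * 𝔓.p * 𝔓.p) ⊤)) ^ k) ∈ V'

end Two

section One

variable (𝔓 : FFPlace) (K : ℕ) [NeZero K] (hK : ¬ 𝔓.p ∣ K) {ζ : Qb}
  (hζ : IsPrimitiveRoot ζ 𝔓.p) (h49 : 4 ∣ K ∨ 9 ∣ K)
  (p : ℕ) (hp0 : p ≠ 0) (hpq : Nat.Coprime p 𝔓.p)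

/-- **(S₀-α) the unit criterion at the triple points** (owner: helper5): `w ∈ D.U` which lies in all the valuation
rings through the triple points and whose residue on the component `∞` has a non-zero value at every supersingular
place is a unit at the triple points -/
def MltjUnitOfLocAt : Prop :=
  ∀ w : ↥(t4niAFix 𝔓 K hK hζ p).U,
    (∀ 𝔫 : Ideal ↥(t4vyPFix 𝔓 K hK hζ).B, MltJ4TriplePt 𝔓 K hK hζ 𝔫 →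
      ∀ V ∈ (t4vyPFix 𝔓 K hK hζ).through 𝔫,
        (((w : (↥(tbLevF 𝔓 (K * 𝔓.p * 𝔓.p) ⊤))ˣ)) : ↥(tbLevF 𝔓 (K * 𝔓.p * 𝔓.p) ⊤)) ∈ V) →
    (∀ Pl ∈ mltjSS 𝔓 K hK h49, ∃ c : IsLocalRing.ResidueField ↥𝔓.P, c ≠ 0 ∧
      DlgVal Pl (((t4niBFix 𝔓 K hK hζ p hp0 hpq).rinf w : (↥(tbBarF 𝔓 K))ˣ) : ↥(tbBarF 𝔓 K)) c) →
    MltjUnitAtTriple 𝔓 K hK hζ
      (((w : (↥(tbLevF 𝔓 (K * 𝔓.p * 𝔓.p) ⊤))ˣ)) : ↥(tbLevF 𝔓 (K * 𝔓.p * 𝔓.p) ⊤))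

/-- **(CRT)** (owner: helper5): units at the triple points with prescribed non-zero values at the supersingular
places (on the component `∞`; by continuity, on the three components) -/
def MltjCrtAt : Prop :=
  ∀ x : Place (IsLocalRing.ResidueField ↥𝔓.P) ↥(tbBarF 𝔓 K) → (IsLocalRing.ResidueField ↥𝔓.P)ˣ,
    ∃ u : ↥(t4niAFix 𝔓 K hK hζ p).U,
      MltjUnitAtTriple 𝔓 K hK hζ
        (((u : (↥(tbLevF 𝔓 (K * 𝔓.p * 𝔓.p) ⊤))ˣ)) : ↥(tbLevF 𝔓 (K * 𝔓.p * 𝔓.p) ⊤)) ∧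
      ∀ Pl ∈ mltjSS 𝔓 K hK h49,
        DlgVal Pl (((t4niBFix 𝔓 K hK hζ p hp0 hpq).rinf u : (↥(tbBarF 𝔓 K))ˣ) : ↥(tbBarF 𝔓 K))
          ((x Pl : (IsLocalRing.ResidueField ↥𝔓.P)ˣ) : IsLocalRing.ResidueField ↥𝔓.P)

end One

end

end Fermat.Agent.MLT
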