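/-
MLT (project S59) / CONTRACT of stream [M] = Min (helper2): **the minimal case**
`R_∅ ≅ T_∅`, complete intersection, `H_∅` free of some rank `d > 0` over `T_∅`, for both problems
(`B.flat = true`: flat, level prime to `p`; `B.flat = false`: ordinary, level `N_∅ p`, Hida cut at `p`)
and `p ∈ {3, 5}`.  All notions: `Lib/MLT/Min/Defs.lean` (base datum, `H_Σ`), `Lib/MLT/Min/RT.lean`
(`MltRT`).
-/
import Mathlib
import Fermat.Agent.Lib.MLT.Min.RT
import Fermat.Agent.Lib.MLT.Contracts.TWO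

set_option autoImplicit false

open IsLocalRing

namespace Fermat.Agent.MLT

/-- **CONTRACT [M]**: for every valid base datum with `p ∈ {3, 5}`, `R_∅ ≅ T_∅` etc. -/
def MltMinContract : Prop :=
  ∀ (𝒪 : Type) [CommRing 𝒪] [IsDomain 𝒪] [IsDiscreteValuationRing 𝒪] [CharZero 𝒪]
    [IsAdicComplete (maximalIdeal 𝒪) 𝒪] [Finite (ResidueField 𝒪)]
    (B : MltBase 𝒪), B.Valid → (B.p = 3 ∨ B.p = 5) →
    ∀ [NeZero (B.level ∅)], MltRT B ∅

/-- **CONTRACT [M], version 2 (the one which is proved)**: the minimal case for one base datum, with the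
hypotheses actually needed: `S0 = Smin ∪ cut`, existence of the universal rings `R_Σ` (lead's
`MlttRingAt`), and in the ordinary case helper7's case-C hypothesis (`ρbar|_{D_p}` très ramifié) -/
def MltMinAt (𝒪 : Type) [CommRing 𝒪] [IsDomain 𝒪] [IsDiscreteValuationRing 𝒪] [CharZero 𝒪]
    [IsAdicComplete (maximalIdeal 𝒪) 𝒪] [Finite (ResidueField 𝒪)] (B : MltBase 𝒪) : Prop :=
  B.Valid → (B.p = 3 ∨ B.p = 5) → B.S0 = B.Smin ∪ B.cut →
  (∀ Sig : Finset ℕ, B.IsAux Sig →
    Nonempty (GaloisRep.DeformationRingData 𝒪 B.ρbar (B.cond Sig))) →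
  (B.flat = false → MltTWOOrdFirstOrderStrict B.p B.ρbar) →
  ∀ [NeZero (B.level ∅)], MltRT B ∅

/-- **CONTRACT [M], version 2** for all base data -/
def MltMinContract2 : Prop :=
  ∀ (𝒪 : Type) [CommRing 𝒪] [IsDomain 𝒪] [IsDiscreteValuationRing 𝒪] [CharZero 𝒪]
    [IsAdicComplete (maximalIdeal 𝒪) 𝒪] [Finite (ResidueField 𝒪)]
    (B : MltBase 𝒪), MltMinAt 𝒪 B

end Fermat.Agent.MLT
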