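/-
MLT, stream [W] (helper8): **contracts of the stream `Wloc`** (the point of `W` on the deformation
rings, and modularity of `W` from a point of the Hecke algebra).

* `MltwSupersingular W p` : good supersingular reduction at `p` (`p ∤ Δ`, `p ∣ a_p(W)`);
* `MltwIsTate W p ρ` : the properties of the `p`-adic Tate module `ρ` of `W` over `𝒪` consumed by the
  deformation problems `D^flat_Σ`, `D^ord_Σ`: cyclotomic determinant, unramified at the good primes
  `q ≠ p`, unipotent inertia at the bad primes `q ≠ p`, Frobenius characteristic polynomials,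
  flat at `p` in the good supersingular case, ordinary at `p` otherwise (good ordinary or
  multiplicative reduction);
* `MltWlocTateContract` : existence of such a `ρ` lifting `W[p] ⊗ k`;
* `MltWlocModularContract` : a ring homomorphism from a Hecke algebra of level `N` (cube-free,
  `p² ∤ N`) away from `S` to a domain of characteristic zero with `T_ℓ ↦ a_ℓ(W)` at the good primes
  makes `W` modular of exact conductor level (the conclusion of S59).
-/
import Mathlib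
import Fermat.Prelude.Def_GaloisRep_Flat
import Fermat.Prelude.Def_GaloisRep_LocalConditions
import Fermat.Prelude.Def_GaloisRep_Residual
import Fermat.Prelude.Def_CuspForm_HeckeAlgebra
import Fermat.Prelude.Def_FLTPrelim_ModularRep
import Fermat.Prelude.Def_WeierstrassCurve_Mlc1RowStatement

set_option autoImplicit false

open Polynomial IsLocalRing
open scoped WeierstrassCurve.Affine

namespace Fermat.Agent.MLT

local notation "Qb" => AlgebraicClosure ℚ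
local notation "GQ" => (AlgebraicClosure ℚ ≃ₐ[ℚ] AlgebraicClosure ℚ)

/-- good supersingular reduction at `p` -/
def MltwSupersingular (W : WeierstrassCurve ℤ) (p : ℕ) : Prop :=
  ¬ (p : ℤ) ∣ W.Δ ∧ (p : ℤ) ∣ W.apOfModel p

/-- the properties of the `p`-adic Tate module of `W` over `𝒪` -/
structure MltwIsTate (W : WeierstrassCurve ℤ) (p : ℕ) {𝒪 : Type} [CommRing 𝒪] [IsLocalRing 𝒪]
    (ρ : GaloisRepAdic 𝒪) : Prop where
  det : ρ.DetIsCyclotomic p
  unram : ∀ q : ℕ, q.Prime → q ≠ p → ¬ (q : ℤ) ∣ W.Δ → ρ.IsUnramifiedAt q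
  unip : ∀ q : ℕ, q.Prime → q ≠ p → (q : ℤ) ∣ W.Δ → ρ.IsUnipotentOnInertiaAt q
  frob : ∀ ℓ : ℕ, ℓ.Prime → ℓ ≠ p → ¬ (ℓ : ℤ) ∣ W.Δ →
    ∀ A : ValuationSubring Qb, A.LiesOverPrime ℓ → ∀ σ : GQ, A.IsFrobeniusAt σ ℓ →
      LinearMap.charpoly (ρ.ρ σ) = X ^ 2 - C (((W.apOfModel ℓ : ℤ) : 𝒪)) * X + C ((ℓ : 𝒪))
  flat : MltwSupersingular W p → ρ.IsFlatAt p
  ord : ¬ MltwSupersingular W p → ρ.IsOrdinaryAt p

/-- **contract W-TATE**: the `p`-adic Tate module of a semistable `W` over `𝒪`, lifting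
`W[p] ⊗ k` -/
def MltWlocTateContract : Prop :=
  ∀ (p : ℕ) [Fact p.Prime], (p = 3 ∨ p = 5) →
  ∀ (W : WeierstrassCurve ℤ), W.Δ ≠ 0 → W.IsSemistableModel →
  ∀ (𝒪 : Type) [CommRing 𝒪] [IsDomain 𝒪] [IsDiscreteValuationRing 𝒪]
    [IsAdicComplete (maximalIdeal 𝒪) 𝒪] [CharZero 𝒪] [Finite (ResidueField 𝒪)],
    (p : 𝒪) ∈ maximalIdeal 𝒪 →
  ∀ (hcard : Nat.card (Submodule.torsionBy ℤ
        ((W.map (Int.castRingHom ℚ))⁄Qb).Point p) = p ^ 2)
    (hker : GaloisFactorsThroughFiniteLevel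
      (WeierstrassCurve.Affine.Point.galoisRepModuleEnd (K := Qb) ℚ
        (W.map (Int.castRingHom ℚ)) p))
    (ι : ZMod p →+* ResidueField 𝒪),
  ∃ ρ : GaloisRepAdic 𝒪, MltwIsTate W p ρ ∧
    ρ.residual.IsEquiv
      ((WeierstrassCurve.residualGaloisRepOf (W.map (Int.castRingHom ℚ)) p hcard hker).baseChangeAlong
        ι)

/-- **contract W-MOD**: modularity of exact conductor level from a point of a Hecke algebra -/
def MltWlocModularContract : Prop :=
  ∀ (p : ℕ) [Fact p.Prime], p ≠ 2 →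
  ∀ (W : WeierstrassCurve ℤ), W.Δ ≠ 0 → W.IsSemistableModel → W.ModRepIsIrreducible p →
  ∀ (N : ℕ) [NeZero N] (S : Finset ℕ),
    (∀ q : ℕ, q.Prime → ¬ q ^ 3 ∣ N) → ¬ p ^ 2 ∣ N →
    (∀ q : ℕ, q.Prime → (q : ℤ) ∣ W.Δ → q ∣ N ∨ q ∈ S) →
  ∀ (𝒪 : Type) [CommRing 𝒪] [IsDomain 𝒪] [CharZero 𝒪]
    (χ : CuspForm.heckeAlgebra N 2 (↑S : Set ℕ) →+* 𝒪),
    (∀ (ℓ : ℕ) (hℓ : ℓ.Prime) (hℓN : ¬ ℓ ∣ N) (hℓS : ℓ ∉ (↑S : Set ℕ)), ¬ (ℓ : ℤ) ∣ W.Δ →
      χ (CuspForm.heckeAlgebra.T hℓ hℓN hℓS) = ((W.apOfModel ℓ : ℤ) : 𝒪)) →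
    Mlc1IsModularModelOfExactConductorLevel W

end Fermat.Agent.MLT
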