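/-
MLT (project S59) / Top (lead): **the contracts consumed by `Top/Main.lean`** which are not stated
elsewhere (`Contracts/{L1,L2,AtPH,Min,Wloc}.lean`).

* `mlttFiniteAtP W p`       : `W[p]` is finite at `p` (`p ∣ v_p(Δ)`, good reduction included);
* `MlttMultOrdContract`     : `W` multiplicative at `p` ⇒ `W[p]` ordinary at `p` (helper8 (i));
* `MlttLocalFiveContract`   : the local hypothesis of `hTW` at `p = 5` (helper5);
* `MlttBaseContract`        : the base datum `B` of a semistable `W` at its minimal level (lead);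
* `MlttBijContract`         : `R_Σ ≅ T_Σ` for all admissible `Σ` (lead, from Min + Crit + TWO + Eta);
* `MlttRingContract`        : existence of the universal rings `R_Σ` (helper7 + helper8: D4 + S53);
* `MlttCompareContract`     : existence of the comparison map `R_Σ ↠ T_Σ` (helper2);
* `MlttTateContract`        : the `p`-adic Tate module of `W` over `𝒪` (helper8, v2: flat for every
  good `W`, ordinary for multiplicative `W`).
-/
import Mathlib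
import Fermat.Agent.Lib.MLT.Contracts.AtPH
import Fermat.Agent.Lib.MLT.Contracts.Wloc
import Fermat.Agent.Lib.MLT.Min.RT
import Fermat.Agent.Lib.MLT.Res.SL1f

set_option autoImplicit false
set_option linter.unusedSectionVars false
set_option linter.unusedVariables false

open IsLocalRing Polynomial Fermat.Agent.TW Fermat.Agent.Ihara WeierstrassCurve
open scoped WeierstrassCurve.Affine

namespace Fermat.Agent.MLT

local notation "Qb" => AlgebraicClosure ℚ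
local notation "GQ" => (AlgebraicClosure ℚ ≃ₐ[ℚ] AlgebraicClosure ℚ)

/-- `W[p]` is finite at `p`: `p ∣ v_p(Δ)` (the literal hypothesis of `MltpLowerAtPContract`) -/
def mlttFiniteAtP (W : WeierstrassCurve ℤ) (p : ℕ) : Prop :=
  (p : ℤ) ∣ padicValRat p (W.map (Int.castRingHom ℚ)).Δ

/-- **(i) of helper8**: multiplicative reduction at `p` ⇒ `W[p]` ordinary at `p` -/
def MlttMultOrdContract : Prop :=
  ∀ (p : ℕ), p.Prime → p ≠ 2 → ∀ W : WeierstrassCurve ℤ, W.Δ ≠ 0 → W.IsSemistableModel →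
    (p : ℤ) ∣ W.Δ → mltpResOrdinary W p

/-- **the local hypothesis of `hTW` at `p = 5`** (helper5) -/
def MlttLocalFiveContract : Prop :=
  ∀ [Fact (Nat.Prime 5)] (W : WeierstrassCurve ℤ), W.Δ ≠ 0 → W.IsSemistableModel →
    W.ModRepIsIrreducible 5 → MltrLocalAtP W 5

/-- **the base datum of `W`** at a minimal level `M` (squarefree, its primes `≠ p` are exactly the
primes where `W[p]` is ramified), flat (`p ∤ M`) or ordinary (`p ∣ M`, with a `U_p`-ordinary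
eigenform), in continuation-passing style -/
def MlttBaseContract : Prop :=
  ∀ (p : ℕ) [Fact p.Prime], (p = 3 ∨ p = 5) →
  ∀ (W : WeierstrassCurve ℤ) (hΔ : W.Δ ≠ 0), W.IsSemistableModel → W.ModRepIsIrreducible p →
    (p = 5 → MltrLocalAtP W p) →
  ∀ (M : ℕ) (flat : Bool), 0 < M → Squarefree M →
    (∀ q : ℕ, q.Prime → q ≠ p → (q ∣ M ↔ ¬ (mltrE W p hΔ).IsUnramifiedAt q)) →
    (flat = true → ¬ p ∣ M ∧ ¬ (p : ℤ) ∣ W.Δ ∧ W.IsResiduallyModularOfLevel p M) →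
    (flat = false → p ∣ M ∧ (p : ℤ) ∣ W.Δ ∧ mltpIsOrdResiduallyModularOfLevel W p M) →
  ∀ (C : Prop),
    (∀ (𝒪 : Type) [CommRing 𝒪] [IsDomain 𝒪] [IsDiscreteValuationRing 𝒪] [CharZero 𝒪]
      [IsAdicComplete (maximalIdeal 𝒪) 𝒪] [Finite (ResidueField 𝒪)]
      (B : MltBase 𝒪) (ι : ZMod p →+* ResidueField 𝒪),
      B.Valid → B.p = p → B.flat = flat →
      B.ρbar = (mltrE W p hΔ).baseChangeAlong ι →
      B.S0 = B.Smin ∪ B.cut →
      (∀ c ∈ B.cut, c ≠ p → ¬ (c : ℤ) ∣ W.Δ) →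
      (∀ (Sig : Finset ℕ), B.IsAux Sig → ∀ [NeZero (B.level Sig)],
        ∃ θ : CuspForm.heckeAlgebra (B.level Sig) 2 (↑(B.bad Sig) : Set ℕ) →+* ResidueField 𝒪,
          B.IsTheta Sig θ) → C) → C

section

variable (𝒪 : Type) [CommRing 𝒪] [IsDomain 𝒪] [IsDiscreteValuationRing 𝒪] [CharZero 𝒪]
  [IsAdicComplete (maximalIdeal 𝒪) 𝒪] [Finite (ResidueField 𝒪)]

/-- **`R_Σ ≅ T_Σ` for every admissible `Σ`**, for one base datum: every surjective comparison map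
`R_Σ ↠ T_Σ` is bijective (proved in `Top/Step.lean` from `MltMinContract`, the numerical criterion
`mltc_crit`/`mltc_base`, the growth bounds of TWO and Eta, (7) and (8)) -/
def MlttBijAt (B : MltBase 𝒪) : Prop :=
  B.Valid → (B.p = 3 ∨ B.p = 5) → B.S0 = B.Smin ∪ B.cut → ∀ Sig : Finset ℕ, B.IsAux Sig →
    ∀ [NeZero (B.level Sig)]
    (θ : CuspForm.heckeAlgebra (B.level Sig) 2 (↑(B.bad Sig) : Set ℕ) →+* ResidueField 𝒪),
    B.IsTheta Sig θ → ∀ (D : GaloisRep.DeformationRingData 𝒪 B.ρbar (B.cond Sig))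
      (Hk : CuspForm.HeckeGaloisRepDatum (B.level Sig) (↑(B.bad Sig) : Set ℕ) 𝒪 θ (IhdT 𝒪 θ)),
      Hk.π = ihdPi 𝒪 θ →
    ∀ (φ : D.R →ₐ[𝒪] IhdT 𝒪 θ) (hφ : IsLocalHom (φ : D.R →+* IhdT 𝒪 θ)),
      (D.ρ.baseChangeAlong (φ : D.R →+* IhdT 𝒪 θ) hφ).IsEquiv Hk.ρ → Function.Surjective φ →
      Function.Bijective φ

/-- existence of the universal rings for one base datum -/
def MlttRingAt (B : MltBase 𝒪) : Prop :=
  B.Valid → B.S0 = B.Smin ∪ B.cut → ∀ Sig : Finset ℕ, B.IsAux Sig →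
    Nonempty (GaloisRep.DeformationRingData 𝒪 B.ρbar (B.cond Sig))

/-- existence of the comparison map for one base datum -/
def MlttCompareAt (B : MltBase 𝒪) : Prop :=
  B.Valid → B.S0 = B.Smin ∪ B.cut → ∀ Sig : Finset ℕ, B.IsAux Sig → ∀ [NeZero (B.level Sig)]
    (θ : CuspForm.heckeAlgebra (B.level Sig) 2 (↑(B.bad Sig) : Set ℕ) →+* ResidueField 𝒪),
    B.IsTheta Sig θ → ∀ D : GaloisRep.DeformationRingData 𝒪 B.ρbar (B.cond Sig),
      ∃ (Hk : CuspForm.HeckeGaloisRepDatum (B.level Sig) (↑(B.bad Sig) : Set ℕ) 𝒪 θ (IhdT 𝒪 θ))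
        (φ : D.R →ₐ[𝒪] IhdT 𝒪 θ) (hφ : IsLocalHom (φ : D.R →+* IhdT 𝒪 θ)),
        Hk.π = ihdPi 𝒪 θ ∧
        (D.ρ.baseChangeAlong (φ : D.R →+* IhdT 𝒪 θ) hφ).IsEquiv Hk.ρ ∧ Function.Surjective φ

end

/-- **`R_Σ ≅ T_Σ` for every admissible `Σ`** (lead, `Top/Step.lean`) -/
def MlttBijContract : Prop :=
  ∀ (𝒪 : Type) [CommRing 𝒪] [IsDomain 𝒪] [IsDiscreteValuationRing 𝒪] [CharZero 𝒪]
    [IsAdicComplete (maximalIdeal 𝒪) 𝒪] [Finite (ResidueField 𝒪)] (B : MltBase 𝒪), MlttBijAt 𝒪 B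

/-- **existence of the universal rings** (D4 + S53) -/
def MlttRingContract : Prop :=
  ∀ (𝒪 : Type) [CommRing 𝒪] [IsDomain 𝒪] [IsDiscreteValuationRing 𝒪] [CharZero 𝒪]
    [IsAdicComplete (maximalIdeal 𝒪) 𝒪] [Finite (ResidueField 𝒪)] (B : MltBase 𝒪), MlttRingAt 𝒪 B

/-- **existence of the comparison maps** (helper2) -/
def MlttCompareContract : Prop :=
  ∀ (𝒪 : Type) [CommRing 𝒪] [IsDomain 𝒪] [IsDiscreteValuationRing 𝒪] [CharZero 𝒪]
    [IsAdicComplete (maximalIdeal 𝒪) 𝒪] [Finite (ResidueField 𝒪)] (B : MltBase 𝒪),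
    MlttCompareAt 𝒪 B

/-- the properties of the `p`-adic Tate module of `W` over `𝒪`, v2: flat at `p` for EVERY good `W`,
ordinary at `p` for multiplicative `W` -/
structure MlttIsTate (W : WeierstrassCurve ℤ) (p : ℕ) {𝒪 : Type} [CommRing 𝒪] [IsLocalRing 𝒪]
    (ρ : GaloisRepAdic 𝒪) : Prop where
  det : ρ.DetIsCyclotomic p
  unram : ∀ q : ℕ, q.Prime → q ≠ p → ¬ (q : ℤ) ∣ W.Δ → ρ.IsUnramifiedAt q
  unip : ∀ q : ℕ, q.Prime → q ≠ p → (q : ℤ) ∣ W.Δ → ρ.IsUnipotentOnInertiaAt q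
  frob : ∀ ℓ : ℕ, ℓ.Prime → ℓ ≠ p → ¬ (ℓ : ℤ) ∣ W.Δ →
    ∀ A : ValuationSubring Qb, A.LiesOverPrime ℓ → ∀ σ : GQ, A.IsFrobeniusAt σ ℓ →
      LinearMap.charpoly (ρ.ρ σ) = X ^ 2 - C (((W.apOfModel ℓ : ℤ) : 𝒪)) * X + C ((ℓ : 𝒪))
  flat : ¬ (p : ℤ) ∣ W.Δ → ρ.IsFlatAt p
  ord : (p : ℤ) ∣ W.Δ → ρ.IsOrdinaryAt p

/-- **contract W-TATE v2** -/
def MlttTateContract : Prop :=
  ∀ (p : ℕ) [Fact p.Prime], (p = 3 ∨ p = 5) →
  ∀ (W : WeierstrassCurve ℤ) (hΔ : W.Δ ≠ 0), W.IsSemistableModel →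
  ∀ (𝒪 : Type) [CommRing 𝒪] [IsDomain 𝒪] [IsDiscreteValuationRing 𝒪]
    [IsAdicComplete (maximalIdeal 𝒪) 𝒪] [CharZero 𝒪] [Finite (ResidueField 𝒪)],
    (p : 𝒪) ∈ maximalIdeal 𝒪 →
  ∀ (ι : ZMod p →+* ResidueField 𝒪),
  ∃ ρ : GaloisRepAdic 𝒪, MlttIsTate W p ρ ∧
    ρ.residual.IsEquiv ((mltrE W p hΔ).baseChangeAlong ι)

end Fermat.Agent.MLT
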