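/-
MLT / Contracts (helper8): **contract PEU-FLAT, PROVEN**: for a semistable `W`, multiplicative at the
odd prime `p` with `p ∣ ord_p Δ` (`mlttFiniteAtP W p`), the residual representation `W[p] ⊗ k` is FLAT at
`p` (the local condition `mltX p true` of the flat base datum of case (C')).
-/
import Mathlib
import Fermat.Agent.Lib.MLT.Contracts.Top
import Fermat.Agent.Lib.MLT.FlatOrd.PeuTate

set_option autoImplicit false
set_option linter.unusedSectionVars false
set_option linter.unusedVariables false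

open IsLocalRing

namespace Fermat.Agent.MLT

/-- **contract PEU-FLAT**: `W` multiplicative at `p`, `p ∣ ord_p Δ` ⇒ `W[p] ⊗ k` is flat at `p` -/
def MlttPeuFlatContract : Prop :=
  ∀ (p : ℕ) [Fact p.Prime], p ≠ 2 →
  ∀ (W : WeierstrassCurve ℤ) (hΔ : W.Δ ≠ 0), W.IsSemistableModel → (p : ℤ) ∣ W.Δ →
    mlttFiniteAtP W p →
  ∀ (k : Type) [Field k] [Finite k] (ι : ZMod p →+* k),
    (GaloisRepAdic.ofResidualGaloisRep ((mltrE W p hΔ).baseChangeAlong ι)).IsFlatAt p

/-- **`MlttPeuFlatContract`** -/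
theorem mltfo_peuFlatContract : MlttPeuFlatContract := by
  intro p _ hp2 W hΔ hss hbad hfin k _ _ ι
  exact mltfo_isFlatAt_mult p hp2 W hΔ hbad (hss p Fact.out hbad) hfin ι

/-- the same in the form of the local condition `mltX p true` of `Min/Defs.lean` -/
theorem mltfo_mltX_mult (p : ℕ) [Fact p.Prime] (hp2 : p ≠ 2) (W : WeierstrassCurve ℤ) (hΔ : W.Δ ≠ 0)
    (hss : W.IsSemistableModel) (hbad : (p : ℤ) ∣ W.Δ) (hfin : mlttFiniteAtP W p)
    {k : Type} [Field k] [Finite k] (ι : ZMod p →+* k) :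
    mltX p true (GaloisRepAdic.ofResidualGaloisRep ((mltrE W p hΔ).baseChangeAlong ι)) :=
  mltfo_isFlatAt_mult p hp2 W hΔ hbad (hss p Fact.out hbad) hfin ι

end Fermat.Agent.MLT
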