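import Fermat.Prelude.Def_FLTPrelim_Modularity
import Fermat.Prelude.Def_CuspForm_HeckeAlgebra

/-!
# MLT contracts: (7) Ramanujan–Petersson at `q`, weak strict form (owner: helper6)

The numerical criterion step at an auxiliary prime `q` needs `c_q(a) ≠ 0`, i.e.
`a_q(f) ≠ ± (q + 1)` for the base eigenform `f` of level prime to `q`.  We state (and prove in
`Lib/MLT/Crit/RP.lean`) the strict trivial bound `|λ| < q + 1` for every eigenvalue `λ` of `T_q` on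
`S₂(Γ₀(N))`, `q ∤ N`.
-/

set_option autoImplicit false

namespace Fermat.Agent.MLT

open CongruenceSubgroup

/-- every eigenvalue of `T_q` (`q ∤ N`) on `S₂(Γ₀(N))` has absolute value `< q + 1`. -/
def MltRPEigenContract : Prop :=
  ∀ (N : ℕ) [NeZero N] (q : ℕ) (hq : q.Prime) (hqN : ¬ q ∣ N)
    (f : CuspForm (Gamma0 N) 2), f ≠ 0 → ∀ a : ℂ,
      CuspForm.heckeTLin 2 hq hqN f = a • f → ‖a‖ < (q : ℝ) + 1

/-- `|a_q(f)| < q + 1` for normalised eigenforms of level prime to `q`. -/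
def MltRPContract : Prop :=
  ∀ (N : ℕ) [NeZero N] (q : ℕ), q.Prime → ¬ q ∣ N →
    ∀ f : CuspForm (Gamma0 N) 2, f.IsNormalizedEigenform →
      ‖ModularFormClass.qCoeff f q‖ < (q : ℝ) + 1

/-- the form used by the numerical criterion: `a_q(f) ≠ ± (q + 1)`. -/
def MltRPNeContract : Prop :=
  ∀ (N : ℕ) [NeZero N] (q : ℕ), q.Prime → ¬ q ∣ N →
    ∀ f : CuspForm (Gamma0 N) 2, f.IsNormalizedEigenform →
      ModularFormClass.qCoeff f q ≠ (q : ℂ) + 1 ∧ ModularFormClass.qCoeff f q ≠ -((q : ℂ) + 1)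

/-- `T_q - c` is injective on `S₂(Γ₀(N))` for `q + 1 ≤ |c|`. -/
def MltRPInjContract : Prop :=
  ∀ (N : ℕ) [NeZero N] (q : ℕ) (hq : q.Prime) (hqN : ¬ q ∣ N) (c : ℂ), (q : ℝ) + 1 ≤ ‖c‖ →
    Function.Injective (CuspForm.heckeTLin 2 hq hqN - c • (LinearMap.id :
      CuspForm (Gamma0 N) 2 →ₗ[ℂ] CuspForm (Gamma0 N) 2))

end Fermat.Agent.MLT
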