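/-
Project MLT, stream TWO (helper7): CONTRACT "très ramifié" (statement only).

`MltoTres p ρbar` : at every place `P | p` the restriction of `ρbar` to the decomposition group is
an extension `(x *; 0 z)` with `z² = 1` (strictly ordinary), and the extension class is TRÈS
RAMIFIÉ, in Kummer form: on the inertia group `ι w - w = a(ι) v₀` with `a` valued in `𝔽_p`, and
an exact Kummer generator `y` of the cocycle `a` (`ι y = ζ ^ a(ι) y` for all `ι ∈ I_P`) has
`ord_P (y ^ p) ∉ p ℤ`.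

Consumer: `Lib/MLT/TWO/Tres*.lean` (`mlto_hC_of_tres : MltoTres p ρbar →
MltTWOOrdFirstOrderStrict p ρbar`).
Producer: stream [P]/[W] for `ρbar = mltrE W p hΔ`, `W` multiplicative at `p`, `p ∤ ord_p Δ`.
-/
import Fermat.Agent.Lib.TW.Flat.Base
import Fermat.Prelude.Def_GaloisRep_Residual

set_option autoImplicit false

namespace Fermat.Agent.MLT

open Fermat.Agent.TW Fermat.Agent.S05Lib

local notation "Qb" => AlgebraicClosure ℚ
local notation "GQ" => (AlgebraicClosure ℚ ≃ₐ[ℚ] AlgebraicClosure ℚ)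

/-- **Case C, Kummer form**: `ρbar` is strictly ordinary and très ramifié at every place over
`p`. -/
def MltoTres (p : ℕ) [Fact p.Prime] {k : Type} [Field k] [Algebra (ZMod p) k]
    (ρbar : ResidualGaloisRep k) : Prop :=
  ∀ (P : ValuationSubring Qb) (hP : P.LiesOverPrime p),
    ∃ (v₀ w : ρbar.V) (ζ : Qb) (a : GQ → ZMod p) (y : Qb),
      v₀ ≠ 0 ∧ (∀ c : k, w ≠ c • v₀) ∧ IsPrimitiveRoot ζ p ∧
      (∀ σ ∈ P.decompositionSubgroup ℚ, ∃ x z c : k, z * z = 1 ∧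
        ρbar.ρ σ v₀ = x • v₀ ∧ ρbar.ρ σ w = z • w + c • v₀) ∧
      (∀ ι ∈ P.inertiaSubgroupIn ℚ,
        ρbar.ρ ι w = w + algebraMap (ZMod p) k (a ι) • v₀ ∧ ι y = ζ ^ (a ι).val * y) ∧
      y ≠ 0 ∧
      ∃ n : ℤ, (FFPlace.mk P p Fact.out hP).v.Is (y ^ p) n ∧ ¬ (p : ℤ) ∣ n

end Fermat.Agent.MLT
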