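/-
MLT (project S59) / Top (lead): **the contract of the step at `p`** (case (C'): `W` multiplicative at
`p` with `W[p]` finite at `p`), in the form consumed by `Top/Main.lean`.

`MlttToOrdAt 𝒪 B` : `B` a valid FLAT base datum (level prime to `p`) whose `ρbar` is also of ordinary
type, with `R_∅ ≅ T_∅` (`MltRT B ∅`) and an eigensystem at the minimal level.  Then there is a unit
`lamp` such that the ordinary base datum `B.toOrd lamp` (level `N0 p`) is valid, has residual
eigencharacters at every admissible level and satisfies `R_Σ ≅ T_Σ` for every admissible `Σ`.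
(helper6: `Top/StepP.lean` from (D-fl), (D-new), (G1a), (pΦ), (pE), (pΩ).)
-/
import Mathlib
import Fermat.Agent.Lib.MLT.Contracts.Top
import Fermat.Agent.Lib.MLT.Contracts.StepP

set_option autoImplicit false
set_option linter.unusedSectionVars false
set_option linter.unusedVariables false

open IsLocalRing Polynomial Fermat.Agent.TW Fermat.Agent.Ihara

namespace Fermat.Agent.MLT

/-- **the step at `p`** for one flat base datum -/
def MlttToOrdAt (𝒪 : Type) [CommRing 𝒪] [IsDomain 𝒪] [IsDiscreteValuationRing 𝒪] [CharZero 𝒪]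
    [IsAdicComplete (maximalIdeal 𝒪) 𝒪] [Finite (ResidueField 𝒪)] (B : MltBase 𝒪) : Prop :=
  B.Valid → B.flat = true → (B.p = 3 ∨ B.p = 5) → B.S0 = B.Smin ∪ B.cut →
  (∀ [NeZero (B.level ∅)], MltRT B ∅) →
  mltCond 𝒪 B.p false B.Smin ∅ (GaloisRepAdic.ofResidualGaloisRep B.ρbar) →
  (∀ a : ℕ → 𝒪, (∀ [NeZero (B.level ∅)], mltcEig B ∅ a ≠ ⊥) →
    ∃ lamp : 𝒪, (B.toOrd lamp).Valid ∧ MltcThetaAt 𝒪 (B.toOrd lamp) ∧ MlttBijAt 𝒪 (B.toOrd lamp))

/-- **the step at `p`** for every flat base datum -/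
def MlttToOrdContract : Prop :=
  ∀ (𝒪 : Type) [CommRing 𝒪] [IsDomain 𝒪] [IsDiscreteValuationRing 𝒪] [CharZero 𝒪]
    [IsAdicComplete (maximalIdeal 𝒪) 𝒪] [Finite (ResidueField 𝒪)] (B : MltBase 𝒪), MlttToOrdAt 𝒪 B

end Fermat.Agent.MLT
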