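/-
MLT, stream [W] (helper8): **contracts of the stream `Wloc`, version 2** (v1 = `Contracts/Wloc.lean`
stays valid; `MltWlocModularContract` is proved there as `mltw_modular`).

What changed: FLAT is now proved for EVERY prime of good reduction (ordinary or supersingular), and
ORD is proved at the primes of MULTIPLICATIVE reduction from ONE local input, `MltwOrdInput W p`
(stream [P-Galois], helper5): the "kernel of reduction" `T ⊆ W(ℚ̄)` at a place over `p`.

* `MltwOrdInput W p`     : for every place `P ∣ p` a subgroup `T` of `W(ℚ̄)`, stable under the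
  decomposition group, with `#T[p^j] = p^j` and `σ x - x ∈ T` for `σ` in the inertia group and
  `x ∈ W[p^n]` (`T = ` kernel of reduction / `μ_{p^∞}` of the Tate curve);
* `MltwOrdInputWeak W p` : the consequence actually used: at every level `n` the elements
  `σ x - x` (`σ` in inertia, `x ∈ W[p^n]`) lie in ONE cyclic subgroup `ℤ t`, `t ∈ W[p^n]`;
* `MltwIsTate2 W p ρ`    : `MltwIsTate` with `flat` at every good `p` and `ord` at multiplicative `p`;
* `MltWlocTateContract2` : existence of the Tate module with these properties, GIVEN the input at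
  the multiplicative `p`.
-/
import Mathlib
import Fermat.Agent.Lib.MLT.Contracts.Wloc

set_option autoImplicit false

open Polynomial IsLocalRing
open scoped WeierstrassCurve.Affine

namespace Fermat.Agent.MLT

local notation "Qb" => AlgebraicClosure ℚ
local notation "GQ" => (AlgebraicClosure ℚ ≃ₐ[ℚ] AlgebraicClosure ℚ)

/-- **the local input at a prime of multiplicative reduction** (helper5): the kernel of reduction -/
def MltwOrdInput (W : WeierstrassCurve ℤ) (p : ℕ) : Prop :=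
  ∀ P : ValuationSubring Qb, P.LiesOverPrime p →
    ∃ T : AddSubgroup ((W.map (Int.castRingHom ℚ))⁄Qb).Point,
      (∀ j : ℕ, Nat.card {x : ((W.map (Int.castRingHom ℚ))⁄Qb).Point //
        x ∈ T ∧ p ^ j • x = 0} = p ^ j) ∧
      (∀ σ ∈ P.decompositionSubgroup ℚ, ∀ x ∈ T, σ • x ∈ T) ∧
      (∀ σ ∈ P.inertiaSubgroupIn ℚ, ∀ (n : ℕ) (x : ((W.map (Int.castRingHom ℚ))⁄Qb).Point),
        p ^ n • x = 0 → σ • x - x ∈ T)

/-- the consequence of `MltwOrdInput` which is used: inertia moves `W[p^n]` inside one cyclic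
subgroup -/
def MltwOrdInputWeak (W : WeierstrassCurve ℤ) (p : ℕ) : Prop :=
  ∀ P : ValuationSubring Qb, P.LiesOverPrime p → ∀ n : ℕ,
    ∃ t : ((W.map (Int.castRingHom ℚ))⁄Qb).Point, p ^ n • t = 0 ∧
      ∀ σ ∈ P.inertiaSubgroupIn ℚ, ∀ x : ((W.map (Int.castRingHom ℚ))⁄Qb).Point,
        p ^ n • x = 0 → ∃ k : ℤ, σ • x - x = k • t

/-- the properties of the `p`-adic Tate module of `W` over `𝒪`, version 2 -/
structure MltwIsTate2 (W : WeierstrassCurve ℤ) (p : ℕ) {𝒪 : Type} [CommRing 𝒪] [IsLocalRing 𝒪]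
    (ρ : GaloisRepAdic 𝒪) : Prop where
  det : ρ.DetIsCyclotomic p
  unram : ∀ q : ℕ, q.Prime → q ≠ p → ¬ (q : ℤ) ∣ W.Δ → ρ.IsUnramifiedAt q
  unip : ∀ q : ℕ, q.Prime → q ≠ p → (q : ℤ) ∣ W.Δ → ρ.IsUnipotentOnInertiaAt q
  frob : ∀ ℓ : ℕ, ℓ.Prime → ℓ ≠ p → ¬ (ℓ : ℤ) ∣ W.Δ →
    ∀ A : ValuationSubring Qb, A.LiesOverPrime ℓ → ∀ σ : GQ, A.IsFrobeniusAt σ ℓ →
      LinearMap.charpoly (ρ.ρ σ) = X ^ 2 - C (((W.apOfModel ℓ : ℤ) : 𝒪)) * X + C ((ℓ : 𝒪))
  flat : ¬ (p : ℤ) ∣ W.Δ → ρ.IsFlatAt p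
  ord : (p : ℤ) ∣ W.Δ → ρ.IsOrdinaryAt p

/-- **contract W-TATE, version 2**: the `p`-adic Tate module of a semistable `W` over `𝒪`, lifting
`W[p] ⊗ k`, flat at `p` if `p` is good, ordinary at `p` if `p` is multiplicative (given the local
input there) -/
def MltWlocTateContract2 : Prop :=
  ∀ (p : ℕ) [Fact p.Prime], p ≠ 2 →
  ∀ (W : WeierstrassCurve ℤ), W.Δ ≠ 0 → W.IsSemistableModel →
    ((p : ℤ) ∣ W.Δ → MltwOrdInputWeak W p) →
  ∀ (𝒪 : Type) [CommRing 𝒪] [IsDomain 𝒪] [IsDiscreteValuationRing 𝒪]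
    [IsAdicComplete (maximalIdeal 𝒪) 𝒪] [CharZero 𝒪] [Finite (ResidueField 𝒪)],
    (p : 𝒪) ∈ maximalIdeal 𝒪 →
  ∀ (hcard : Nat.card (Submodule.torsionBy ℤ
        ((W.map (Int.castRingHom ℚ))⁄Qb).Point p) = p ^ 2)
    (hker : GaloisFactorsThroughFiniteLevel
      (WeierstrassCurve.Affine.Point.galoisRepModuleEnd (K := Qb) ℚ
        (W.map (Int.castRingHom ℚ)) p))
    (ι : ZMod p →+* ResidueField 𝒪),
  ∃ ρ : GaloisRepAdic 𝒪, MltwIsTate2 W p ρ ∧
    ρ.residual.IsEquiv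
      ((WeierstrassCurve.residualGaloisRepOf (W.map (Int.castRingHom ℚ)) p hcard hker).baseChangeAlong
        ι)

end Fermat.Agent.MLT
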